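import Mathlib
import Fermat.Prelude.Def_FLTPrelim_FreyPackage

set_option autoImplicit false

namespace Fermat.Agent.S05

variable (P : FreyPackage)

/-- `A = a^p` as a rational number. -/
noncomputable def fA : ℚ := (P.a : ℚ) ^ P.p
/-- `B = b^p` as a rational number. -/
noncomputable def fB : ℚ := (P.b : ℚ) ^ P.p
/-- `C = c^p` as a rational number. -/
noncomputable def fC : ℚ := (P.c : ℚ) ^ P.p

theorem fA_add_fB : fA P + fB P = fC P := by
  unfold fA fB fC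
  exact_mod_cast P.hFLT

theorem freyCurve_a₁ : P.freyCurve.a₁ = 1 := rfl
theorem freyCurve_a₂ : P.freyCurve.a₂ = (fB P - 1 - fA P) / 4 := by
  simp [FreyPackage.freyCurve, fA, fB]
theorem freyCurve_a₃ : P.freyCurve.a₃ = 0 := rfl
theorem freyCurve_a₄ : P.freyCurve.a₄ = -(fA P * fB P) / 16 := by
  simp [FreyPackage.freyCurve, fA, fB]
theorem freyCurve_a₆ : P.freyCurve.a₆ = 0 := rfl

theorem freyCurve_b₂ : P.freyCurve.b₂ = fB P - fA P := by
  rw [WeierstrassCurve.b₂, freyCurve_a₁, freyCurve_a₂]; ring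
theorem freyCurve_b₄ : P.freyCurve.b₄ = -(fA P * fB P) / 8 := by
  rw [WeierstrassCurve.b₄, freyCurve_a₁, freyCurve_a₃, freyCurve_a₄]; ring
theorem freyCurve_b₆ : P.freyCurve.b₆ = 0 := by
  rw [WeierstrassCurve.b₆, freyCurve_a₃, freyCurve_a₆]; ring
theorem freyCurve_b₈ : P.freyCurve.b₈ = -(fA P * fB P) ^ 2 / 256 := by
  rw [WeierstrassCurve.b₈, freyCurve_a₁, freyCurve_a₃, freyCurve_a₄, freyCurve_a₆]; ring
theorem freyCurve_Δ : P.freyCurve.Δ = (fA P * fB P * fC P) ^ 2 / 256 := by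
  rw [WeierstrassCurve.Δ, freyCurve_b₂, freyCurve_b₄, freyCurve_b₆, freyCurve_b₈, ← fA_add_fB]
  ring

/-- The `2`-division polynomial of the Frey curve splits with rational roots
`0, a^p/4, -b^p/4`. -/
theorem freyCurve_twoTorsion_factor (x : ℚ) :
    4 * x ^ 3 + P.freyCurve.b₂ * x ^ 2 + 2 * P.freyCurve.b₄ * x + P.freyCurve.b₆ =
      4 * (x - 0) * (x - fA P / 4) * (x - (-(fB P) / 4)) := by
  rw [freyCurve_b₂, freyCurve_b₄, freyCurve_b₆]; ring

theorem padicValRat_four {q : ℕ} (hq : q.Prime) (hq2 : q ≠ 2) : padicValRat q 4 = 0 := by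
  have h4 : (4 : ℚ) = ((4 : ℕ) : ℚ) := by norm_num
  rw [h4, padicValRat.of_nat]
  have : ¬ q ∣ 4 := by
    intro h
    have h2 : q ∣ 2 ^ 2 := by norm_num; exact h
    have := (Nat.prime_dvd_prime_iff_eq hq Nat.prime_two).mp (hq.dvd_of_dvd_pow h2)
    exact hq2 this
  simp [padicValNat.eq_zero_of_not_dvd this]

theorem padicValRat_int_pow_div_four {q : ℕ} (hq : q.Prime) (hq2 : q ≠ 2) (x : ℤ) (hx : x ≠ 0)
    (p : ℕ) : padicValRat q ((x : ℚ) ^ p / 4) = p * padicValInt q x := by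
  have := Fact.mk hq
  have hx' : (x : ℚ) ≠ 0 := by exact_mod_cast hx
  rw [padicValRat.div (pow_ne_zero _ hx') (by norm_num), padicValRat.pow,
    padicValRat_four hq hq2, sub_zero, padicValRat.of_int]

theorem padicValInt_pos_iff {q : ℕ} (hq : q.Prime) (x : ℤ) (hx : x ≠ 0) :
    0 < padicValInt q x ↔ (q : ℤ) ∣ x := by
  rw [Nat.pos_iff_ne_zero, Ne, padicValInt.eq_zero_iff]
  constructor
  · intro h
    by_contra hd
    exact h (Or.inr (Or.inr hd))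
  · rintro h (h1 | h1 | h1)
    · exact hq.one_lt.ne' h1
    · exact hx h1
    · exact h1 h


theorem not_dvd_two_of_coprime {q : ℕ} (hq : q.Prime) {x y : ℤ} (h : gcd x y = 1)
    (hx : (q : ℤ) ∣ x) (hy : (q : ℤ) ∣ y) : False := by
  have h1 : (q : ℤ) ∣ gcd x y := dvd_gcd hx hy
  rw [h] at h1
  have h2 : q ∣ 1 := by
    have := Int.natCast_dvd.mp h1
    simpa using this
  exact hq.one_lt.ne' (Nat.dvd_one.mp h2)

/-- The valuations of the three root differences `a^p/4`, `b^p/4`, `c^p/4` at an odd prime `q`: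
either all are `0`, or exactly one is a positive multiple of `p` and the other two are `0`. -/
theorem frey_val_cases {q : ℕ} (hq : q.Prime) (hq2 : q ≠ 2) :
    (padicValRat q (fA P / 4) = 0 ∧ padicValRat q (fB P / 4) = 0 ∧ padicValRat q (fC P / 4) = 0) ∨
    (∃ k : ℕ, 0 < k ∧ padicValRat q (fA P / 4) = P.p * k ∧
      padicValRat q (fB P / 4) = 0 ∧ padicValRat q (fC P / 4) = 0) ∨
    (∃ k : ℕ, 0 < k ∧ padicValRat q (fB P / 4) = P.p * k ∧
      padicValRat q (fA P / 4) = 0 ∧ padicValRat q (fC P / 4) = 0) ∨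
    (∃ k : ℕ, 0 < k ∧ padicValRat q (fC P / 4) = P.p * k ∧
      padicValRat q (fA P / 4) = 0 ∧ padicValRat q (fB P / 4) = 0) := by
  have hA := padicValRat_int_pow_div_four hq hq2 P.a P.ha0 P.p
  have hB := padicValRat_int_pow_div_four hq hq2 P.b P.hb0 P.p
  have hC := padicValRat_int_pow_div_four hq hq2 P.c P.hc0 P.p
  have zero_of_not_dvd : ∀ x : ℤ, x ≠ 0 → ¬ (q : ℤ) ∣ x → padicValInt q x = 0 := by
    intro x hx hd
    by_contra h0
    exact hd ((padicValInt_pos_iff hq x hx).mp (Nat.pos_of_ne_zero h0))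
  unfold fA fB fC
  by_cases ha : (q : ℤ) ∣ P.a
  · have hb : ¬ (q : ℤ) ∣ P.b := fun hb => not_dvd_two_of_coprime hq P.hgcdab ha hb
    have hc : ¬ (q : ℤ) ∣ P.c := fun hc => not_dvd_two_of_coprime hq P.hgcdac ha hc
    refine Or.inr (Or.inl ⟨padicValInt q P.a, (padicValInt_pos_iff hq _ P.ha0).mpr ha, hA, ?_, ?_⟩)
    · rw [hB, zero_of_not_dvd _ P.hb0 hb]; simp
    · rw [hC, zero_of_not_dvd _ P.hc0 hc]; simp
  by_cases hb : (q : ℤ) ∣ P.b
  · have hc : ¬ (q : ℤ) ∣ P.c := fun hc => not_dvd_two_of_coprime hq P.hgcdbc hb hc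
    refine Or.inr (Or.inr (Or.inl
      ⟨padicValInt q P.b, (padicValInt_pos_iff hq _ P.hb0).mpr hb, hB, ?_, ?_⟩))
    · rw [hA, zero_of_not_dvd _ P.ha0 ha]; simp
    · rw [hC, zero_of_not_dvd _ P.hc0 hc]; simp
  by_cases hc : (q : ℤ) ∣ P.c
  · refine Or.inr (Or.inr (Or.inr
      ⟨padicValInt q P.c, (padicValInt_pos_iff hq _ P.hc0).mpr hc, hC, ?_, ?_⟩))
    · rw [hA, zero_of_not_dvd _ P.ha0 ha]; simp
    · rw [hB, zero_of_not_dvd _ P.hb0 hb]; simp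
  · refine Or.inl ⟨?_, ?_, ?_⟩
    · rw [hA, zero_of_not_dvd _ P.ha0 ha]; simp
    · rw [hB, zero_of_not_dvd _ P.hb0 hb]; simp
    · rw [hC, zero_of_not_dvd _ P.hc0 hc]; simp


/-- Uniform labelling of the `2`-torsion `x`-coordinates of the Frey curve at an odd prime `q`:
the roots can be ordered `r₁, r₂, r₃` so that `v(r₁ - r₂) = n` with `p ∣ n` (and `n = 0` in the
good reduction case), while `r₁ - r₃` and `r₂ - r₃` are `q`-adic units. -/
theorem frey_roots_labelled {q : ℕ} (hq : q.Prime) (hq2 : q ≠ 2) :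
    ∃ (r₁ r₂ r₃ : ℚ) (k : ℕ),
      (∀ x : ℚ, 4 * x ^ 3 + P.freyCurve.b₂ * x ^ 2 + 2 * P.freyCurve.b₄ * x + P.freyCurve.b₆ =
        4 * (x - r₁) * (x - r₂) * (x - r₃)) ∧
      padicValRat q (r₁ - r₂) = P.p * k ∧ padicValRat q (r₁ - r₃) = 0 ∧
      padicValRat q (r₂ - r₃) = 0 := by
  have hfac := freyCurve_twoTorsion_factor P
  have hABC := fA_add_fB P
  have e1 : (0 : ℚ) - fA P / 4 = -(fA P / 4) := by ring
  have e2 : (0 : ℚ) - -(fB P) / 4 = fB P / 4 := by ring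
  have e3 : fA P / 4 - -(fB P) / 4 = fC P / 4 := by rw [← hABC]; ring
  have e4 : -(fB P) / 4 - fA P / 4 = -(fC P / 4) := by rw [← hABC]; ring
  have e5 : fA P / 4 - 0 = fA P / 4 := by ring
  have e6 : -(fB P) / 4 - 0 = -(fB P / 4) := by ring
  rcases frey_val_cases P hq hq2 with ⟨hA, hB, hC⟩ | ⟨k, -, hA, hB, hC⟩ | ⟨k, -, hB, hA, hC⟩ |
    ⟨k, -, hC, hA, hB⟩
  · refine ⟨0, fA P / 4, -(fB P) / 4, 0, hfac, ?_, ?_, ?_⟩
    · rw [e1, padicValRat.neg, hA]; simp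
    · rw [e2, hB]
    · rw [e3, hC]
  · refine ⟨0, fA P / 4, -(fB P) / 4, k, hfac, ?_, ?_, ?_⟩
    · rw [e1, padicValRat.neg, hA]
    · rw [e2, hB]
    · rw [e3, hC]
  · refine ⟨0, -(fB P) / 4, fA P / 4, k, fun x => by rw [hfac x]; ring, ?_, ?_, ?_⟩
    · rw [e2, hB]
    · rw [e1, padicValRat.neg, hA]
    · rw [e4, padicValRat.neg, hC]
  · refine ⟨fA P / 4, -(fB P) / 4, 0, k, fun x => by rw [hfac x]; ring, ?_, ?_, ?_⟩
    · rw [e3, hC]
    · rw [e5, hA]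
    · rw [e6, padicValRat.neg, hB]

/-- The rational unit `ρ` with `(x'-r₁)(x'-r₂)(x'-r₃) = (q^j)^2 ρ` for `x' = r₁ + q^j`,
`0 < j < v(r₁ - r₂)`, `v(r₁ - r₃) = 0`. -/
theorem fixed_point_datum {q : ℕ} (hq : q.Prime) (r₁ r₂ r₃ : ℚ) (n j : ℤ)
    (h12 : r₁ ≠ r₂) (hn : padicValRat q (r₁ - r₂) = n) (h13 : padicValRat q (r₁ - r₃) = 0)
    (hr13 : r₁ ≠ r₃) (hj : 0 < j) (hjn : j < n) :
    ∃ ρ : ℚ, ρ ≠ 0 ∧ padicValRat q ρ = 0 ∧
      ((r₁ + (q : ℚ) ^ j) - r₁) * ((r₁ + (q : ℚ) ^ j) - r₂) * ((r₁ + (q : ℚ) ^ j) - r₃) =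
        ((q : ℚ) ^ j) ^ 2 * ρ := by
  have := Fact.mk hq
  have hq0 : (q : ℚ) ≠ 0 := by exact_mod_cast hq.ne_zero
  have hqj0 : (q : ℚ) ^ j ≠ 0 := zpow_ne_zero _ hq0
  have hvq : padicValRat q ((q : ℚ) ^ j) = j := by
    rw [padicValRat.zpow, padicValRat.self hq.one_lt, mul_one]
  have h12' : r₁ - r₂ ≠ 0 := sub_ne_zero.mpr h12
  have h13' : r₁ - r₃ ≠ 0 := sub_ne_zero.mpr hr13
  -- first factor
  have hv1 : padicValRat q ((r₁ - r₂) / (q : ℚ) ^ j) = n - j := by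
    rw [padicValRat.div h12' hqj0, hn, hvq]
  have hne1 : (1 : ℚ) + (r₁ - r₂) / (q : ℚ) ^ j ≠ 0 := by
    intro h0
    have h1 : (r₁ - r₂) / (q : ℚ) ^ j = -1 := by linarith
    rw [h1, padicValRat.neg, padicValRat.one] at hv1
    linarith
  have hu1 : padicValRat q (1 + (r₁ - r₂) / (q : ℚ) ^ j) = 0 := by
    have hne : (r₁ - r₂) / (q : ℚ) ^ j ≠ 0 := div_ne_zero h12' hqj0
    have hlt : padicValRat q (1 : ℚ) < padicValRat q ((r₁ - r₂) / (q : ℚ) ^ j) := by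
      rw [hv1, padicValRat.one]; linarith
    rw [padicValRat.add_eq_of_lt hne1 one_ne_zero hne hlt, padicValRat.one]
  have hne2 : (r₁ - r₃) + (q : ℚ) ^ j ≠ 0 := by
    intro h0
    have h1 : (q : ℚ) ^ j = -(r₁ - r₃) := by linarith
    rw [h1, padicValRat.neg, h13] at hvq
    have : (0 : ℤ) = j := by exact_mod_cast hvq
    omega
  have hu2 : padicValRat q ((q : ℚ) ^ j + (r₁ - r₃)) = 0 := by
    have hlt : padicValRat q (r₁ - r₃) < padicValRat q ((q : ℚ) ^ j) := by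
      rw [h13, hvq]; exact hj
    rw [add_comm, padicValRat.add_eq_of_lt hne2 h13' hqj0 hlt, h13]
  have hne2' : (q : ℚ) ^ j + (r₁ - r₃) ≠ 0 := by rwa [add_comm]
  refine ⟨(1 + (r₁ - r₂) / (q : ℚ) ^ j) * ((q : ℚ) ^ j + (r₁ - r₃)), mul_ne_zero hne1 hne2', ?_, ?_⟩
  · rw [padicValRat.mul hne1 hne2', hu1, hu2, add_zero]
  · field_simp
    ring

theorem padicValRat_int_div_pow_two_nonneg {q : ℕ} (hq : q.Prime) (hq2 : q ≠ 2) (n : ℤ) (k : ℕ) :
    0 ≤ padicValRat q ((n : ℚ) / 2 ^ k) := by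
  have := Fact.mk hq
  rcases eq_or_ne n 0 with rfl | hn
  · simp
  have hn' : (n : ℚ) ≠ 0 := by exact_mod_cast hn
  have h2 : padicValRat q (2 : ℚ) = 0 := by
    have h2' : (2 : ℚ) = ((2 : ℕ) : ℚ) := by norm_num
    rw [h2', padicValRat.of_nat]
    have : ¬ q ∣ 2 := fun h => hq2 ((Nat.prime_dvd_prime_iff_eq hq Nat.prime_two).mp h)
    simp [padicValNat.eq_zero_of_not_dvd this]
  rw [padicValRat.div hn' (pow_ne_zero _ two_ne_zero), padicValRat.pow, h2, mul_zero, sub_zero,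
    padicValRat.of_int]
  exact_mod_cast Nat.zero_le _

theorem freyCurve_a₂_integral {q : ℕ} (hq : q.Prime) (hq2 : q ≠ 2) :
    0 ≤ padicValRat q P.freyCurve.a₂ := by
  have h : P.freyCurve.a₂ = ((P.b ^ P.p - 1 - P.a ^ P.p : ℤ) : ℚ) / 2 ^ 2 := by
    simp [FreyPackage.freyCurve]; norm_num
  rw [h]
  exact padicValRat_int_div_pow_two_nonneg hq hq2 _ _

theorem freyCurve_a₄_integral {q : ℕ} (hq : q.Prime) (hq2 : q ≠ 2) :
    0 ≤ padicValRat q P.freyCurve.a₄ := by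
  have h : P.freyCurve.a₄ = ((-(P.a ^ P.p) * P.b ^ P.p : ℤ) : ℚ) / 2 ^ 4 := by
    simp [FreyPackage.freyCurve]; norm_num
  rw [h]
  exact padicValRat_int_div_pow_two_nonneg hq hq2 _ _

theorem freyCurve_Δ_ne_zero : P.freyCurve.Δ ≠ 0 := by
  rw [freyCurve_Δ]
  have hA : fA P ≠ 0 := pow_ne_zero _ (by exact_mod_cast P.ha0)
  have hB : fB P ≠ 0 := pow_ne_zero _ (by exact_mod_cast P.hb0)
  have hC : fC P ≠ 0 := pow_ne_zero _ (by exact_mod_cast P.hc0)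
  positivity


/-- Uniform labelling (with integrality of the roots) of the `2`-torsion `x`-coordinates of the Frey curve at an odd prime `q`:
the roots can be ordered `r₁, r₂, r₃` so that `v(r₁ - r₂) = n` with `p ∣ n` (and `n = 0` in the
good reduction case), while `r₁ - r₃` and `r₂ - r₃` are `q`-adic units. -/
theorem frey_roots_labelled' {q : ℕ} (hq : q.Prime) (hq2 : q ≠ 2) :
    ∃ (r₁ r₂ r₃ : ℚ) (k : ℕ),
      (∀ x : ℚ, 4 * x ^ 3 + P.freyCurve.b₂ * x ^ 2 + 2 * P.freyCurve.b₄ * x + P.freyCurve.b₆ =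
        4 * (x - r₁) * (x - r₂) * (x - r₃)) ∧
      padicValRat q (r₁ - r₂) = P.p * k ∧ padicValRat q (r₁ - r₃) = 0 ∧
      padicValRat q (r₂ - r₃) = 0 ∧
      0 ≤ padicValRat q r₁ ∧ 0 ≤ padicValRat q r₂ ∧ 0 ≤ padicValRat q r₃ := by
  have i0 : 0 ≤ padicValRat q (0 : ℚ) := by simp
  have iA : 0 ≤ padicValRat q (fA P / 4) := by
    have h : fA P / 4 = ((P.a ^ P.p : ℤ) : ℚ) / 2 ^ 2 := by
      unfold fA; push_cast; norm_num
    rw [h]; exact padicValRat_int_div_pow_two_nonneg hq hq2 _ _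
  have iB : 0 ≤ padicValRat q (-(fB P) / 4) := by
    have h : -(fB P) / 4 = ((-(P.b ^ P.p) : ℤ) : ℚ) / 2 ^ 2 := by
      unfold fB; push_cast; norm_num
    rw [h]; exact padicValRat_int_div_pow_two_nonneg hq hq2 _ _
  have hfac := freyCurve_twoTorsion_factor P
  have hABC := fA_add_fB P
  have e1 : (0 : ℚ) - fA P / 4 = -(fA P / 4) := by ring
  have e2 : (0 : ℚ) - -(fB P) / 4 = fB P / 4 := by ring
  have e3 : fA P / 4 - -(fB P) / 4 = fC P / 4 := by rw [← hABC]; ring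
  have e4 : -(fB P) / 4 - fA P / 4 = -(fC P / 4) := by rw [← hABC]; ring
  have e5 : fA P / 4 - 0 = fA P / 4 := by ring
  have e6 : -(fB P) / 4 - 0 = -(fB P / 4) := by ring
  rcases frey_val_cases P hq hq2 with ⟨hA, hB, hC⟩ | ⟨k, -, hA, hB, hC⟩ | ⟨k, -, hB, hA, hC⟩ |
    ⟨k, -, hC, hA, hB⟩
  · refine ⟨0, fA P / 4, -(fB P) / 4, 0, hfac, ?_, ?_, ?_, by assumption, by assumption, by assumption⟩
    · rw [e1, padicValRat.neg, hA]; simp
    · rw [e2, hB]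
    · rw [e3, hC]
  · refine ⟨0, fA P / 4, -(fB P) / 4, k, hfac, ?_, ?_, ?_, by assumption, by assumption, by assumption⟩
    · rw [e1, padicValRat.neg, hA]
    · rw [e2, hB]
    · rw [e3, hC]
  · refine ⟨0, -(fB P) / 4, fA P / 4, k, fun x => by rw [hfac x]; ring, ?_, ?_, ?_,
      by assumption, by assumption, by assumption⟩
    · rw [e2, hB]
    · rw [e1, padicValRat.neg, hA]
    · rw [e4, padicValRat.neg, hC]
  · refine ⟨fA P / 4, -(fB P) / 4, 0, k, fun x => by rw [hfac x]; ring, ?_, ?_, ?_,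
      by assumption, by assumption, by assumption⟩
    · rw [e3, hC]
    · rw [e5, hA]
    · rw [e6, padicValRat.neg, hB]


end Fermat.Agent.S05
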