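import Mathlib

/-!
# S05 library, piece P1: x-coordinate (Kummer line) formulas for the group law

For a Weierstrass curve `W` over a field `F` and affine points `P = (x₁, y₁)`, `Q = (x₂, y₂)` with
`x₁ ≠ x₂`:

* `x(P+Q) + x(P-Q) = (2x₁x₂(x₁+x₂) + b₂x₁x₂ + b₄(x₁+x₂) + b₆) / (x₁-x₂)²`
* `x(P+Q) · x(P-Q) = ((x₁x₂)² - b₄x₁x₂ - b₆(x₁+x₂) - b₈) / (x₁-x₂)²`
* `x(2P) = (x⁴ - b₄x² - 2b₆x - b₈) / (4x³ + b₂x² + 2b₄x + b₆)`.
-/

namespace Fermat.Agent.S05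

open WeierstrassCurve WeierstrassCurve.Affine

variable {F : Type*} [Field F] {W : Affine F}

/-- x-coordinate of a point (junk value `0` at the point at infinity). -/
def xOf : W.Point → F
  | .zero => 0
  | .some x _ _ => x

@[simp] lemma xOf_zero : xOf (0 : W.Point) = 0 := rfl

@[simp] lemma xOf_some {x y : F} (h : W.Nonsingular x y) : xOf (Point.some x y h) = x := rfl

lemma xOf_neg (P : W.Point) : xOf (-P) = xOf P := by
  cases P <;> rfl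

/-- `ψ₂² = 4x³ + b₂x² + 2b₄x + b₆`. -/
def psi2Sq (W : Affine F) (x : F) : F := 4 * x ^ 3 + W.b₂ * x ^ 2 + 2 * W.b₄ * x + W.b₆

/-- Numerator of the duplication formula. -/
def dupNum (W : Affine F) (x : F) : F := x ^ 4 - W.b₄ * x ^ 2 - 2 * W.b₆ * x - W.b₈

/-- Numerator of `x(P+Q) + x(P-Q)`. -/
def sumNum (W : Affine F) (x₁ x₂ : F) : F :=
  2 * x₁ * x₂ * (x₁ + x₂) + W.b₂ * x₁ * x₂ + W.b₄ * (x₁ + x₂) + W.b₆

/-- Numerator of `x(P+Q) * x(P-Q)`. -/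
def prodNum (W : Affine F) (x₁ x₂ : F) : F :=
  (x₁ * x₂) ^ 2 - W.b₄ * x₁ * x₂ - W.b₆ * (x₁ + x₂) - W.b₈

lemma psi2_sq_eq {x y : F} (h : W.Equation x y) :
    (2 * y + W.a₁ * x + W.a₃) ^ 2 = psi2Sq W x := by
  rw [Affine.equation_iff] at h
  simp only [psi2Sq, WeierstrassCurve.b₂, WeierstrassCurve.b₄, WeierstrassCurve.b₆]
  linear_combination 4 * h

/-- The polynomial identity behind the product formula. -/
lemma sumNum_sq_sub (x₁ x₂ : F) :
    sumNum W x₁ x₂ ^ 2 - psi2Sq W x₁ * psi2Sq W x₂ = 4 * (x₁ - x₂) ^ 2 * prodNum W x₁ x₂ := by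
  simp only [sumNum, psi2Sq, prodNum]
  linear_combination ((x₁ - x₂) ^ 2) * W.b_relation

variable [DecidableEq F]

/-- The addX formulas for `P + Q` and `P - Q` when `x₁ ≠ x₂`. -/
theorem add_sub_of_X_ne {x₁ y₁ x₂ y₂ : F} (h₁ : W.Nonsingular x₁ y₁) (h₂ : W.Nonsingular x₂ y₂)
    (hx : x₁ ≠ x₂) :
    ∃ (xp yp : F) (hp : W.Nonsingular xp yp) (xm ym : F) (hm : W.Nonsingular xm ym),
      Point.some x₁ y₁ h₁ + Point.some x₂ y₂ h₂ = Point.some xp yp hp ∧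
      Point.some x₁ y₁ h₁ - Point.some x₂ y₂ h₂ = Point.some xm ym hm ∧
      (xp + xm) * (x₁ - x₂) ^ 2 = sumNum W x₁ x₂ ∧
      (xp - xm) * (x₁ - x₂) ^ 2 =
        -((2 * y₁ + W.a₁ * x₁ + W.a₃) * (2 * y₂ + W.a₁ * x₂ + W.a₃)) := by
  have hD : x₁ - x₂ ≠ 0 := sub_ne_zero.mpr hx
  refine ⟨_, _, nonsingular_add h₁ h₂ fun hxy => hx hxy.left, _, _,
    nonsingular_add h₁ ((nonsingular_neg ..).mpr h₂) fun hxy => hx hxy.left,
    Point.add_of_X_ne hx, ?_, ?_, ?_⟩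
  · rw [sub_eq_add_neg, Point.neg_some, Point.add_of_X_ne hx]
  · have e₁ := (Affine.equation_iff ..).mp h₁.1
    have e₂ := (Affine.equation_iff ..).mp h₂.1
    rw [slope_of_X_ne hx, slope_of_X_ne hx]
    simp only [addX, negY, sumNum, WeierstrassCurve.b₂, WeierstrassCurve.b₄, WeierstrassCurve.b₆]
    field_simp
    linear_combination 2 * e₁ + 2 * e₂
  · rw [slope_of_X_ne hx, slope_of_X_ne hx]
    simp only [addX, negY]
    field_simp
    ring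

/-- The product formula (characteristic `≠ 2`). -/
theorem add_sub_of_X_ne' (h2 : (2 : F) ≠ 0) {x₁ y₁ x₂ y₂ : F} (h₁ : W.Nonsingular x₁ y₁)
    (h₂ : W.Nonsingular x₂ y₂) (hx : x₁ ≠ x₂) :
    ∃ (xp yp : F) (hp : W.Nonsingular xp yp) (xm ym : F) (hm : W.Nonsingular xm ym),
      Point.some x₁ y₁ h₁ + Point.some x₂ y₂ h₂ = Point.some xp yp hp ∧
      Point.some x₁ y₁ h₁ - Point.some x₂ y₂ h₂ = Point.some xm ym hm ∧
      (xp + xm) * (x₁ - x₂) ^ 2 = sumNum W x₁ x₂ ∧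
      (xp * xm) * (x₁ - x₂) ^ 2 = prodNum W x₁ x₂ := by
  obtain ⟨xp, yp, hp, xm, ym, hm, hadd, hsub, hs, hd⟩ := add_sub_of_X_ne h₁ h₂ hx
  refine ⟨xp, yp, hp, xm, ym, hm, hadd, hsub, hs, ?_⟩
  have hD : x₁ - x₂ ≠ 0 := sub_ne_zero.mpr hx
  have h4 : (4 : F) ≠ 0 := by
    have : (4 : F) = 2 * 2 := by norm_num
    rw [this]; exact mul_ne_zero h2 h2
  have key := sumNum_sq_sub (W := W) x₁ x₂
  rw [← psi2_sq_eq h₁.1, ← psi2_sq_eq h₂.1, ← hs] at key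
  have hd2 : ((xp - xm) * (x₁ - x₂) ^ 2) ^ 2 =
      (2 * y₁ + W.a₁ * x₁ + W.a₃) ^ 2 * (2 * y₂ + W.a₁ * x₂ + W.a₃) ^ 2 := by
    rw [hd]; ring
  have : 4 * (x₁ - x₂) ^ 2 * (xp * xm * (x₁ - x₂) ^ 2 - prodNum W x₁ x₂) = 0 := by
    linear_combination key - hd2
  have h3 : 4 * (x₁ - x₂) ^ 2 ≠ 0 := mul_ne_zero h4 (pow_ne_zero 2 hD)
  exact sub_eq_zero.mp ((mul_eq_zero.mp this).resolve_left h3)

/-- Duplication formula. -/
theorem two_nsmul_some {x y : F} (h : W.Nonsingular x y) :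
    (psi2Sq W x = 0 ∧ (2 : ℕ) • Point.some x y h = 0) ∨
    (psi2Sq W x ≠ 0 ∧ ∃ (x' y' : F) (h' : W.Nonsingular x' y'),
      (2 : ℕ) • Point.some x y h = Point.some x' y' h' ∧ x' * psi2Sq W x = dupNum W x) := by
  by_cases hy : y = W.negY x y
  · left
    refine ⟨?_, ?_⟩
    · rw [← psi2_sq_eq h.1]
      rw [negY] at hy
      have : 2 * y + W.a₁ * x + W.a₃ = 0 := by linear_combination hy
      rw [this]; ring
    · rw [two_nsmul]; exact Point.add_self_of_Y_eq hy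
  · right
    have hne : 2 * y + W.a₁ * x + W.a₃ ≠ 0 := by
      intro h0
      apply hy
      rw [negY]
      linear_combination h0
    refine ⟨?_, _, _, nonsingular_add h h fun hxy => hy hxy.right, ?_, ?_⟩
    · rw [← psi2_sq_eq h.1]; exact pow_ne_zero 2 hne
    · rw [two_nsmul]; exact Point.add_self_of_Y_ne hy
    · have e := (Affine.equation_iff ..).mp h.1
      have hsl : W.slope x x y y =
          (3 * x ^ 2 + 2 * W.a₂ * x + W.a₄ - W.a₁ * y) / (2 * y + W.a₁ * x + W.a₃) := by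
        rw [slope_of_Y_ne rfl hy, negY]
        congr 1
        ring
      rw [hsl, ← psi2_sq_eq h.1]
      have key : ∀ n t : F, t ≠ 0 →
          W.addX x x (n / t) * t ^ 2 = n ^ 2 + W.a₁ * n * t - (W.a₂ + 2 * x) * t ^ 2 := by
        intro n t ht
        simp only [addX]
        field_simp
        ring
      have h1 := key (3 * x ^ 2 + 2 * W.a₂ * x + W.a₄ - W.a₁ * y) (2 * y + W.a₁ * x + W.a₃) hne
      rw [h1]
      simp only [dupNum, WeierstrassCurve.b₄, WeierstrassCurve.b₆,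
        WeierstrassCurve.b₈]
      linear_combination (-(W.a₁ ^ 2 + 4 * W.a₂ + 8 * x)) * e

end Fermat.Agent.S05
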