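import Mathlib
import Fermat.Prelude.Def_FLTPrelim_Ramification

/-!
# S05: valuations of rational integers in a valuation subring lying over a prime `q`
-/

set_option autoImplicit false

namespace Fermat.Agent.S05

open ValuationSubring

variable {L : Type*} [Field L] (A : ValuationSubring L)

lemma intVal_intCast_mem (n : ℤ) : (n : L) ∈ A := intCast_mem A n

lemma intVal_natCast_mem (n : ℕ) : (n : L) ∈ A := natCast_mem A n

lemma intVal_intCast_le_one (n : ℤ) : A.valuation (n : L) ≤ 1 :=
  (A.valuation_le_one_iff _).mpr (intVal_intCast_mem A n)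

variable {q : ℕ} (hq : A.LiesOverPrime q)
include hq

lemma intVal_prime_lt_one : A.valuation (q : L) < 1 :=
  (A.mem_nonunits_iff).mp hq

lemma intVal_lt_one_of_dvd {n : ℤ} (h : (q : ℤ) ∣ n) : A.valuation (n : L) < 1 := by
  obtain ⟨m, rfl⟩ := h
  push_cast
  rw [map_mul]
  calc A.valuation (q : L) * A.valuation (m : L) ≤ A.valuation (q : L) * 1 :=
        mul_le_mul_right (intVal_intCast_le_one A m) _
    _ = A.valuation (q : L) := mul_one _
    _ < 1 := intVal_prime_lt_one A hq

lemma intVal_eq_one_of_not_dvd (hqp : q.Prime) {n : ℤ} (h : ¬ (q : ℤ) ∣ n) :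
    A.valuation (n : L) = 1 := by
  refine le_antisymm (intVal_intCast_le_one A n) ?_
  by_contra hlt
  rw [not_le] at hlt
  have hcop : IsCoprime n (q : ℤ) := by
    have hprime : Prime (q : ℤ) := Nat.prime_iff_prime_int.mp hqp
    exact (Prime.coprime_iff_not_dvd hprime).mpr h |>.symm
  obtain ⟨a, b, hab⟩ := hcop
  have h1 : A.valuation ((a : L) * (n : L) + (b : L) * (q : L)) < 1 := by
    refine lt_of_le_of_lt (Valuation.map_add _ _ _) (max_lt ?_ ?_)
    · rw [map_mul]
      calc A.valuation (a : L) * A.valuation (n : L) ≤ 1 * A.valuation (n : L) :=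
            mul_le_mul_left (intVal_intCast_le_one A a) _
        _ = A.valuation (n : L) := one_mul _
        _ < 1 := hlt
    · rw [map_mul]
      calc A.valuation (b : L) * A.valuation (q : L) ≤ 1 * A.valuation (q : L) :=
            mul_le_mul_left (intVal_intCast_le_one A b) _
        _ = A.valuation (q : L) := one_mul _
        _ < 1 := intVal_prime_lt_one A hq
  have h2 : ((a : L) * (n : L) + (b : L) * (q : L)) = 1 := by
    have := congrArg (fun z : ℤ => (z : L)) hab
    push_cast at this
    exact this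
  rw [h2, map_one] at h1
  exact lt_irrefl _ h1

lemma intVal_lt_one_iff (hqp : q.Prime) (n : ℤ) : A.valuation (n : L) < 1 ↔ (q : ℤ) ∣ n := by
  constructor
  · intro h
    by_contra hnd
    rw [intVal_eq_one_of_not_dvd A hq hqp hnd] at h
    exact lt_irrefl _ h
  · exact intVal_lt_one_of_dvd A hq

lemma intVal_eq_one_iff (hqp : q.Prime) (n : ℤ) : A.valuation (n : L) = 1 ↔ ¬ (q : ℤ) ∣ n := by
  rw [← intVal_lt_one_iff A hq hqp]
  constructor
  · intro h; rw [h]; exact lt_irrefl _
  · intro h; exact le_antisymm (intVal_intCast_le_one A n) (not_lt.mp h)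

/-- the valuation of a nonzero integer is the `padicValInt`-th power of the valuation of `q`. -/
lemma intVal_eq_pow (hqp : q.Prime) {n : ℤ} (hn : n ≠ 0) :
    A.valuation (n : L) = A.valuation (q : L) ^ (padicValInt q n) := by
  have hfact : Fact q.Prime := ⟨hqp⟩
  obtain ⟨e, he⟩ : ∃ e : ℕ, e = padicValInt q n := ⟨_, rfl⟩
  rw [← he]
  obtain ⟨m, hm⟩ : (q : ℤ) ^ e ∣ n := by rw [he]; exact padicValInt_dvd n
  have hmq : ¬ (q : ℤ) ∣ m := by
    intro hd
    obtain ⟨k, hk⟩ := hd
    have hdvd : (q : ℤ) ^ (e + 1) ∣ n := ⟨k, by rw [hm, hk]; ring⟩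
    have := (padicValInt_dvd_iff (p := q) (e + 1) n).mp hdvd
    rcases this with h0 | hle
    · exact hn h0
    · omega
  have hcast : (n : L) = (q : L) ^ e * (m : L) := by
    have := congrArg (fun z : ℤ => (z : L)) hm
    push_cast at this
    exact this
  rw [hcast, map_mul, map_pow, intVal_eq_one_of_not_dvd A hq hqp hmq, mul_one]

end Fermat.Agent.S05
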