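import Mathlib
import Fermat.Agent.S05.IntVal

set_option autoImplicit false

namespace Fermat.Agent.S05

open ValuationSubring

variable {L : Type*} [Field L] [CharZero L] (A : ValuationSubring L)
variable {q : ℕ} (hq : A.LiesOverPrime q)
include hq

/-- The valuation of a nonzero rational number is the `padicValRat`-th power of the valuation
of `q`. -/
theorem ratVal_eq_zpow (hqp : q.Prime) {r : ℚ} (hr : r ≠ 0) :
    A.valuation (r : L) = A.valuation (q : L) ^ (padicValRat q r) := by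
  have hq0 : A.valuation (q : L) ≠ 0 := by
    rw [Ne, map_eq_zero]
    exact_mod_cast hqp.ne_zero
  have hnum : r.num ≠ 0 := Rat.num_ne_zero.mpr hr
  have hden : (r.den : ℤ) ≠ 0 := by exact_mod_cast r.den_ne_zero
  have h1 : (r : L) = (r.num : L) / ((r.den : ℤ) : L) := by
    rw [Rat.cast_def]; simp
  rw [h1, map_div₀, intVal_eq_pow A hq hqp hnum, intVal_eq_pow A hq hqp hden, padicValRat,
    zpow_sub₀ hq0, zpow_natCast, zpow_natCast]
  rfl

theorem ratVal_mem (hqp : q.Prime) {r : ℚ} (hr : 0 ≤ padicValRat q r) : (r : L) ∈ A := by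
  rcases eq_or_ne r 0 with rfl | hr0
  · simp
  rw [← A.valuation_le_one_iff, ratVal_eq_zpow A hq hqp hr0]
  obtain ⟨n, hn⟩ := Int.eq_ofNat_of_zero_le hr
  rw [hn, zpow_natCast]
  exact pow_le_one₀ zero_le (intVal_prime_lt_one A hq).le

theorem ratVal_eq_one (hqp : q.Prime) {r : ℚ} (hr0 : r ≠ 0) (hr : padicValRat q r = 0) :
    A.valuation (r : L) = 1 := by
  rw [ratVal_eq_zpow A hq hqp hr0, hr, zpow_zero]

theorem ratVal_lt_one (hqp : q.Prime) {r : ℚ} (hr : 0 < padicValRat q r) :
    A.valuation (r : L) < 1 := by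
  have hr0 : r ≠ 0 := by
    rintro rfl
    simp at hr
  rw [ratVal_eq_zpow A hq hqp hr0]
  obtain ⟨n, hn⟩ := Int.eq_ofNat_of_zero_le hr.le
  rw [hn, zpow_natCast]
  have hn0 : n ≠ 0 := by
    rintro rfl
    rw [hn] at hr
    simp at hr
  exact pow_lt_one₀ zero_le (intVal_prime_lt_one A hq) hn0

end Fermat.Agent.S05
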