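import Mathlib
import Fermat.Agent.S05.RatVal
import Fermat.Agent.S05.FreySpecifics
import Fermat.Agent.S05.Kummer

set_option autoImplicit false
open WeierstrassCurve WeierstrassCurve.Affine

namespace Fermat.Agent.S05

variable (P : FreyPackage) {L : Type*} [Field L] [Algebra ℚ L]

theorem freyL_a₁ : (P.freyCurve⁄L).a₁ = 1 := by
  simp [freyCurve_a₁]
theorem freyL_a₂ : (P.freyCurve⁄L).a₂ = algebraMap ℚ L P.freyCurve.a₂ := by
  simp
theorem freyL_a₃ : (P.freyCurve⁄L).a₃ = 0 := by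
  simp [freyCurve_a₃]
theorem freyL_a₄ : (P.freyCurve⁄L).a₄ = algebraMap ℚ L P.freyCurve.a₄ := by
  simp
theorem freyL_a₆ : (P.freyCurve⁄L).a₆ = 0 := by
  simp [freyCurve_a₆]
theorem freyL_b₂ : (P.freyCurve⁄L).b₂ = algebraMap ℚ L P.freyCurve.b₂ := by
  exact WeierstrassCurve.map_b₂ _ _
theorem freyL_b₄ : (P.freyCurve⁄L).b₄ = algebraMap ℚ L P.freyCurve.b₄ := by
  exact WeierstrassCurve.map_b₄ _ _
theorem freyL_b₆ : (P.freyCurve⁄L).b₆ = 0 := by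
  rw [show (P.freyCurve⁄L).b₆ = algebraMap ℚ L P.freyCurve.b₆ from WeierstrassCurve.map_b₆ _ _,
    freyCurve_b₆, map_zero]
theorem freyL_b₈ : (P.freyCurve⁄L).b₈ = algebraMap ℚ L P.freyCurve.b₈ := by
  exact WeierstrassCurve.map_b₈ _ _
theorem freyL_Δ : (P.freyCurve⁄L).Δ = algebraMap ℚ L P.freyCurve.Δ := by
  exact WeierstrassCurve.map_Δ _ _


section general
variable {L : Type*} [Field L] (A : ValuationSubring L) (W : WeierstrassCurve L)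

theorem b_mem_of_a_mem (h₁ : W.a₁ ∈ A) (h₂ : W.a₂ ∈ A) (h₃ : W.a₃ ∈ A) (h₄ : W.a₄ ∈ A)
    (h₆ : W.a₆ ∈ A) : W.b₂ ∈ A ∧ W.b₄ ∈ A ∧ W.b₆ ∈ A ∧ W.b₈ ∈ A := by
  have h4 : (4 : L) ∈ A := by
    have : ((4 : ℕ) : L) ∈ A := natCast_mem A 4
    exact_mod_cast this
  have h2 : (2 : L) ∈ A := by
    have : ((2 : ℕ) : L) ∈ A := natCast_mem A 2
    exact_mod_cast this
  refine ⟨?_, ?_, ?_, ?_⟩
  · rw [WeierstrassCurve.b₂]
    exact add_mem (pow_mem h₁ 2) (mul_mem h4 h₂)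
  · rw [WeierstrassCurve.b₄]
    exact add_mem (mul_mem h2 h₄) (mul_mem h₁ h₃)
  · rw [WeierstrassCurve.b₆]
    exact add_mem (pow_mem h₃ 2) (mul_mem h4 h₆)
  · rw [WeierstrassCurve.b₈]
    exact sub_mem (add_mem (sub_mem (add_mem (mul_mem (pow_mem h₁ 2) h₆)
      (mul_mem (mul_mem h4 h₂) h₆)) (mul_mem (mul_mem h₁ h₃) h₄)) (mul_mem h₂ (pow_mem h₃ 2)))
      (pow_mem h₄ 2)

/-- `2` is a unit of `A` when `q` is odd. -/
theorem two_unit {q : ℕ} (hq : A.LiesOverPrime q) (hqp : q.Prime) (hq2 : q ≠ 2) : A.valuation (2 : L) = 1 := by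
  have h : ¬ (q : ℤ) ∣ (2 : ℤ) := by
    intro h
    have h' : q ∣ 2 := by exact_mod_cast h
    exact hq2 ((Nat.prime_dvd_prime_iff_eq hqp Nat.prime_two).mp h')
  have := intVal_eq_one_of_not_dvd A hq hqp h
  simpa using this

/-- A prime `p ≠ q` is a unit of `A`. -/
theorem prime_unit {q : ℕ} (hq : A.LiesOverPrime q) (hqp : q.Prime) {p : ℕ} (hp : p.Prime) (hpq : q ≠ p) :
    A.valuation (p : L) = 1 := by
  have h : ¬ (q : ℤ) ∣ (p : ℤ) := by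
    intro h
    have h' : q ∣ p := by exact_mod_cast h
    exact hpq ((Nat.prime_dvd_prime_iff_eq hqp hp).mp h')
  have := intVal_eq_one_of_not_dvd A hq hqp h
  simpa using this

end general

section valuations

variable [CharZero L] (A : ValuationSubring L) {q : ℕ} (hq : A.LiesOverPrime q)
include hq

theorem freyL_a_mem (hqp : q.Prime) (hq2 : q ≠ 2) :
    (P.freyCurve⁄L).a₁ ∈ A ∧ (P.freyCurve⁄L).a₂ ∈ A ∧ (P.freyCurve⁄L).a₃ ∈ A ∧
      (P.freyCurve⁄L).a₄ ∈ A ∧ (P.freyCurve⁄L).a₆ ∈ A := by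
  refine ⟨?_, ?_, ?_, ?_, ?_⟩
  · rw [freyL_a₁]; exact one_mem A
  · rw [freyL_a₂, eq_ratCast]; exact ratVal_mem A hq hqp (freyCurve_a₂_integral P hqp hq2)
  · rw [freyL_a₃]; exact zero_mem A
  · rw [freyL_a₄, eq_ratCast]; exact ratVal_mem A hq hqp (freyCurve_a₄_integral P hqp hq2)
  · rw [freyL_a₆]; exact zero_mem A

theorem freyL_b_mem (hqp : q.Prime) (hq2 : q ≠ 2) :
    (P.freyCurve⁄L).b₂ ∈ A ∧ (P.freyCurve⁄L).b₄ ∈ A ∧ (P.freyCurve⁄L).b₆ ∈ A ∧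
      (P.freyCurve⁄L).b₈ ∈ A := by
  obtain ⟨h₁, h₂, h₃, h₄, h₆⟩ := freyL_a_mem P A hq hqp hq2
  exact b_mem_of_a_mem A _ h₁ h₂ h₃ h₄ h₆

/-- The labelled roots of the `2`-division polynomial of the Frey curve over `L`, with the
valuations of their differences. -/
theorem freyL_roots_labelled (hqp : q.Prime) (hq2 : q ≠ 2) :
    ∃ (ρ₁ ρ₂ ρ₃ : ℚ) (k : ℕ),
      (∀ x : L, psi2Sq (P.freyCurve⁄L) x =
        4 * (x - algebraMap ℚ L ρ₁) * (x - algebraMap ℚ L ρ₂) * (x - algebraMap ℚ L ρ₃)) ∧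
      A.valuation (algebraMap ℚ L ρ₁ - algebraMap ℚ L ρ₂) = A.valuation (q : L) ^ (P.p * k) ∧
      A.valuation (algebraMap ℚ L ρ₁ - algebraMap ℚ L ρ₃) = 1 ∧
      A.valuation (algebraMap ℚ L ρ₂ - algebraMap ℚ L ρ₃) = 1 ∧
      algebraMap ℚ L ρ₁ ∈ A ∧ algebraMap ℚ L ρ₂ ∈ A ∧ algebraMap ℚ L ρ₃ ∈ A := by
  obtain ⟨r₁, r₂, r₃, k, hfac, h12, h13, h23, hi1, hi2, hi3⟩ := frey_roots_labelled' P hqp hq2
  have e0 := hfac 0
  have e1 := hfac 1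
  have e2 := hfac (-1)
  have hb₆ : P.freyCurve.b₆ = -4 * (r₁ * r₂ * r₃) := by linear_combination e0
  have hb₂ : P.freyCurve.b₂ = -4 * (r₁ + r₂ + r₃) := by
    linear_combination (1 / 2 : ℚ) * e1 + (1 / 2 : ℚ) * e2 - e0
  have hb₄ : P.freyCurve.b₄ = 2 * (r₁ * r₂ + r₁ * r₃ + r₂ * r₃) := by
    linear_combination (1 / 4 : ℚ) * e1 - (1 / 4 : ℚ) * e2
  -- the differences are nonzero
  have hne : ∀ i j : ℚ, (i = r₁ ∧ j = r₂) ∨ (i = r₁ ∧ j = r₃) ∨ (i = r₂ ∧ j = r₃) → i - j ≠ 0 := by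
    intro i j hij h0
    have hΔ := freyCurve_Δ_ne_zero P
    apply hΔ
    rw [WeierstrassCurve.Δ, hb₂, hb₄, hb₆]
    have hb₈ : P.freyCurve.b₈ = -(r₁ * r₂ + r₁ * r₃ + r₂ * r₃) ^ 2 + 4 * (r₁ + r₂ + r₃) * (r₁ * r₂ * r₃) := by
      have := P.freyCurve.b_relation
      rw [hb₂, hb₄, hb₆] at this
      linear_combination (1 / 4 : ℚ) * this
    rw [hb₈]
    rcases hij with ⟨rfl, rfl⟩ | ⟨rfl, rfl⟩ | ⟨rfl, rfl⟩
    · have : i = j := by linarith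
      subst this; ring
    · have : i = j := by linarith
      subst this; ring
    · have : i = j := by linarith
      subst this; ring
  have h12' := hne r₁ r₂ (Or.inl ⟨rfl, rfl⟩)
  have h13' := hne r₁ r₃ (Or.inr (Or.inl ⟨rfl, rfl⟩))
  have h23' := hne r₂ r₃ (Or.inr (Or.inr ⟨rfl, rfl⟩))
  refine ⟨r₁, r₂, r₃, k, ?_, ?_, ?_, ?_, ?_, ?_, ?_⟩
  · intro x
    rw [psi2Sq, freyL_b₂, freyL_b₄, freyL_b₆, hb₂, hb₄]
    have h6 : algebraMap ℚ L (r₁ * r₂ * r₃) = 0 := by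
      have : r₁ * r₂ * r₃ = 0 := by
        have := freyCurve_b₆ P
        rw [hb₆] at this
        linarith
      rw [this, map_zero]
    simp only [map_mul, map_add, map_neg, map_ofNat] at h6 ⊢
    linear_combination (4 : L) * h6
  · rw [← map_sub, eq_ratCast, ratVal_eq_zpow A hq hqp h12', h12]
    norm_cast
  · rw [← map_sub, eq_ratCast]; exact ratVal_eq_one A hq hqp h13' h13
  · rw [← map_sub, eq_ratCast]; exact ratVal_eq_one A hq hqp h23' h23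
  · rw [eq_ratCast]; exact ratVal_mem A hq hqp hi1
  · rw [eq_ratCast]; exact ratVal_mem A hq hqp hi2
  · rw [eq_ratCast]; exact ratVal_mem A hq hqp hi3

end valuations

end Fermat.Agent.S05
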