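import Fermat.Agent.S05.Kummer

/-!
# S05 library, piece P4: the kernel of reduction has no `p`-torsion (x-coordinates only)

`F` a field, `A` a valuation subring containing `b₂, b₄, b₆, b₈` in which `2` is a unit.
`E₁ := {O} ∪ {P : x(P) ∉ A}`.

* `kerRed_add_sub` : `E₁` is closed under `P ± Q`.
* `eq_zero_of_nsmul_eq_zero` : if `p` is an odd prime which is a unit of `A`, `P ∈ E₁` and
  `p • P = 0`, then `P = 0`.

The proof only uses the formulas of `Kummer.lean` for `X = 1/x`: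
`X(P+Q) + X(P-Q) = 2(X₁+X₂) + O(X₁X₂)`, `X(2P) = 4X + O(X²)`, hence `X(kP) = k²X + O(X²)`.
-/

namespace Fermat.Agent.S05

open WeierstrassCurve WeierstrassCurve.Affine

variable {F : Type*} [Field F] {W : Affine F} (A : ValuationSubring F)

/-- The hypotheses on the model: `b`-invariants integral, `2` a unit. -/
structure IntegralModel (W : Affine F) (A : ValuationSubring F) : Prop where
  b₂ : W.b₂ ∈ A
  b₄ : W.b₄ ∈ A
  b₆ : W.b₆ ∈ A
  b₈ : W.b₈ ∈ A
  two : A.valuation (2 : F) = 1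

variable {A}

lemma inv_mem_of_not_mem {x : F} (hx : x ∉ A) : x⁻¹ ∈ A :=
  (A.mem_or_inv_mem x).resolve_left hx

lemma ne_zero_of_not_mem {x : F} (hx : x ∉ A) : x ≠ 0 := by
  rintro rfl; exact hx A.zero_mem

lemma valuation_inv_lt_one {x : F} (hx : x ∉ A) : A.valuation x⁻¹ < 1 := by
  rw [map_inv₀]
  have h1 : 1 < A.valuation x := by
    rw [← not_le, A.valuation_le_one_iff]; exact hx
  exact inv_lt_one_of_one_lt₀ h1

lemma not_mem_of_valuation_inv_lt_one {x : F} (hx0 : x ≠ 0) (hx : A.valuation x⁻¹ < 1) :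
    x ∉ A := by
  rw [← A.valuation_le_one_iff, not_le]
  rw [map_inv₀] at hx
  have : A.valuation x ≠ 0 := (A.valuation.ne_zero_iff).mpr hx0
  exact (inv_lt_one₀ (zero_lt_iff.mpr this)).mp hx

lemma valuation_eq_one_of_sub_lt {u : F} (hu : A.valuation (u - 1) < 1) : A.valuation u = 1 := by
  have : u = 1 + (u - 1) := by ring
  rw [this]
  exact (A.valuation.map_one_add_of_lt hu)

/-- Membership in `A` from `valuation ≤ 1`. -/
lemma mem_of_valuation_lt_one {x : F} (hx : A.valuation x < 1) : x ∈ A :=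
  (A.valuation_le_one_iff x).mp hx.le

section step

variable (hW : IntegralModel W A)
include hW

lemma two_mem : (2 : F) ∈ A := (A.valuation_le_one_iff _).mp hW.two.le

/-- Key algebraic/valuative step for `x₁ ≠ x₂`, `x₁, x₂ ∉ A`. -/
theorem step_of_not_mem [DecidableEq F] {x₁ y₁ x₂ y₂ : F} (h₁ : W.Nonsingular x₁ y₁)
    (h₂ : W.Nonsingular x₂ y₂) (hx : x₁ ≠ x₂) (hx₁ : x₁ ∉ A) (hx₂ : x₂ ∉ A) :
    ∃ (xp yp : F) (hp : W.Nonsingular xp yp) (xm ym : F) (hm : W.Nonsingular xm ym),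
      Point.some x₁ y₁ h₁ + Point.some x₂ y₂ h₂ = Point.some xp yp hp ∧
      Point.some x₁ y₁ h₁ - Point.some x₂ y₂ h₂ = Point.some xm ym hm ∧
      xp ∉ A ∧ xm ∉ A ∧
      A.valuation (xp⁻¹ + xm⁻¹ - 2 * (x₁⁻¹ + x₂⁻¹)) ≤ A.valuation x₁⁻¹ * A.valuation x₂⁻¹ := by
  have h2ne : (2 : F) ≠ 0 := by
    intro h
    have := hW.two
    rw [h, map_zero] at this
    exact zero_ne_one this
  obtain ⟨xp, yp, hp, xm, ym, hm, hadd, hsub, hs, hpr⟩ := add_sub_of_X_ne' h2ne h₁ h₂ hx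
  refine ⟨xp, yp, hp, xm, ym, hm, hadd, hsub, ?_⟩
  have hx₁0 := ne_zero_of_not_mem hx₁
  have hx₂0 := ne_zero_of_not_mem hx₂
  set X₁ := x₁⁻¹ with hX₁
  set X₂ := x₂⁻¹ with hX₂
  have hX₁A : X₁ ∈ A := inv_mem_of_not_mem hx₁
  have hX₂A : X₂ ∈ A := inv_mem_of_not_mem hx₂
  have hv₁ : A.valuation X₁ < 1 := valuation_inv_lt_one hx₁
  have hv₂ : A.valuation X₂ < 1 := valuation_inv_lt_one hx₂
  have h2A := two_mem hW
  -- the normalised numerators
  set Shat : F := 2 * (X₁ + X₂) + W.b₂ * X₁ * X₂ + W.b₄ * (X₁ + X₂) * X₁ * X₂ +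
    W.b₆ * X₁ ^ 2 * X₂ ^ 2 with hShat
  set Phat : F := 1 - W.b₄ * X₁ * X₂ - W.b₆ * (X₁ + X₂) * X₁ * X₂ - W.b₈ * X₁ ^ 2 * X₂ ^ 2
    with hPhat
  have hS : sumNum W x₁ x₂ * (X₁ ^ 2 * X₂ ^ 2) = Shat := by
    simp only [sumNum, hShat, hX₁, hX₂]; field_simp; ring
  have hP : prodNum W x₁ x₂ * (X₁ ^ 2 * X₂ ^ 2) = Phat := by
    simp only [prodNum, hPhat, hX₁, hX₂]; field_simp; ring
  have hD : (x₁ - x₂) * (X₁ * X₂) = X₂ - X₁ := by
    simp only [hX₁, hX₂]; field_simp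
  -- `Phat` is a unit
  have hPm : A.valuation (Phat - 1) < 1 := by
    have e : Phat - 1 = X₁ * (-(W.b₄ * X₂) - W.b₆ * (X₁ + X₂) * X₂ - W.b₈ * X₁ * X₂ ^ 2) := by
      simp only [hPhat]; ring
    rw [e, map_mul]
    have hmem : (-(W.b₄ * X₂) - W.b₆ * (X₁ + X₂) * X₂ - W.b₈ * X₁ * X₂ ^ 2) ∈ A :=
      sub_mem (sub_mem (neg_mem (mul_mem hW.b₄ hX₂A))
        (mul_mem (mul_mem hW.b₆ (add_mem hX₁A hX₂A)) hX₂A))
        (mul_mem (mul_mem hW.b₈ hX₁A) (pow_mem hX₂A 2))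
    calc A.valuation X₁ * A.valuation _ ≤ A.valuation X₁ * 1 :=
          mul_le_mul_right ((A.valuation_le_one_iff _).mpr hmem) _
      _ < 1 := by rw [mul_one]; exact hv₁
  have hPv : A.valuation Phat = 1 := valuation_eq_one_of_sub_lt hPm
  have hP0 : Phat ≠ 0 := by
    intro h; rw [h, map_zero] at hPv; exact zero_ne_one hPv
  -- the formulas in terms of `X`
  have hs' : (xp + xm) * (X₂ - X₁) ^ 2 = Shat := by
    rw [← hS, ← hs, ← hD]; ring
  have hpr' : (xp * xm) * (X₂ - X₁) ^ 2 = Phat := by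
    rw [← hP, ← hpr, ← hD]; ring
  have hxp0 : xp ≠ 0 := by
    rintro rfl; apply hP0; rw [← hpr']; ring
  have hxm0 : xm ≠ 0 := by
    rintro rfl; apply hP0; rw [← hpr']; ring
  have hD0 : (X₂ - X₁) ^ 2 ≠ 0 := by
    intro h; apply hP0; rw [← hpr', h]; ring
  have hD1 : X₂ - X₁ ≠ 0 := fun h => hD0 (by rw [h]; ring)
  have hsum : xp⁻¹ + xm⁻¹ = Shat / Phat := by
    rw [← hs', ← hpr']; field_simp; ring
  have hprod : xp⁻¹ * xm⁻¹ = (X₂ - X₁) ^ 2 / Phat := by
    rw [← hpr']; field_simp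
  -- estimate (b)
  have hb : A.valuation (xp⁻¹ + xm⁻¹ - 2 * (X₁ + X₂)) ≤ A.valuation X₁ * A.valuation X₂ := by
    have e : xp⁻¹ + xm⁻¹ - 2 * (X₁ + X₂) = X₁ * X₂ * (W.b₂ + W.b₄ * (X₁ + X₂) + W.b₆ * X₁ * X₂ +
        2 * (X₁ + X₂) * (W.b₄ + W.b₆ * (X₁ + X₂) + W.b₈ * X₁ * X₂)) / Phat := by
      have e1 : Shat - 2 * (X₁ + X₂) * Phat = X₁ * X₂ * (W.b₂ + W.b₄ * (X₁ + X₂) +
          W.b₆ * X₁ * X₂ + 2 * (X₁ + X₂) * (W.b₄ + W.b₆ * (X₁ + X₂) + W.b₈ * X₁ * X₂)) := by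
        simp only [hShat, hPhat]; ring
      rw [hsum, ← e1]; field_simp
    rw [e, map_div₀, hPv, div_one, map_mul, map_mul]
    have hmem : (W.b₂ + W.b₄ * (X₁ + X₂) + W.b₆ * X₁ * X₂ +
        2 * (X₁ + X₂) * (W.b₄ + W.b₆ * (X₁ + X₂) + W.b₈ * X₁ * X₂)) ∈ A :=
      add_mem (add_mem (add_mem hW.b₂ (mul_mem hW.b₄ (add_mem hX₁A hX₂A)))
        (mul_mem (mul_mem hW.b₆ hX₁A) hX₂A))
        (mul_mem (mul_mem h2A (add_mem hX₁A hX₂A))
          (add_mem (add_mem hW.b₄ (mul_mem hW.b₆ (add_mem hX₁A hX₂A)))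
            (mul_mem (mul_mem hW.b₈ hX₁A) hX₂A)))
    calc A.valuation X₁ * A.valuation X₂ * A.valuation _
        ≤ A.valuation X₁ * A.valuation X₂ * 1 :=
          mul_le_mul_right ((A.valuation_le_one_iff _).mpr hmem) _
      _ = A.valuation X₁ * A.valuation X₂ := mul_one _
  -- closure
  have hSv : A.valuation (xp⁻¹ + xm⁻¹) < 1 := by
    have e : xp⁻¹ + xm⁻¹ = (xp⁻¹ + xm⁻¹ - 2 * (X₁ + X₂)) + 2 * (X₁ + X₂) := by ring
    rw [e]
    refine lt_of_le_of_lt (A.valuation.map_add _ _) (max_lt ?_ ?_)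
    · refine lt_of_le_of_lt hb ?_
      calc A.valuation X₁ * A.valuation X₂ ≤ A.valuation X₁ * 1 := mul_le_mul_right hv₂.le _
        _ < 1 := by rw [mul_one]; exact hv₁
    · rw [map_mul, hW.two, one_mul]
      exact lt_of_le_of_lt (A.valuation.map_add _ _) (max_lt hv₁ hv₂)
  have hPiv : A.valuation (xp⁻¹ * xm⁻¹) < 1 := by
    rw [hprod, map_div₀, hPv, div_one, map_pow]
    have : A.valuation (X₂ - X₁) < 1 :=
      lt_of_le_of_lt (A.valuation.map_sub _ _) (max_lt hv₂ hv₁)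
    calc A.valuation (X₂ - X₁) ^ 2 = A.valuation (X₂ - X₁) * A.valuation (X₂ - X₁) := sq _
      _ ≤ A.valuation (X₂ - X₁) * 1 := mul_le_mul_right this.le _
      _ < 1 := by rw [mul_one]; exact this
  have key : ∀ a b : F, A.valuation (a + b) < 1 → A.valuation (a * b) < 1 →
      A.valuation a < 1 := by
    intro a b hab hmul
    by_contra hcon
    rw [not_lt] at hcon
    have hb1 : A.valuation b < 1 := by
      by_contra hb'
      rw [not_lt] at hb'
      have : 1 ≤ A.valuation (a * b) := by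
        rw [map_mul]; exact one_le_mul_of_one_le_of_one_le hcon hb'
      exact absurd hmul (not_lt.mpr this)
    have : A.valuation (a + b) = A.valuation a :=
      A.valuation.map_add_eq_of_lt_left (lt_of_lt_of_le hb1 hcon)
    rw [this] at hab
    exact absurd hab (not_lt.mpr hcon)
  refine ⟨?_, ?_, hb⟩
  · exact not_mem_of_valuation_inv_lt_one hxp0 (key _ _ hSv hPiv)
  · refine not_mem_of_valuation_inv_lt_one hxm0 (key xm⁻¹ xp⁻¹ ?_ ?_)
    · rwa [add_comm]
    · rwa [mul_comm]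

/-- Duplication for `x ∉ A`. -/
theorem double_of_not_mem [DecidableEq F] {x y : F} (h : W.Nonsingular x y) (hx : x ∉ A) :
    ∃ (x' y' : F) (h' : W.Nonsingular x' y'),
      (2 : ℕ) • Point.some x y h = Point.some x' y' h' ∧ x' ∉ A ∧
      A.valuation (x'⁻¹ - 4 * x⁻¹) ≤ A.valuation x⁻¹ ^ 2 := by
  have hx0 := ne_zero_of_not_mem hx
  set X := x⁻¹ with hX
  have hXA : X ∈ A := inv_mem_of_not_mem hx
  have hv : A.valuation X < 1 := valuation_inv_lt_one hx
  have h2A := two_mem hW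
  have h4 : A.valuation (4 : F) = 1 := by
    have : (4 : F) = 2 * 2 := by norm_num
    rw [this, map_mul, hW.two, one_mul]
  set psih : F := 4 + W.b₂ * X + 2 * W.b₄ * X ^ 2 + W.b₆ * X ^ 3 with hpsih
  set dh : F := 1 - W.b₄ * X ^ 2 - 2 * W.b₆ * X ^ 3 - W.b₈ * X ^ 4 with hdh
  have hpsi : psi2Sq W x * X ^ 3 = psih := by
    simp only [psi2Sq, hpsih, hX]; field_simp
  have hd : dupNum W x * X ^ 4 = dh := by
    simp only [dupNum, hdh, hX]; field_simp
  have hpsiv : A.valuation psih = 1 := by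
    have e : psih = 4 + X * (W.b₂ + 2 * W.b₄ * X + W.b₆ * X ^ 2) := by
      simp only [hpsih]; ring
    have hmem : (W.b₂ + 2 * W.b₄ * X + W.b₆ * X ^ 2) ∈ A :=
      add_mem (add_mem hW.b₂ (mul_mem (mul_mem h2A hW.b₄) hXA)) (mul_mem hW.b₆ (pow_mem hXA 2))
    have hlt : A.valuation (X * (W.b₂ + 2 * W.b₄ * X + W.b₆ * X ^ 2)) < A.valuation (4 : F) := by
      rw [h4, map_mul]
      calc A.valuation X * A.valuation _ ≤ A.valuation X * 1 :=
            mul_le_mul_right ((A.valuation_le_one_iff _).mpr hmem) _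
        _ < 1 := by rw [mul_one]; exact hv
    rw [e, A.valuation.map_add_eq_of_lt_left hlt, h4]
  have hdv : A.valuation dh = 1 := by
    apply valuation_eq_one_of_sub_lt
    have e : dh - 1 = X * (-(W.b₄ * X) - 2 * W.b₆ * X ^ 2 - W.b₈ * X ^ 3) := by
      simp only [hdh]; ring
    have hmem : (-(W.b₄ * X) - 2 * W.b₆ * X ^ 2 - W.b₈ * X ^ 3) ∈ A :=
      sub_mem (sub_mem (neg_mem (mul_mem hW.b₄ hXA)) (mul_mem (mul_mem h2A hW.b₆) (pow_mem hXA 2)))
        (mul_mem hW.b₈ (pow_mem hXA 3))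
    rw [e, map_mul]
    calc A.valuation X * A.valuation _ ≤ A.valuation X * 1 :=
          mul_le_mul_right ((A.valuation_le_one_iff _).mpr hmem) _
      _ < 1 := by rw [mul_one]; exact hv
  have hpsi0 : psih ≠ 0 := by
    intro h0; rw [h0, map_zero] at hpsiv; exact zero_ne_one hpsiv
  have hd0 : dh ≠ 0 := by
    intro h0; rw [h0, map_zero] at hdv; exact zero_ne_one hdv
  have hX0 : X ≠ 0 := inv_ne_zero hx0
  rcases two_nsmul_some h with ⟨h0, -⟩ | ⟨-, x', y', h', h2, hx'⟩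
  · exfalso; apply hpsi0; rw [← hpsi, h0]; ring
  · refine ⟨x', y', h', h2, ?_⟩
    have hrel : x' * psih * X = dh := by
      rw [← hpsi, ← hd, ← hx']; ring
    have hx'0 : x' ≠ 0 := by
      rintro rfl; apply hd0; rw [← hrel]; ring
    have hinv : x'⁻¹ = X * psih / dh := by
      rw [← hrel]; field_simp
    have hest : A.valuation (x'⁻¹ - 4 * X) ≤ A.valuation X ^ 2 := by
      have e1 : psih - 4 * dh = X * (W.b₂ + 2 * W.b₄ * X + W.b₆ * X ^ 2 + 4 * W.b₄ * X +
          8 * W.b₆ * X ^ 2 + 4 * W.b₈ * X ^ 3) := by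
        simp only [hpsih, hdh]; ring
      have e : x'⁻¹ - 4 * X = X * (psih - 4 * dh) / dh := by
        rw [hinv]; field_simp
      have h4A : (4 : F) ∈ A := (A.valuation_le_one_iff _).mp h4.le
      have h8A : (8 : F) ∈ A := by
        have : (8 : F) = 2 * 4 := by norm_num
        rw [this]; exact mul_mem h2A h4A
      have hmem : (W.b₂ + 2 * W.b₄ * X + W.b₆ * X ^ 2 + 4 * W.b₄ * X +
          8 * W.b₆ * X ^ 2 + 4 * W.b₈ * X ^ 3) ∈ A :=
        add_mem (add_mem (add_mem (add_mem (add_mem hW.b₂ (mul_mem (mul_mem h2A hW.b₄) hXA))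
          (mul_mem hW.b₆ (pow_mem hXA 2))) (mul_mem (mul_mem h4A hW.b₄) hXA))
          (mul_mem (mul_mem h8A hW.b₆) (pow_mem hXA 2))) (mul_mem (mul_mem h4A hW.b₈) (pow_mem hXA 3))
      rw [e, e1, map_div₀, hdv, div_one, map_mul, map_mul, ← mul_assoc, ← sq]
      calc A.valuation X ^ 2 * A.valuation _ ≤ A.valuation X ^ 2 * 1 :=
            mul_le_mul_right ((A.valuation_le_one_iff _).mpr hmem) _
        _ = A.valuation X ^ 2 := mul_one _
    refine ⟨not_mem_of_valuation_inv_lt_one hx'0 ?_, hest⟩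
    rw [hinv, map_div₀, hdv, div_one, map_mul, hpsiv, mul_one]
    exact hv

end step

/-- `P` lies in the kernel of reduction `E₁`: `P = 0` or `x(P) ∉ A`. -/
def InKerRed (A : ValuationSubring F) (P : W.Point) : Prop := P = 0 ∨ xOf P ∉ A

lemma inKerRed_zero : InKerRed A (0 : W.Point) := Or.inl rfl

lemma inKerRed_some {x y : F} (h : W.Nonsingular x y) :
    InKerRed A (Point.some x y h) ↔ x ∉ A := by
  simp only [InKerRed, xOf_some, or_iff_right_iff_imp]
  intro h0; exact absurd h0 (Point.some_ne_zero h)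

lemma InKerRed.neg {P : W.Point} (hP : InKerRed A P) : InKerRed A (-P) := by
  rcases hP with rfl | hP
  · left; simp
  · right; rwa [xOf_neg]

section closure

variable (hW : IntegralModel W A)
include hW

theorem InKerRed.two_nsmul [DecidableEq F] {P : W.Point} (hP : InKerRed A P) :
    InKerRed A ((2 : ℕ) • P) := by
  rcases P with _ | ⟨x, y, h⟩
  · left; exact smul_zero 2
  · rw [inKerRed_some] at hP
    obtain ⟨x', y', h', h2, hx', -⟩ := double_of_not_mem hW h hP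
    rw [h2, inKerRed_some]; exact hx'

theorem InKerRed.add_sub [DecidableEq F] {P Q : W.Point} (hP : InKerRed A P)
    (hQ : InKerRed A Q) : InKerRed A (P + Q) ∧ InKerRed A (P - Q) := by
  rcases P with _ | ⟨x₁, y₁, h₁⟩
  · change InKerRed A (0 + Q) ∧ InKerRed A (0 - Q)
    rw [zero_add, zero_sub]; exact ⟨hQ, hQ.neg⟩
  rcases Q with _ | ⟨x₂, y₂, h₂⟩
  · change InKerRed A (_ + 0) ∧ InKerRed A (_ - 0)
    rw [add_zero, sub_zero]; exact ⟨hP, hP⟩
  by_cases hx : x₁ = x₂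
  · rcases (Point.X_eq_iff (h₁ := h₁) (h₂ := h₂)).mp hx with e | e
    · rw [e, sub_self, ← _root_.two_nsmul]; exact ⟨hQ.two_nsmul hW, inKerRed_zero⟩
    · rw [e, neg_add_cancel, ← neg_add', ← _root_.two_nsmul]
      exact ⟨inKerRed_zero, (hQ.two_nsmul hW).neg⟩
  · rw [inKerRed_some] at hP hQ
    obtain ⟨xp, yp, hp, xm, ym, hm, hadd, hsub, hxp, hxm, -⟩ := step_of_not_mem hW h₁ h₂ hx hP hQ
    rw [hadd, hsub, inKerRed_some, inKerRed_some]; exact ⟨hxp, hxm⟩

end closure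

section torsion

variable (hW : IntegralModel W A)
include hW

/-- The induction claim `X(kP) = k²X + O(X²)`. -/
def TorsClaim [DecidableEq F] (A : ValuationSubring F) (P : W.Point) (X : F) (k : ℕ) : Prop :=
  ∃ (xk yk : F) (hk : W.Nonsingular xk yk), k • P = Point.some xk yk hk ∧ xk ∉ A ∧
    A.valuation (xk⁻¹ - (k : F) ^ 2 * X) ≤ A.valuation X ^ 2

omit hW in
lemma valuation_natCast_le_one (n : ℕ) : A.valuation (n : F) ≤ 1 :=
  (A.valuation_le_one_iff _).mpr (natCast_mem A n)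

omit hW in
lemma valuation_sq_le {X : F} (hv : A.valuation X < 1) : A.valuation X ^ 2 ≤ A.valuation X := by
  calc A.valuation X ^ 2 = A.valuation X * A.valuation X := sq _
    _ ≤ A.valuation X * 1 := mul_le_mul_right hv.le _
    _ = A.valuation X := mul_one _

theorem torsClaim_succ_succ [DecidableEq F] {x y : F} (h : W.Nonsingular x y) (hx : x ∉ A)
    {k : ℕ} (hne : ∀ (x₁ y₁ : F) (h₁ : W.Nonsingular x₁ y₁),
      (k + 1) • Point.some x y h = Point.some x₁ y₁ h₁ → x₁ ≠ x)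
    (hCk : TorsClaim A (Point.some x y h) x⁻¹ k)
    (hCk1 : TorsClaim A (Point.some x y h) x⁻¹ (k + 1)) :
    TorsClaim A (Point.some x y h) x⁻¹ (k + 2) := by
  obtain ⟨xk, yk, hk', ek, hxk, vk⟩ := hCk
  obtain ⟨x₁, y₁, h₁, e₁, hx₁, v₁⟩ := hCk1
  have hx1x := hne x₁ y₁ h₁ e₁
  obtain ⟨xp, yp, hp, xm, ym, hm, hadd, hsub, hxp, hxm, hest⟩ :=
    step_of_not_mem hW h₁ h hx1x hx₁ hx
  set X := x⁻¹ with hX
  have hv : A.valuation X < 1 := valuation_inv_lt_one hx
  have e2 : (k + 2) • Point.some x y h = Point.some xp yp hp := by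
    rw [← hadd, ← e₁, succ_nsmul (Point.some x y h) (k + 1)]
  have e0 : xm = xk := by
    have : Point.some xm ym hm = Point.some xk yk hk' := by
      rw [← hsub, ← ek, ← e₁, succ_nsmul, add_sub_cancel_right]
    simpa using congrArg xOf this
  refine ⟨xp, yp, hp, e2, hxp, ?_⟩
  have hX₁ : A.valuation x₁⁻¹ ≤ A.valuation X := by
    have : x₁⁻¹ = (x₁⁻¹ - ((k + 1 : ℕ) : F) ^ 2 * X) + ((k + 1 : ℕ) : F) ^ 2 * X := by ring
    rw [this]
    refine le_trans (A.valuation.map_add _ _) (max_le (le_trans v₁ (valuation_sq_le hv)) ?_)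
    rw [map_mul, map_pow]
    calc A.valuation ((k + 1 : ℕ) : F) ^ 2 * A.valuation X ≤ 1 * A.valuation X :=
          mul_le_mul_left (pow_le_one' (valuation_natCast_le_one _) 2) _
      _ = A.valuation X := one_mul _
  have key : xp⁻¹ - ((k + 2 : ℕ) : F) ^ 2 * X =
      (xp⁻¹ + xm⁻¹ - 2 * (x₁⁻¹ + X)) + 2 * (x₁⁻¹ - ((k + 1 : ℕ) : F) ^ 2 * X) -
        (xm⁻¹ - (k : F) ^ 2 * X) := by
    push_cast; ring
  rw [key]
  refine le_trans (A.valuation.map_sub _ _) (max_le ?_ ?_)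
  · refine le_trans (A.valuation.map_add _ _) (max_le ?_ ?_)
    · refine le_trans hest ?_
      rw [sq]
      exact mul_le_mul_left hX₁ _
    · rw [map_mul, hW.two, one_mul]; exact v₁
  · rw [e0]; exact vk

theorem eq_zero_of_nsmul_eq_zero [DecidableEq F] {p : ℕ} (hp : p.Prime) (hp2 : p ≠ 2)
    (hpA : A.valuation (p : F) = 1) {P : W.Point} (hP : InKerRed A P) (hpP : p • P = 0) :
    P = 0 := by
  by_contra hP0
  rcases P with _ | ⟨x, y, h⟩
  · exact hP0 rfl
  have hx : x ∉ A := (inKerRed_some h).mp hP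
  have hx0 := ne_zero_of_not_mem hx
  set X := x⁻¹ with hX
  have hv : A.valuation X < 1 := valuation_inv_lt_one hx
  have hX0 : X ≠ 0 := inv_ne_zero hx0
  have hvpos : 0 < A.valuation X := zero_lt_iff.mpr ((A.valuation.ne_zero_iff).mpr hX0)
  have : Fact p.Prime := ⟨hp⟩
  have hord : addOrderOf (Point.some x y h) = p := addOrderOf_eq_prime hpP hP0
  have hdvd : ∀ j : ℕ, j • Point.some x y h = 0 → p ∣ j := fun j hj =>
    hord ▸ addOrderOf_dvd_of_nsmul_eq_zero hj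
  have hp3 : 3 ≤ p := by
    have := hp.two_le
    omega
  -- the induction
  have main : ∀ k : ℕ, 1 ≤ k → 2 * (k + 1) ≤ p + 1 →
      TorsClaim A (Point.some x y h) X k ∧ TorsClaim A (Point.some x y h) X (k + 1) := by
    intro k hk
    induction k, hk using Nat.le_induction with
    | base =>
      intro _
      refine ⟨⟨x, y, h, one_nsmul _, hx, ?_⟩, ?_⟩
      · have : x⁻¹ - ((1 : ℕ) : F) ^ 2 * X = 0 := by rw [hX]; push_cast; ring
        rw [this, map_zero]; exact zero_le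
      · obtain ⟨x', y', h', h2, hx', hest⟩ := double_of_not_mem hW h hx
        refine ⟨x', y', h', h2, hx', ?_⟩
        have : x'⁻¹ - ((1 + 1 : ℕ) : F) ^ 2 * X = x'⁻¹ - 4 * x⁻¹ := by
          rw [hX]; push_cast; ring
        rw [this]; exact hest
    | succ k hk ih =>
      intro hb
      obtain ⟨hCk, hCk1⟩ := ih (by omega)
      refine ⟨hCk1, torsClaim_succ_succ hW h hx ?_ hCk hCk1⟩
      intro x₁ y₁ h₁ e₁ hxx
      rcases (Point.X_eq_iff (h₁ := h₁) (h₂ := h)).mp hxx with e | e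
      · have : k • Point.some x y h = 0 := by
          have h1 : (k + 1) • Point.some x y h = Point.some x y h := by rw [e₁, e]
          rw [succ_nsmul] at h1
          exact add_eq_right.mp h1
        have := Nat.le_of_dvd (by omega) (hdvd k this)
        omega
      · have : (k + 2) • Point.some x y h = 0 := by
          rw [succ_nsmul _ (k + 1), e₁, e, neg_add_cancel]
        have := Nat.le_of_dvd (by omega) (hdvd _ this)
        omega
  -- the contradiction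
  obtain ⟨k, rfl⟩ : ∃ k, p = 2 * k + 1 := by
    rcases hp.eq_two_or_odd' with h2 | ⟨k, hk⟩
    · exact absurd h2 hp2
    · exact ⟨k, hk⟩
  obtain ⟨⟨xk, yk, hk', ek, hxk, vk⟩, ⟨x₁, y₁, h₁, e₁, hx₁, v₁⟩⟩ := main k (by omega) (by omega)
  have hxx : x₁ = xk := by
    have : Point.some x₁ y₁ h₁ = -Point.some xk yk hk' := by
      rw [← e₁, ← ek, eq_neg_iff_add_eq_zero, ← add_nsmul]
      have : k + 1 + k = 2 * k + 1 := by ring
      rw [this]; exact hpP
    have := congrArg xOf this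
    simpa [xOf_neg] using this
  have hfin : A.valuation (((2 * k + 1 : ℕ) : F) * X) ≤ A.valuation X ^ 2 := by
    have : ((2 * k + 1 : ℕ) : F) * X =
        (xk⁻¹ - (k : F) ^ 2 * X) - (x₁⁻¹ - ((k + 1 : ℕ) : F) ^ 2 * X) := by
      rw [hxx]; push_cast; ring
    rw [this]
    exact le_trans (A.valuation.map_sub _ _) (max_le vk v₁)
  rw [map_mul, hpA, one_mul, sq] at hfin
  have : A.valuation X * A.valuation X < A.valuation X * 1 :=
    mul_lt_mul_of_pos_left hv hvpos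
  rw [mul_one] at this
  exact absurd hfin (not_le.mpr this)

end torsion

end Fermat.Agent.S05
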