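import Mathlib
import Fermat.Agent.S05.FreyQbar
import Fermat.Agent.S05.NoTorsion

set_option autoImplicit false
open WeierstrassCurve WeierstrassCurve.Affine

namespace Fermat.Agent.S05

variable (P : FreyPackage)

/-- Good reduction: when `q ∤ abc` the discriminant is a `q`-adic unit. -/
theorem freyCurve_Δ_val_zero {q : ℕ} (hq : q.Prime) (hq2 : q ≠ 2)
    (hA : padicValRat q (fA P / 4) = 0) (hB : padicValRat q (fB P / 4) = 0)
    (hC : padicValRat q (fC P / 4) = 0) : padicValRat q P.freyCurve.Δ = 0 := by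
  have := Fact.mk hq
  have hA0 : fA P ≠ 0 := pow_ne_zero _ (by exact_mod_cast P.ha0)
  have hB0 : fB P ≠ 0 := pow_ne_zero _ (by exact_mod_cast P.hb0)
  have hC0 : fC P ≠ 0 := pow_ne_zero _ (by exact_mod_cast P.hc0)
  have h4 : (4 : ℚ) ≠ 0 := by norm_num
  have e : P.freyCurve.Δ = (fA P / 4 * (fB P / 4) * (fC P / 4)) ^ 2 * 4 ^ 2 := by
    rw [freyCurve_Δ]; ring
  rw [e, padicValRat.mul (pow_ne_zero _ (mul_ne_zero (mul_ne_zero (div_ne_zero hA0 h4)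
    (div_ne_zero hB0 h4)) (div_ne_zero hC0 h4))) (pow_ne_zero _ h4), padicValRat.pow,
    padicValRat.pow, padicValRat.mul (mul_ne_zero (div_ne_zero hA0 h4) (div_ne_zero hB0 h4))
      (div_ne_zero hC0 h4), padicValRat.mul (div_ne_zero hA0 h4) (div_ne_zero hB0 h4), hA, hB, hC,
    padicValRat_four hq hq2]
  simp

/-- Dichotomy at an odd prime `q`: good reduction, or labelled roots with `k > 0`. -/
theorem frey_dichotomy {q : ℕ} (hq : q.Prime) (hq2 : q ≠ 2) :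
    padicValRat q P.freyCurve.Δ = 0 ∨
    ∃ (r₁ r₂ r₃ : ℚ) (k : ℕ), 0 < k ∧
      (∀ x : ℚ, 4 * x ^ 3 + P.freyCurve.b₂ * x ^ 2 + 2 * P.freyCurve.b₄ * x + P.freyCurve.b₆ =
        4 * (x - r₁) * (x - r₂) * (x - r₃)) ∧
      padicValRat q (r₁ - r₂) = P.p * k ∧ padicValRat q (r₁ - r₃) = 0 ∧
      padicValRat q (r₂ - r₃) = 0 ∧
      0 ≤ padicValRat q r₁ ∧ 0 ≤ padicValRat q r₂ ∧ 0 ≤ padicValRat q r₃ := by
  have hfac := freyCurve_twoTorsion_factor P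
  have hABC := fA_add_fB P
  have e1 : (0 : ℚ) - fA P / 4 = -(fA P / 4) := by ring
  have e2 : (0 : ℚ) - -(fB P) / 4 = fB P / 4 := by ring
  have e3 : fA P / 4 - -(fB P) / 4 = fC P / 4 := by rw [← hABC]; ring
  have e4 : -(fB P) / 4 - fA P / 4 = -(fC P / 4) := by rw [← hABC]; ring
  have e5 : fA P / 4 - 0 = fA P / 4 := by ring
  have e6 : -(fB P) / 4 - 0 = -(fB P / 4) := by ring
  have i0 : 0 ≤ padicValRat q (0 : ℚ) := by simp
  have iA : 0 ≤ padicValRat q (fA P / 4) := by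
    have h : fA P / 4 = ((P.a ^ P.p : ℤ) : ℚ) / 2 ^ 2 := by
      unfold fA; push_cast; norm_num
    rw [h]; exact padicValRat_int_div_pow_two_nonneg hq hq2 _ _
  have iB : 0 ≤ padicValRat q (-(fB P) / 4) := by
    have h : -(fB P) / 4 = ((-(P.b ^ P.p) : ℤ) : ℚ) / 2 ^ 2 := by
      unfold fB; push_cast; norm_num
    rw [h]; exact padicValRat_int_div_pow_two_nonneg hq hq2 _ _
  rcases frey_val_cases P hq hq2 with ⟨hA, hB, hC⟩ | ⟨k, hk, hA, hB, hC⟩ | ⟨k, hk, hB, hA, hC⟩ |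
    ⟨k, hk, hC, hA, hB⟩
  · exact Or.inl (freyCurve_Δ_val_zero P hq hq2 hA hB hC)
  · refine Or.inr ⟨0, fA P / 4, -(fB P) / 4, k, hk, hfac, ?_, ?_, ?_, i0, iA, iB⟩
    · rw [e1, padicValRat.neg, hA]
    · rw [e2, hB]
    · rw [e3, hC]
  · refine Or.inr ⟨0, -(fB P) / 4, fA P / 4, k, hk, fun x => by rw [hfac x]; ring, ?_, ?_, ?_,
      i0, iB, iA⟩
    · rw [e2, hB]
    · rw [e1, padicValRat.neg, hA]
    · rw [e4, padicValRat.neg, hC]
  · refine Or.inr ⟨fA P / 4, -(fB P) / 4, 0, k, hk, fun x => by rw [hfac x]; ring, ?_, ?_, ?_,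
      iA, iB, i0⟩
    · rw [e3, hC]
    · rw [e5, hA]
    · rw [e6, padicValRat.neg, hB]


section overL

variable {L : Type*} [Field L] [Algebra ℚ L] [CharZero L] (A : ValuationSubring L) {q : ℕ}
  (hq : A.LiesOverPrime q)
include hq

/-- The Frey curve over `L` is an integral model at every odd prime. -/
theorem freyL_integralModel (hqp : q.Prime) (hq2 : q ≠ 2) :
    IntegralModel (P.freyCurve⁄L) A := by
  obtain ⟨h2, h4, h6, h8⟩ := freyL_b_mem P A hq hqp hq2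
  exact ⟨h2, h4, h6, h8, two_unit A hq hqp hq2⟩

/-- Transfer of rational root data to `L`. -/
theorem freyL_roots_transfer (hqp : q.Prime) (r₁ r₂ r₃ : ℚ) (k : ℕ)
    (hfac : ∀ x : ℚ, 4 * x ^ 3 + P.freyCurve.b₂ * x ^ 2 + 2 * P.freyCurve.b₄ * x +
      P.freyCurve.b₆ = 4 * (x - r₁) * (x - r₂) * (x - r₃))
    (h12 : padicValRat q (r₁ - r₂) = P.p * k) (h13 : padicValRat q (r₁ - r₃) = 0)
    (h23 : padicValRat q (r₂ - r₃) = 0)
    (hi1 : 0 ≤ padicValRat q r₁) (hi2 : 0 ≤ padicValRat q r₂) (hi3 : 0 ≤ padicValRat q r₃) :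
    (∀ x : L, psi2Sq (P.freyCurve⁄L) x =
        4 * (x - algebraMap ℚ L r₁) * (x - algebraMap ℚ L r₂) * (x - algebraMap ℚ L r₃)) ∧
      A.valuation (algebraMap ℚ L r₁ - algebraMap ℚ L r₂) = A.valuation (q : L) ^ (P.p * k) ∧
      A.valuation (algebraMap ℚ L r₁ - algebraMap ℚ L r₃) = 1 ∧
      A.valuation (algebraMap ℚ L r₂ - algebraMap ℚ L r₃) = 1 ∧
      algebraMap ℚ L r₁ ∈ A ∧ algebraMap ℚ L r₂ ∈ A ∧ algebraMap ℚ L r₃ ∈ A ∧
      r₁ ≠ r₂ ∧ r₁ ≠ r₃ ∧ r₂ ≠ r₃ := by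
  have e0 := hfac 0
  have e1 := hfac 1
  have e2 := hfac (-1)
  have hb₆ : P.freyCurve.b₆ = -4 * (r₁ * r₂ * r₃) := by linear_combination e0
  have hb₂ : P.freyCurve.b₂ = -4 * (r₁ + r₂ + r₃) := by
    linear_combination (1 / 2 : ℚ) * e1 + (1 / 2 : ℚ) * e2 - e0
  have hb₄ : P.freyCurve.b₄ = 2 * (r₁ * r₂ + r₁ * r₃ + r₂ * r₃) := by
    linear_combination (1 / 4 : ℚ) * e1 - (1 / 4 : ℚ) * e2
  have hne : ∀ i j : ℚ, (i = r₁ ∧ j = r₂) ∨ (i = r₁ ∧ j = r₃) ∨ (i = r₂ ∧ j = r₃) → i - j ≠ 0 := by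
    intro i j hij h0
    have hΔ := freyCurve_Δ_ne_zero P
    apply hΔ
    rw [WeierstrassCurve.Δ, hb₂, hb₄, hb₆]
    have hb₈ : P.freyCurve.b₈ = -(r₁ * r₂ + r₁ * r₃ + r₂ * r₃) ^ 2 +
        4 * (r₁ + r₂ + r₃) * (r₁ * r₂ * r₃) := by
      have := P.freyCurve.b_relation
      rw [hb₂, hb₄, hb₆] at this
      linear_combination (1 / 4 : ℚ) * this
    rw [hb₈]
    rcases hij with ⟨rfl, rfl⟩ | ⟨rfl, rfl⟩ | ⟨rfl, rfl⟩
    · have : i = j := by linarith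
      subst this; ring
    · have : i = j := by linarith
      subst this; ring
    · have : i = j := by linarith
      subst this; ring
  have h12' := hne r₁ r₂ (Or.inl ⟨rfl, rfl⟩)
  have h13' := hne r₁ r₃ (Or.inr (Or.inl ⟨rfl, rfl⟩))
  have h23' := hne r₂ r₃ (Or.inr (Or.inr ⟨rfl, rfl⟩))
  refine ⟨?_, ?_, ?_, ?_, ?_, ?_, ?_, sub_ne_zero.mp h12', sub_ne_zero.mp h13',
    sub_ne_zero.mp h23'⟩
  · intro x
    rw [psi2Sq, freyL_b₂, freyL_b₄, freyL_b₆, hb₂, hb₄]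
    have h6 : algebraMap ℚ L (r₁ * r₂ * r₃) = 0 := by
      have : r₁ * r₂ * r₃ = 0 := by
        have := freyCurve_b₆ P
        rw [hb₆] at this
        linarith
      rw [this, map_zero]
    simp only [map_mul, map_add, map_neg, map_ofNat] at h6 ⊢
    linear_combination (4 : L) * h6
  · rw [← map_sub, eq_ratCast, ratVal_eq_zpow A hq hqp h12', h12]
    norm_cast
  · rw [← map_sub, eq_ratCast]; exact ratVal_eq_one A hq hqp h13' h13
  · rw [← map_sub, eq_ratCast]; exact ratVal_eq_one A hq hqp h23' h23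
  · rw [eq_ratCast]; exact ratVal_mem A hq hqp hi1
  · rw [eq_ratCast]; exact ratVal_mem A hq hqp hi2
  · rw [eq_ratCast]; exact ratVal_mem A hq hqp hi3

/-- The dichotomy over `L` in `A.valuation` language. -/
theorem freyL_dichotomy (hqp : q.Prime) (hq2 : q ≠ 2) :
    A.valuation (P.freyCurve⁄L).Δ = 1 ∨
    ∃ (r₁ r₂ r₃ : ℚ) (k : ℕ), 0 < k ∧
      (∀ x : L, psi2Sq (P.freyCurve⁄L) x =
        4 * (x - algebraMap ℚ L r₁) * (x - algebraMap ℚ L r₂) * (x - algebraMap ℚ L r₃)) ∧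
      A.valuation (algebraMap ℚ L r₁ - algebraMap ℚ L r₂) = A.valuation (q : L) ^ (P.p * k) ∧
      A.valuation (algebraMap ℚ L r₁ - algebraMap ℚ L r₃) = 1 ∧
      A.valuation (algebraMap ℚ L r₂ - algebraMap ℚ L r₃) = 1 ∧
      algebraMap ℚ L r₁ ∈ A ∧ algebraMap ℚ L r₂ ∈ A ∧ algebraMap ℚ L r₃ ∈ A ∧
      r₁ ≠ r₂ ∧ r₁ ≠ r₃ ∧ r₂ ≠ r₃ ∧
      padicValRat q (r₁ - r₂) = P.p * k ∧ padicValRat q (r₁ - r₃) = 0 := by
  rcases frey_dichotomy P hqp hq2 with hΔ | ⟨r₁, r₂, r₃, k, hk, hfac, h12, h13, h23, hi1, hi2, hi3⟩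
  · left
    rw [freyL_Δ, eq_ratCast]
    exact ratVal_eq_one A hq hqp (freyCurve_Δ_ne_zero P) hΔ
  · right
    obtain ⟨t1, t2, t3, t4, t5, t6, t7, t8, t9, t10⟩ :=
      freyL_roots_transfer P A hq hqp r₁ r₂ r₃ k hfac h12 h13 h23 hi1 hi2 hi3
    exact ⟨r₁, r₂, r₃, k, hk, t1, t2, t3, t4, t5, t6, t7, t8, t9, t10, h12, h13⟩

end overL


section eqn

variable {L : Type*} [Field L] [Algebra ℚ L]

theorem freyL_Δ_ne_zero : (P.freyCurve⁄L).Δ ≠ 0 := by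
  rw [freyL_Δ]
  exact (map_ne_zero (algebraMap ℚ L)).mpr (freyCurve_Δ_ne_zero P)

/-- On the Frey curve over `L`, the equation is equivalent to `(2y + x)^2 = psi2Sq x`. -/
theorem freyL_equation_iff (x y : L) :
    (P.freyCurve⁄L).Equation x y ↔ (2 * y + x) ^ 2 = psi2Sq (P.freyCurve⁄L) x := by
  rw [Affine.equation_iff, psi2Sq, WeierstrassCurve.b₂, WeierstrassCurve.b₄, WeierstrassCurve.b₆,
    freyL_a₁, freyL_a₃, freyL_a₆]
  constructor
  · intro h; linear_combination 4 * h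
  · intro h
    have : CharZero L := algebraRat.charZero L
    have h4 : (4 : L) ≠ 0 := by norm_num
    apply mul_left_cancel₀ h4
    linear_combination h

end eqn

section fixedPoint

variable {L : Type*} [Field L] [Algebra ℚ L] [CharZero L] [IsAlgClosed L]
  (A : ValuationSubring L) {q : ℕ} (hq : A.LiesOverPrime q)
include hq

/-- The inertia-fixed auxiliary point `Q'_j` with `x = r₁ + q^j`. -/
theorem freyL_fixed_point (hqp : q.Prime) (r₁ r₂ r₃ : ℚ) (k : ℕ)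
    (hfac : ∀ x : L, psi2Sq (P.freyCurve⁄L) x =
        4 * (x - algebraMap ℚ L r₁) * (x - algebraMap ℚ L r₂) * (x - algebraMap ℚ L r₃))
    (h12 : r₁ ≠ r₂) (h13 : r₁ ≠ r₃) (hv12 : padicValRat q (r₁ - r₂) = P.p * k)
    (hv13 : padicValRat q (r₁ - r₃) = 0) (j : ℕ) (hj : 0 < j) (hjk : j < P.p * k) :
    ∃ (ρ : ℚ) (w y : L)
      (_ : (P.freyCurve⁄L).Nonsingular (algebraMap ℚ L (r₁ + (q : ℚ) ^ j)) y),
      ρ ≠ 0 ∧ padicValRat q ρ = 0 ∧ w ^ 2 = algebraMap ℚ L ρ ∧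
      y = algebraMap ℚ L ((q : ℚ) ^ j) * w - algebraMap ℚ L (r₁ + (q : ℚ) ^ j) / 2 ∧
      A.valuation (algebraMap ℚ L (r₁ + (q : ℚ) ^ j) - algebraMap ℚ L r₁) =
        A.valuation (q : L) ^ j := by
  obtain ⟨ρ, hρ0, hρv, hρ⟩ := fixed_point_datum hqp r₁ r₂ r₃ ((P.p * k : ℕ) : ℤ) (j : ℤ) h12
    (by rw [hv12]; push_cast; ring) hv13 h13 (by exact_mod_cast hj) (by exact_mod_cast hjk)
  rw [zpow_natCast] at hρ
  obtain ⟨w, hw⟩ := IsAlgClosed.exists_pow_nat_eq (algebraMap ℚ L ρ) (n := 2) (by norm_num)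
  set x : L := algebraMap ℚ L (r₁ + (q : ℚ) ^ j) with hx
  set y : L := algebraMap ℚ L ((q : ℚ) ^ j) * w - x / 2 with hy
  have heq : (P.freyCurve⁄L).Equation x y := by
    rw [freyL_equation_iff, hfac, hy]
    have := congrArg (algebraMap ℚ L) hρ
    simp only [map_mul, map_sub, map_pow] at this
    rw [← hw] at this
    rw [hx, map_pow]
    linear_combination (-4 : L) * this
  have hns : (P.freyCurve⁄L).Nonsingular x y :=
    ((P.freyCurve⁄L).equation_iff_nonsingular_of_Δ_ne_zero (freyL_Δ_ne_zero P)).mp heq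
  refine ⟨ρ, w, y, hns, hρ0, hρv, hw, rfl, ?_⟩
  rw [hx, ← map_sub, add_sub_cancel_left, map_pow, map_natCast, map_pow]

end fixedPoint

section twoTorsion
variable {L : Type*} [Field L] [Algebra ℚ L]

/-- The rational `2`-torsion point with `x = r` for a root `r` of the `2`-division polynomial. -/
theorem freyL_twoTorsion_point (r : ℚ) (hr : psi2Sq (P.freyCurve⁄L) (algebraMap ℚ L r) = 0) :
    (P.freyCurve⁄L).Nonsingular (algebraMap ℚ L r) (algebraMap ℚ L (-r / 2)) := by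
  have : CharZero L := algebraRat.charZero L
  apply ((P.freyCurve⁄L).equation_iff_nonsingular_of_Δ_ne_zero (freyL_Δ_ne_zero P)).mp
  rw [freyL_equation_iff, hr]
  have h2 : (2 : L) ≠ 0 := two_ne_zero
  have : (2 : L) * algebraMap ℚ L (-r / 2) + algebraMap ℚ L r = 0 := by
    rw [map_div₀, map_neg, map_ofNat]
    field_simp
    ring
  rw [this]; ring

end twoTorsion

end Fermat.Agent.S05
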