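import Mathlib

/-!
# S05: congruent points differ by an element of the kernel of reduction

Statement-independent: `K` a field, `A` a valuation subring, `W` a Weierstrass curve over `K`
with `a₁ .. a₄ ∈ A`.  If `P = (x, y)` has coordinates in `A` and reduces to a nonsingular point
(one of the two partial derivatives is a unit), and `P' = (x', y')` is congruent to `P` modulo the
maximal ideal, then `P' - P` is `0` or has `x`-coordinate outside `A`.
-/

set_option autoImplicit false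

open WeierstrassCurve WeierstrassCurve.Affine WeierstrassCurve.Affine.Point

namespace Fermat.Agent.S05

variable {K : Type*} [Field K] (A : ValuationSubring K) (W : WeierstrassCurve K)

lemma cg_val_add_lt_one {a b : K} (ha : A.valuation a < 1) (hb : A.valuation b < 1) :
    A.valuation (a + b) < 1 :=
  lt_of_le_of_lt (A.valuation.map_add a b) (max_lt ha hb)

lemma cg_val_sub_lt_one {a b : K} (ha : A.valuation a < 1) (hb : A.valuation b < 1) :
    A.valuation (a - b) < 1 :=
  lt_of_le_of_lt (A.valuation.map_sub a b) (max_lt ha hb)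

lemma cg_val_mul_lt_one_left {a b : K} (ha : A.valuation a < 1) (hb : b ∈ A) :
    A.valuation (a * b) < 1 := by
  rw [map_mul]
  have hb' : A.valuation b ≤ 1 := (A.valuation_le_one_iff b).mpr hb
  calc A.valuation a * A.valuation b ≤ A.valuation a * 1 := mul_le_mul' le_rfl hb'
    _ = A.valuation a := mul_one _
    _ < 1 := ha

lemma cg_val_mul_lt_one_right {a b : K} (ha : a ∈ A) (hb : A.valuation b < 1) :
    A.valuation (a * b) < 1 := by
  rw [mul_comm]; exact cg_val_mul_lt_one_left A hb ha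

lemma cg_val_eq_one_add {a b : K} (ha : A.valuation a = 1) (hb : A.valuation b < 1) :
    A.valuation (a + b) = 1 := by
  rw [Valuation.map_add_eq_of_lt_left _ (by rw [ha]; exact hb), ha]

lemma cg_one_lt_val_div {a b : K} (ha : A.valuation a = 1) (hb : A.valuation b < 1) (hb0 : b ≠ 0) :
    1 < A.valuation (a / b) := by
  rw [map_div₀, ha, one_div]
  exact (one_lt_inv₀ ((Valuation.pos_iff _).mpr hb0)).mpr hb

/-- If the slope has valuation `> 1` then the `x`-coordinate of the sum is not in `A`. -/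
lemma cg_addX_not_mem (ha1 : W.a₁ ∈ A) (ha2 : W.a₂ ∈ A) {ℓ x₁ x₂ : K} (hx1 : x₁ ∈ A)
    (hx2 : x₂ ∈ A) (hℓ : 1 < A.valuation ℓ) : W.toAffine.addX x₁ x₂ ℓ ∉ A := by
  intro hmem
  have hle : A.valuation (W.toAffine.addX x₁ x₂ ℓ) ≤ 1 := (A.valuation_le_one_iff _).mpr hmem
  have hℓ0 : (0 : A.ValueGroup) < A.valuation ℓ := lt_trans zero_lt_one hℓ
  have h2 : A.valuation ℓ < A.valuation (ℓ ^ 2) := by
    rw [map_pow, pow_two]
    calc A.valuation ℓ = A.valuation ℓ * 1 := (mul_one _).symm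
      _ < A.valuation ℓ * A.valuation ℓ := mul_lt_mul_of_pos_left hℓ hℓ0
  have h1 : A.valuation (W.a₁ * ℓ) ≤ A.valuation ℓ := by
    rw [map_mul]
    calc A.valuation W.a₁ * A.valuation ℓ ≤ 1 * A.valuation ℓ :=
          mul_le_mul' ((A.valuation_le_one_iff _).mpr ha1) le_rfl
      _ = A.valuation ℓ := one_mul _
  have h3 : A.valuation (W.a₂ + x₁ + x₂) ≤ 1 :=
    (A.valuation_le_one_iff _).mpr (A.add_mem _ _ (A.add_mem _ _ ha2 hx1) hx2)
  have hrest : A.valuation (W.a₁ * ℓ - (W.a₂ + x₁ + x₂)) < A.valuation (ℓ ^ 2) := by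
    refine lt_of_le_of_lt (A.valuation.map_sub _ _) (max_lt (lt_of_le_of_lt h1 h2) ?_)
    exact lt_of_le_of_lt h3 (lt_trans hℓ h2)
  have heq : W.toAffine.addX x₁ x₂ ℓ = ℓ ^ 2 + (W.a₁ * ℓ - (W.a₂ + x₁ + x₂)) := by
    simp only [addX]; ring
  rw [heq, Valuation.map_add_eq_of_lt_left _ hrest] at hle
  exact absurd (lt_trans hℓ h2) (not_lt.mpr hle)

/-- **Congruent points differ by an element of the kernel of reduction.** -/
theorem cg_sub_mem_E1 [DecidableEq K] (ha1 : W.a₁ ∈ A) (ha2 : W.a₂ ∈ A) {x y x' y' : K} (h : W.toAffine.Nonsingular x y)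
    (h' : W.toAffine.Nonsingular x' y') (hx : x ∈ A) (hy : y ∈ A)
    (hxx : A.valuation (x' - x) < 1) (hyy : A.valuation (y' - y) < 1)
    (hns : A.valuation (2 * y + W.a₁ * x + W.a₃) = 1 ∨
      A.valuation (3 * x ^ 2 + 2 * W.a₂ * x + W.a₄ - W.a₁ * y) = 1) :
    (Point.some _ _ h' - Point.some _ _ h = 0) ∨
      ∃ (X Y : K) (H : W.toAffine.Nonsingular X Y),
        Point.some _ _ h' - Point.some _ _ h = Point.some _ _ H ∧ X ∉ A := by
  have hx' : x' ∈ A := by
    have : x' = x + (x' - x) := by ring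
    rw [this]; exact A.add_mem _ _ hx (A.mem_of_valuation_le_one _ hxx.le)
  have hy' : y' ∈ A := by
    have : y' = y + (y' - y) := by ring
    rw [this]; exact A.add_mem _ _ hy (A.mem_of_valuation_le_one _ hyy.le)
  rw [sub_eq_add_neg, neg_some]
  by_cases hYeq : x' = x ∧ y' = W.toAffine.negY x (W.toAffine.negY x y)
  · left
    exact add_of_Y_eq hYeq.1 hYeq.2
  right
  refine ⟨_, _, _, add_some hYeq, ?_⟩
  apply cg_addX_not_mem A W ha1 ha2 hx' hx
  by_cases hX : x' = x
  · -- tangent case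
    have hY : y' ≠ W.toAffine.negY x (W.toAffine.negY x y) := fun hc => hYeq ⟨hX, hc⟩
    rw [slope_of_Y_ne hX hY]
    have hyne : y' ≠ y := by rwa [negY_negY] at hY
    have hy'eq : y' = W.toAffine.negY x y := by
      rcases Y_eq_of_X_eq h'.1 h.1 hX with h1 | h1
      · exact absurd h1 hyne
      · exact h1
    have hden : y' - W.toAffine.negY x' y' = y' - y := by
      rw [hX, hy'eq, negY_negY]
    have hN : A.valuation (2 * y + W.a₁ * x + W.a₃) < 1 := by
      have : 2 * y + W.a₁ * x + W.a₃ = -(y' - y) := by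
        rw [hy'eq]; simp only [negY]; ring
      rw [this, Valuation.map_neg]; exact hyy
    have hM : A.valuation (3 * x ^ 2 + 2 * W.a₂ * x + W.a₄ - W.a₁ * y) = 1 := by
      rcases hns with h1 | h1
      · exact absurd h1 (ne_of_lt hN)
      · exact h1
    have hnum : A.valuation (3 * x' ^ 2 + 2 * W.a₂ * x' + W.a₄ - W.a₁ * y') = 1 := by
      have : 3 * x' ^ 2 + 2 * W.a₂ * x' + W.a₄ - W.a₁ * y' =
          (3 * x ^ 2 + 2 * W.a₂ * x + W.a₄ - W.a₁ * y) + (-(W.a₁ * (y' - y))) := by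
        rw [hX]; ring
      rw [this]
      apply cg_val_eq_one_add A hM
      rw [Valuation.map_neg]
      exact cg_val_mul_lt_one_right A ha1 hyy
    rw [hden]
    exact cg_one_lt_val_div A hnum hyy (sub_ne_zero.mpr hyne)
  · -- chord case
    rw [slope_of_X_ne hX]
    have hxne : x' - x ≠ 0 := sub_ne_zero.mpr hX
    rcases hns with hN | hM
    · have hnum : A.valuation (y' - W.toAffine.negY x y) = 1 := by
        have : y' - W.toAffine.negY x y = (2 * y + W.a₁ * x + W.a₃) + (y' - y) := by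
          simp only [negY]; ring
        rw [this]
        exact cg_val_eq_one_add A hN hyy
      exact cg_one_lt_val_div A hnum hxx hxne
    · set B : K := x' ^ 2 + x' * x + x ^ 2 + W.a₂ * (x' + x) + W.a₄ - W.a₁ * y' with hB
      have hid : (y' - y) * (y' - W.toAffine.negY x y) = (x' - x) * B := by
        have e1 := (W.toAffine.equation_iff x y).mp h.1
        have e2 := (W.toAffine.equation_iff x' y').mp h'.1
        simp only [negY, hB]
        linear_combination e2 - e1
      have hBv : A.valuation B = 1 := by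
        have : B = (3 * x ^ 2 + 2 * W.a₂ * x + W.a₄ - W.a₁ * y) +
            ((x' - x) * (x' + 2 * x + W.a₂) - W.a₁ * (y' - y)) := by
          rw [hB]; ring
        rw [this]
        apply cg_val_eq_one_add A hM
        apply cg_val_sub_lt_one A
        · exact cg_val_mul_lt_one_left A hxx
            (A.add_mem _ _ (A.add_mem _ _ hx' (A.mul_mem _ _ (by
              have : (2 : K) = 1 + 1 := by norm_num
              rw [this]; exact A.add_mem _ _ A.one_mem A.one_mem) hx)) ha2)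
        · exact cg_val_mul_lt_one_right A ha1 hyy
      have hyne : y' - y ≠ 0 := by
        intro hc
        rw [hc, zero_mul] at hid
        have hB0 : B = 0 := by
          rcases mul_eq_zero.mp hid.symm with h1 | h1
          · exact absurd h1 hxne
          · exact h1
        rw [hB0, _root_.map_zero] at hBv
        exact zero_ne_one hBv
      have hsl : (y' - W.toAffine.negY x y) / (x' - x) = B / (y' - y) := by
        rw [div_eq_div_iff hxne hyne]
        linear_combination hid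
      rw [hsl]
      exact cg_one_lt_val_div A hBv hyy hyne


/-- A point with `x`-coordinate in `A` on an `A`-integral Weierstrass equation has its
`y`-coordinate in `A`. -/
theorem cg_y_mem (ha1 : W.a₁ ∈ A) (ha2 : W.a₂ ∈ A) (ha3 : W.a₃ ∈ A) (ha4 : W.a₄ ∈ A)
    (ha6 : W.a₆ ∈ A) {x y : K} (hx : x ∈ A) (h : W.toAffine.Equation x y) : y ∈ A := by
  by_contra hy
  have hy1 : 1 < A.valuation y := by
    rw [← not_le, A.valuation_le_one_iff]; exact hy
  have hy0 : (0 : A.ValueGroup) < A.valuation y := lt_trans zero_lt_one hy1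
  have h2 : A.valuation y < A.valuation (y ^ 2) := by
    rw [map_pow, pow_two]
    calc A.valuation y = A.valuation y * 1 := (mul_one _).symm
      _ < A.valuation y * A.valuation y := mul_lt_mul_of_pos_left hy1 hy0
  have hc : W.a₁ * x + W.a₃ ∈ A := by aesop
  have hf : x ^ 3 + W.a₂ * x ^ 2 + W.a₄ * x + W.a₆ ∈ A := by aesop
  have h1 : A.valuation ((W.a₁ * x + W.a₃) * y) ≤ A.valuation y := by
    rw [map_mul]
    calc A.valuation (W.a₁ * x + W.a₃) * A.valuation y ≤ 1 * A.valuation y :=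
          mul_le_mul' ((A.valuation_le_one_iff _).mpr hc) le_rfl
      _ = A.valuation y := one_mul _
  have hrest : A.valuation ((W.a₁ * x + W.a₃) * y - (x ^ 3 + W.a₂ * x ^ 2 + W.a₄ * x + W.a₆))
      < A.valuation (y ^ 2) := by
    refine lt_of_le_of_lt (A.valuation.map_sub _ _) (max_lt (lt_of_le_of_lt h1 h2) ?_)
    exact lt_of_le_of_lt ((A.valuation_le_one_iff _).mpr hf) (lt_trans hy1 h2)
  have e := (W.toAffine.equation_iff' x y).mp h
  have heq : y ^ 2 + W.a₁ * x * y + W.a₃ * y - (x ^ 3 + W.a₂ * x ^ 2 + W.a₄ * x + W.a₆) =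
      y ^ 2 + ((W.a₁ * x + W.a₃) * y - (x ^ 3 + W.a₂ * x ^ 2 + W.a₄ * x + W.a₆)) := by ring
  rw [heq] at e
  have hv := Valuation.map_add_eq_of_lt_left A.valuation hrest
  rw [e, _root_.map_zero] at hv
  rw [← hv] at h2
  exact absurd h2 (not_lt.mpr zero_le)

/-- The discriminant lies in the ideal generated by the two partial derivatives at any point of
the curve (explicit identity). -/
theorem cg_disc_identity {x y : K} (h : W.toAffine.Equation x y) :
    ∃ α β : K, W.Δ = (2 * y + W.a₁ * x + W.a₃) * α +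
        (3 * x ^ 2 + 2 * W.a₂ * x + W.a₄ - W.a₁ * y) * β ∧
      ((W.a₁ ∈ A → W.a₂ ∈ A → W.a₃ ∈ A → W.a₄ ∈ A → x ∈ A → y ∈ A → α ∈ A ∧ β ∈ A)) := by
  set N : K := 2 * y + W.a₁ * x + W.a₃ with hN
  set M : K := 3 * x ^ 2 + 2 * W.a₂ * x + W.a₄ - W.a₁ * y with hM
  set A2 : K := W.a₂ + 3 * x with hA2
  set B2 : K := W.a₁ ^ 2 + 4 * A2 with hB2
  have e := (W.toAffine.equation_iff' x y).mp h
  refine ⟨B2 ^ 2 * (W.a₁ * M - A2 * N) - 8 * (12 * W.a₁ * M ^ 2 + 6 * W.a₁ ^ 2 * N * M
      + W.a₁ ^ 3 * N ^ 2) - 27 * N ^ 3 + 9 * B2 * N * (2 * M + W.a₁ * N),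
    B2 ^ 2 * M - 64 * M ^ 2, ?_, ?_⟩
  · simp only [WeierstrassCurve.Δ, WeierstrassCurve.b₂, WeierstrassCurve.b₄,
      WeierstrassCurve.b₆, WeierstrassCurve.b₈, hN, hM, hA2, hB2]
    linear_combination (-(-(W.a₁ ^ 2 + 4 * (W.a₂ + 3 * x)) ^ 3 - 216 * (2 * y + W.a₁ * x + W.a₃) ^ 2
      + 432 * (y ^ 2 + W.a₁ * x * y + W.a₃ * y - (x ^ 3 + W.a₂ * x ^ 2 + W.a₄ * x + W.a₆))
      + 36 * (W.a₁ ^ 2 + 4 * (W.a₂ + 3 * x)) * (2 * (3 * x ^ 2 + 2 * W.a₂ * x + W.a₄ - W.a₁ * y)
        + W.a₁ * (2 * y + W.a₁ * x + W.a₃)))) * e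
  · intro h1 h2 h3 h4 hx hy
    have hN' : N ∈ A := by rw [hN]; aesop
    have hM' : M ∈ A := by rw [hM]; aesop
    have hA2' : A2 ∈ A := by rw [hA2]; aesop
    have hB2' : B2 ∈ A := by rw [hB2]; aesop
    constructor <;> aesop

/-- Good reduction: if `Δ` is a unit of `A` then every `A`-integral point reduces to a
nonsingular point, i.e. one of the two partial derivatives is a unit. -/
theorem cg_partial_unit_of_disc_unit (ha1 : W.a₁ ∈ A) (ha2 : W.a₂ ∈ A) (ha3 : W.a₃ ∈ A)
    (ha4 : W.a₄ ∈ A) (hΔ : A.valuation W.Δ = 1) {x y : K} (hx : x ∈ A) (hy : y ∈ A)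
    (h : W.toAffine.Equation x y) :
    A.valuation (2 * y + W.a₁ * x + W.a₃) = 1 ∨
      A.valuation (3 * x ^ 2 + 2 * W.a₂ * x + W.a₄ - W.a₁ * y) = 1 := by
  obtain ⟨α, β, hid, hmem⟩ := cg_disc_identity A W h
  obtain ⟨hα, hβ⟩ := hmem ha1 ha2 ha3 ha4 hx hy
  have hN' : 2 * y + W.a₁ * x + W.a₃ ∈ A := by aesop
  have hM' : 3 * x ^ 2 + 2 * W.a₂ * x + W.a₄ - W.a₁ * y ∈ A := by aesop
  by_contra hcon
  rw [not_or] at hcon
  have hN1 : A.valuation (2 * y + W.a₁ * x + W.a₃) < 1 :=
    lt_of_le_of_ne ((A.valuation_le_one_iff _).mpr hN') hcon.1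
  have hM1 : A.valuation (3 * x ^ 2 + 2 * W.a₂ * x + W.a₄ - W.a₁ * y) < 1 :=
    lt_of_le_of_ne ((A.valuation_le_one_iff _).mpr hM') hcon.2
  have : A.valuation W.Δ < 1 := by
    rw [hid]
    exact cg_val_add_lt_one A (cg_val_mul_lt_one_left A hN1 hα) (cg_val_mul_lt_one_left A hM1 hβ)
  rw [hΔ] at this
  exact lt_irrefl _ this

/-- **Good reduction case.** If `Δ` is a unit of `A`, the kernel of reduction has no `p`-torsion
(hypothesis `hE1`), `P = (x, y)` and `P' = (x', y')` are `p`-torsion points and `P'` is congruent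
to `P` whenever `P` is integral, then `P' = P`. -/
theorem cg_fixed_of_good [DecidableEq K] (ha1 : W.a₁ ∈ A) (ha2 : W.a₂ ∈ A) (ha3 : W.a₃ ∈ A)
    (ha4 : W.a₄ ∈ A) (ha6 : W.a₆ ∈ A) (hΔ : A.valuation W.Δ = 1) {p : ℕ}
    (hE1 : ∀ (X Y : K) (H : W.toAffine.Nonsingular X Y), X ∉ A →
      p • (Point.some X Y H : W.toAffine.Point) ≠ 0)
    {x y x' y' : K} (h : W.toAffine.Nonsingular x y) (h' : W.toAffine.Nonsingular x' y')
    (hP : p • (Point.some x y h : W.toAffine.Point) = 0)
    (hP' : p • (Point.some x' y' h' : W.toAffine.Point) = 0)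
    (hcong : x ∈ A → y ∈ A → A.valuation (x' - x) < 1 ∧ A.valuation (y' - y) < 1) :
    (Point.some x' y' h' : W.toAffine.Point) = Point.some x y h := by
  have hx : x ∈ A := by
    by_contra hx
    exact hE1 x y h hx hP
  have hy : y ∈ A := cg_y_mem A W ha1 ha2 ha3 ha4 ha6 hx h.1
  obtain ⟨hxx, hyy⟩ := hcong hx hy
  have hns := cg_partial_unit_of_disc_unit A W ha1 ha2 ha3 ha4 hΔ hx hy h.1
  rcases cg_sub_mem_E1 A W ha1 ha2 h h' hx hy hxx hyy hns with h0 | ⟨X, Y, H, hD, hX⟩
  · exact sub_eq_zero.mp h0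
  · exfalso
    apply hE1 X Y H hX
    rw [← hD, smul_sub, hP, hP', sub_zero]

end Fermat.Agent.S05
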