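import Mathlib
import Fermat.Prelude.Def_FLTPrelim_Ramification

set_option autoImplicit false
open WeierstrassCurve WeierstrassCurve.Affine WeierstrassCurve.Affine.Point

namespace Fermat.Agent.S05

/-- Reduction of `GaloisRepUnramifiedAt` to a statement about `p`-torsion points. -/
theorem galoisRepUnramifiedAt_of (P : FreyPackage) (q : ℕ)
    (H : ∀ A : ValuationSubring (AlgebraicClosure ℚ), A.LiesOverPrime q →
      ∀ σ ∈ A.inertiaSubgroupIn ℚ, ∀ T : (P.freyCurve⁄(AlgebraicClosure ℚ)).Point,
        (P.p : ℤ) • T = 0 → σ • T = T) :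
    P.GaloisRepUnramifiedAt q := by
  intro A hA σ hσ x
  apply Subtype.ext
  show σ • x.1 = x.1
  apply H A hA σ hσ
  have := x.2
  rwa [Submodule.mem_torsionBy_iff] at this

theorem smul_some {R : Type*} {K : Type*} [CommRing R] [Field K] [DecidableEq K] [Algebra R K]
    {S : Type*} [CommRing S] [Algebra R S] [Algebra S K] [IsScalarTower R S K]
    {W' : Affine R} (σ : K ≃ₐ[S] K) {x y : K} (h : (W'⁄K).Nonsingular x y) :
    σ • (Point.some x y h : (W'⁄K).Point) =
      Point.some (σ x) (σ y) ((W'.baseChange_nonsingular (f := σ.toAlgHom) σ.injective x y).mpr h) := by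
  rw [algEquiv_smul_def]
  exact map_some σ.toAlgHom h

end Fermat.Agent.S05
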