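import Fermat.Agent.S05.Inertia
import Fermat.Agent.S05.Unfold

/-!
# S05: bookkeeping for the Galois action on points, and inertia-fixed points
-/

set_option autoImplicit false

namespace Fermat.Agent.S05

open WeierstrassCurve WeierstrassCurve.Affine WeierstrassCurve.Affine.Point

section Action

variable {R : Type*} {S : Type*} {K : Type*} [CommRing R] [CommRing S] [Field K] [DecidableEq K]
  [Algebra R S] [Algebra R K] [Algebra S K] [IsScalarTower R S K] {W' : Affine R}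

lemma ga_smul_zero (σ : K ≃ₐ[S] K) : σ • (0 : (W'⁄K).Point) = 0 := smul_zero σ

lemma ga_smul_add (σ : K ≃ₐ[S] K) (P Q : (W'⁄K).Point) : σ • (P + Q) = σ • P + σ • Q :=
  smul_add σ P Q

lemma ga_smul_neg (σ : K ≃ₐ[S] K) (P : (W'⁄K).Point) : σ • (-P) = -(σ • P) :=
  smul_neg σ P

lemma ga_smul_sub (σ : K ≃ₐ[S] K) (P Q : (W'⁄K).Point) : σ • (P - Q) = σ • P - σ • Q :=
  smul_sub σ P Q

lemma ga_smul_nsmul (σ : K ≃ₐ[S] K) (n : ℕ) (P : (W'⁄K).Point) : σ • (n • P) = n • (σ • P) :=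
  map_nsmul (DistribSMul.toAddMonoidHom (W'⁄K).Point σ) n P

lemma ga_smul_zsmul (σ : K ≃ₐ[S] K) (n : ℤ) (P : (W'⁄K).Point) : σ • (n • P) = n • (σ • P) :=
  map_zsmul (DistribSMul.toAddMonoidHom (W'⁄K).Point σ) n P

/-- `σ • P - P` is killed by `n` if `P` is. -/
lemma ga_nsmul_smul_sub (σ : K ≃ₐ[S] K) {n : ℕ} {P : (W'⁄K).Point} (hP : n • P = 0) :
    n • (σ • P - P) = 0 := by
  rw [nsmul_sub, ← ga_smul_nsmul, hP, smul_zero, sub_zero]

lemma ga_zsmul_smul_sub (σ : K ≃ₐ[S] K) {n : ℤ} {P : (W'⁄K).Point} (hP : n • P = 0) :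
    n • (σ • P - P) = 0 := by
  rw [zsmul_sub, ← ga_smul_zsmul, hP, smul_zero, sub_zero]

/-- if `Q` is fixed by `σ`, then `σ • P - P` can be computed on `P - Q`. -/
lemma ga_smul_sub_of_fixed_sub (σ : K ≃ₐ[S] K) {P Q : (W'⁄K).Point} (hQ : σ • Q = Q) :
    σ • (P - Q) - (P - Q) = σ • P - P := by
  rw [ga_smul_sub, hQ]; abel

/-- if `Q` is fixed by `σ`, then `σ • P - P` can be computed on `P + Q`. -/
lemma ga_smul_sub_of_fixed_add (σ : K ≃ₐ[S] K) {P Q : (W'⁄K).Point} (hQ : σ • Q = Q) :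
    σ • (P + Q) - (P + Q) = σ • P - P := by
  rw [ga_smul_add, hQ]; abel

/-- `σ • P = P` as soon as `σ • P - P = 0`. -/
lemma ga_smul_eq_of_sub_eq_zero (σ : K ≃ₐ[S] K) {P : (W'⁄K).Point} (h : σ • P - P = 0) :
    σ • P = P := sub_eq_zero.mp h

/-- a point whose coordinates are fixed by `σ` is fixed by `σ`. -/
lemma ga_smul_some_of_fixed (σ : K ≃ₐ[S] K) {x y : K} (h : (W'⁄K).Nonsingular x y)
    (hx : σ x = x) (hy : σ y = y) :
    σ • (Point.some x y h : (W'⁄K).Point) = Point.some x y h := by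
  rw [smul_some]
  congr 1

/-- a point with coordinates in the base field `S` is fixed by every `σ`. -/
lemma ga_smul_some_of_mem_range (σ : K ≃ₐ[S] K) {x y : K} (h : (W'⁄K).Nonsingular x y)
    (hx : x ∈ Set.range (algebraMap S K)) (hy : y ∈ Set.range (algebraMap S K)) :
    σ • (Point.some x y h : (W'⁄K).Point) = Point.some x y h := by
  obtain ⟨a, rfl⟩ := hx
  obtain ⟨b, rfl⟩ := hy
  exact ga_smul_some_of_fixed σ h (σ.commutes a) (σ.commutes b)

end Action

section SquareRoot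

variable {K L : Type*} [Field K] [Field L] [Algebra K L] (A : ValuationSubring L)

/-- **Inertia fixes square roots of units fixed by it** (residue characteristic `≠ 2`). -/
theorem ga_inertia_fixes_sqrt {σ : L ≃ₐ[K] L} (hσ : σ ∈ A.inertiaSubgroupIn K)
    (h2 : A.valuation (2 : L) = 1) {w : L} (hw : A.valuation w = 1) (hw2 : σ (w ^ 2) = w ^ 2) :
    σ w = w := by
  have hsq : (σ w - w) * (σ w + w) = 0 := by
    have : σ w ^ 2 = w ^ 2 := by rw [← map_pow]; exact hw2
    linear_combination this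
  rcases mul_eq_zero.mp hsq with h | h
  · exact sub_eq_zero.mp h
  · exfalso
    have hneg : σ w = -w := eq_neg_of_add_eq_zero_left h
    have hwA : w ∈ A := (A.valuation_le_one_iff w).mp hw.le
    have hlt := inertia_sub_lt_one A hσ hwA
    rw [hneg] at hlt
    have : -w - w = -(2 * w) := by ring
    rw [this, Valuation.map_neg, map_mul, h2, hw, one_mul] at hlt
    exact lt_irrefl _ hlt

/-- special case: `w ^ 2` lies in the base field. -/
theorem ga_inertia_fixes_sqrt_of_algebraMap {σ : L ≃ₐ[K] L} (hσ : σ ∈ A.inertiaSubgroupIn K)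
    (h2 : A.valuation (2 : L) = 1) {w : L} {ρ : K} (hρ : w ^ 2 = algebraMap K L ρ)
    (hρ1 : A.valuation (algebraMap K L ρ) = 1) : σ w = w := by
  have hw : A.valuation w = 1 := by
    have : A.valuation w ^ 2 = 1 := by rw [← map_pow, hρ, hρ1]
    exact sq_eq_one.mp this
  refine ga_inertia_fixes_sqrt A hσ h2 hw ?_
  rw [hρ, σ.commutes]

end SquareRoot

section Frey

/-- `nsmul` version of the unfolding of `GaloisRepUnramifiedAt`. -/
theorem ga_galoisRepUnramifiedAt_of_nsmul (P : FreyPackage) (q : ℕ)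
    (H : ∀ A : ValuationSubring (AlgebraicClosure ℚ), A.LiesOverPrime q →
      ∀ σ ∈ A.inertiaSubgroupIn ℚ, ∀ T : (P.freyCurve⁄(AlgebraicClosure ℚ)).Point,
        P.p • T = 0 → σ • T = T) :
    P.GaloisRepUnramifiedAt q := by
  apply galoisRepUnramifiedAt_of
  intro A hA σ hσ T hT
  apply H A hA σ hσ T
  rwa [natCast_zsmul] at hT

end Frey

end Fermat.Agent.S05
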