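import Mathlib
import Fermat.Agent.S05.Congruent

/-!
# S05: endgame lemmas for the multiplicative case

* `eg_sub_mem_E1_of_lt`: relative congruence.  If `P' = (x', y')` is congruent to `P = (x, y)`
  modulo something *smaller* than `N = 2y + a₁x + a₃`, then `P' - P` lies in the kernel of
  reduction.
* `eg_node_sub_mem_E1`: the same for `P' = σ P`, `σ` acting trivially on the residue field, when
  `v(x - e) = v(c) = v(N)` for `σ`-fixed `e`, `c`.
* `eg_hns_of_roots`: an integral point which does not reduce to the node reduces to a nonsingular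
  point.
-/

set_option autoImplicit false

open WeierstrassCurve WeierstrassCurve.Affine WeierstrassCurve.Affine.Point

namespace Fermat.Agent.S05

variable {K : Type*} [Field K] (A : ValuationSubring K) (W : WeierstrassCurve K)

/-- **Relative congruence.** -/
theorem eg_sub_mem_E1_of_lt [DecidableEq K] (ha1 : W.a₁ ∈ A) (ha2 : W.a₂ ∈ A) {x y x' y' : K}
    (h : W.toAffine.Nonsingular x y) (h' : W.toAffine.Nonsingular x' y') (hx : x ∈ A)
    (hx' : x' ∈ A)
    (hxx : A.valuation (x' - x) < A.valuation (2 * y + W.a₁ * x + W.a₃))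
    (hyy : A.valuation (y' - y) < A.valuation (2 * y + W.a₁ * x + W.a₃)) :
    (Point.some _ _ h' - Point.some _ _ h = 0) ∨
      ∃ (X Y : K) (H : W.toAffine.Nonsingular X Y),
        Point.some _ _ h' - Point.some _ _ h = Point.some _ _ H ∧ X ∉ A := by
  rw [sub_eq_add_neg, neg_some]
  by_cases hYeq : x' = x ∧ y' = W.toAffine.negY x (W.toAffine.negY x y)
  · left
    exact add_of_Y_eq hYeq.1 hYeq.2
  right
  refine ⟨_, _, _, add_some hYeq, ?_⟩
  apply cg_addX_not_mem A W ha1 ha2 hx' hx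
  by_cases hX : x' = x
  · exfalso
    have hY : y' ≠ W.toAffine.negY x (W.toAffine.negY x y) := fun hc => hYeq ⟨hX, hc⟩
    have hyne : y' ≠ y := by rwa [negY_negY] at hY
    have hy'eq : y' = W.toAffine.negY x y := by
      rcases Y_eq_of_X_eq h'.1 h.1 hX with h1 | h1
      · exact absurd h1 hyne
      · exact h1
    have : y' - y = -(2 * y + W.a₁ * x + W.a₃) := by
      rw [hy'eq]; simp only [negY]; ring
    rw [this, Valuation.map_neg] at hyy
    exact lt_irrefl _ hyy
  · rw [slope_of_X_ne hX]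
    have hxne : x' - x ≠ 0 := sub_ne_zero.mpr hX
    have hpos : (0 : A.ValueGroup) < A.valuation (x' - x) := (Valuation.pos_iff _).mpr hxne
    have hnum : A.valuation (y' - W.toAffine.negY x y) =
        A.valuation (2 * y + W.a₁ * x + W.a₃) := by
      have : y' - W.toAffine.negY x y = (2 * y + W.a₁ * x + W.a₃) + (y' - y) := by
        simp only [negY]; ring
      rw [this]
      exact Valuation.map_add_eq_of_lt_left _ hyy
    rw [map_div₀, hnum, div_eq_mul_inv]
    have := mul_lt_mul_of_pos_right hxx (inv_pos.mpr hpos)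
    rwa [mul_inv_cancel₀ (ne_of_gt hpos)] at this

/-- **Node region.** `σ` acts trivially on the residue field and fixes `a₁, a₃, e, c`; the point
`P = (x, y)` satisfies `v(x - e) = v(c) = v(2y + a₁x + a₃)`.  Then `σ P - P` is `0` or has
`x`-coordinate outside `A`. -/
theorem eg_node_sub_mem_E1 [DecidableEq K] (ha1 : W.a₁ ∈ A) (ha2 : W.a₂ ∈ A)
    (h2 : A.valuation (2 : K) = 1) (σ : K →+* K)
    (hσ : ∀ z ∈ A, A.valuation (σ z - z) < 1) (hσ1 : σ W.a₁ = W.a₁) (hσ3 : σ W.a₃ = W.a₃)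
    {e c : K} (hσe : σ e = e) (hσc : σ c = c) (hc0 : c ≠ 0) {x y : K}
    (h : W.toAffine.Nonsingular x y) (h' : W.toAffine.Nonsingular (σ x) (σ y)) (hx : x ∈ A)
    (hξ : A.valuation (x - e) = A.valuation c)
    (hN : A.valuation (2 * y + W.a₁ * x + W.a₃) = A.valuation c) :
    (Point.some _ _ h' - Point.some _ _ h = 0) ∨
      ∃ (X Y : K) (H : W.toAffine.Nonsingular X Y),
        Point.some _ _ h' - Point.some _ _ h = Point.some _ _ H ∧ X ∉ A := by
  have hcpos : (0 : A.ValueGroup) < A.valuation c := (Valuation.pos_iff _).mpr hc0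
  -- a general principle: `v z = v c` implies `v (σ z - z) < v c`
  have key : ∀ z : K, A.valuation z = A.valuation c → A.valuation (σ z - z) < A.valuation c := by
    intro z hz
    have hu : z / c ∈ A := by
      rw [← A.valuation_le_one_iff, map_div₀, hz, div_self (ne_of_gt hcpos)]
    have h1 := hσ _ hu
    have : σ (z / c) - z / c = (σ z - z) / c := by
      rw [map_div₀, hσc]; field_simp
    rw [this, map_div₀, div_eq_mul_inv] at h1
    have h3 := mul_lt_mul_of_pos_right h1 hcpos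
    rwa [mul_assoc, inv_mul_cancel₀ (ne_of_gt hcpos), mul_one, one_mul] at h3
  have hxσ : A.valuation (σ x - x) < A.valuation c := by
    have h1 := key (x - e) hξ
    have : σ (x - e) - (x - e) = σ x - x := by rw [map_sub, hσe]; ring
    rwa [this] at h1
  have hσx : σ x ∈ A := by
    have hlt : A.valuation (σ x - x) < 1 := hσ x hx
    have : σ x = x + (σ x - x) := by ring
    rw [this]; exact A.add_mem _ _ hx (A.mem_of_valuation_le_one _ hlt.le)
  have hNσ : A.valuation (2 * (σ y - y) + W.a₁ * (σ x - x)) < A.valuation c := by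
    have h1 := key _ hN
    have : σ (2 * y + W.a₁ * x + W.a₃) - (2 * y + W.a₁ * x + W.a₃) =
        2 * (σ y - y) + W.a₁ * (σ x - x) := by
      rw [map_add, map_add, map_mul, map_mul, hσ1, hσ3, map_ofNat]; ring
    rwa [this] at h1
  have ha1x : A.valuation (W.a₁ * (σ x - x)) < A.valuation c := by
    rw [map_mul]
    calc A.valuation W.a₁ * A.valuation (σ x - x) ≤ 1 * A.valuation (σ x - x) :=
          mul_le_mul' ((A.valuation_le_one_iff _).mpr ha1) le_rfl
      _ = A.valuation (σ x - x) := one_mul _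
      _ < A.valuation c := hxσ
  have hyσ : A.valuation (σ y - y) < A.valuation c := by
    have h1 : A.valuation (2 * (σ y - y)) < A.valuation c := by
      have : 2 * (σ y - y) = (2 * (σ y - y) + W.a₁ * (σ x - x)) - W.a₁ * (σ x - x) := by ring
      rw [this]
      exact lt_of_le_of_lt (A.valuation.map_sub _ _) (max_lt hNσ ha1x)
    rwa [map_mul, h2, one_mul] at h1
  exact eg_sub_mem_E1_of_lt A W ha1 ha2 h h' hx hσx (by rw [hN]; exact hxσ) (by rw [hN]; exact hyσ)

/-- **Points not reducing to the node have nonsingular reduction.** -/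
theorem eg_hns_of_roots (ha1 : W.a₁ ∈ A) (ha2 : W.a₂ ∈ A) (ha3 : W.a₃ ∈ A) (ha4 : W.a₄ ∈ A)
    (h2 : A.valuation (2 : K) = 1) {ρ₁ ρ₂ ρ₃ : K}
    (hfac : ∀ t : K, 4 * t ^ 3 + W.b₂ * t ^ 2 + 2 * W.b₄ * t + W.b₆ =
      4 * (t - ρ₁) * (t - ρ₂) * (t - ρ₃))
    {x y : K} (h : W.toAffine.Equation x y) (hx : x ∈ A) (hy : y ∈ A)
    (hρ₁ : ρ₁ ∈ A) (hρ₂ : ρ₂ ∈ A)
    (h1 : A.valuation (x - ρ₁) = 1) (h2' : A.valuation (x - ρ₂) = 1) :
    A.valuation (2 * y + W.a₁ * x + W.a₃) = 1 ∨
      A.valuation (3 * x ^ 2 + 2 * W.a₂ * x + W.a₄ - W.a₁ * y) = 1 := by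
  have h20 : (2 : K) ≠ 0 := by
    intro hc; rw [hc, _root_.map_zero] at h2; exact zero_ne_one h2
  have h4 : A.valuation (4 : K) = 1 := by
    have : (4 : K) = 2 * 2 := by norm_num
    rw [this, map_mul, h2, one_mul]
  -- coefficient identities
  have e0 := hfac 0
  have e1 := hfac 1
  have em := hfac (-1)
  have hb6 : W.b₆ = -4 * ρ₁ * ρ₂ * ρ₃ := by linear_combination e0
  have hb2 : W.b₂ = -4 * (ρ₁ + ρ₂ + ρ₃) := by
    have : 2 * W.b₂ = 2 * (-4 * (ρ₁ + ρ₂ + ρ₃)) := by linear_combination e1 + em - 2 * hb6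
    exact mul_left_cancel₀ h20 this
  have hb4 : W.b₄ = 2 * (ρ₁ * ρ₂ + ρ₁ * ρ₃ + ρ₂ * ρ₃) := by
    have h40 : (4 : K) ≠ 0 := by
      have : (4 : K) = 2 * 2 := by norm_num
      rw [this]; exact mul_ne_zero h20 h20
    have : 4 * W.b₄ = 4 * (2 * (ρ₁ * ρ₂ + ρ₁ * ρ₃ + ρ₂ * ρ₃)) := by linear_combination e1 - em
    exact mul_left_cancel₀ h40 this
  set N : K := 2 * y + W.a₁ * x + W.a₃ with hNdef
  set M : K := 3 * x ^ 2 + 2 * W.a₂ * x + W.a₄ - W.a₁ * y with hMdef
  -- `N ^ 2 = ψ₂²(x)`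
  have hNsq : N ^ 2 = 4 * (x - ρ₁) * (x - ρ₂) * (x - ρ₃) := by
    rw [← hfac x]
    have e := (W.toAffine.equation_iff x y).mp h
    simp only [hNdef, WeierstrassCurve.b₂, WeierstrassCurve.b₄, WeierstrassCurve.b₆]
    linear_combination 4 * e
  -- derivative identity
  have hder : 4 * M + 2 * W.a₁ * N =
      4 * ((x - ρ₂) * (x - ρ₃) + (x - ρ₁) * (x - ρ₃) + (x - ρ₁) * (x - ρ₂)) := by
    have hb2' := hb2
    have hb4' := hb4
    simp only [WeierstrassCurve.b₂, WeierstrassCurve.b₄] at hb2' hb4'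
    simp only [hNdef, hMdef]
    linear_combination 2 * x * hb2' + 2 * hb4'
  by_contra hcon
  rw [not_or] at hcon
  have hNmem : N ∈ A := by rw [hNdef]; aesop
  have hMmem : M ∈ A := by rw [hMdef]; aesop
  have hN1 : A.valuation N < 1 := lt_of_le_of_ne ((A.valuation_le_one_iff _).mpr hNmem) hcon.1
  have hM1 : A.valuation M < 1 := lt_of_le_of_ne ((A.valuation_le_one_iff _).mpr hMmem) hcon.2
  -- `v (x - ρ₃) < 1`
  have h3 : A.valuation (x - ρ₃) < 1 := by
    have := congrArg A.valuation hNsq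
    rw [map_pow, map_mul, map_mul, map_mul, h4, h1, h2', one_mul, one_mul, one_mul] at this
    rw [← this, pow_two]
    calc A.valuation N * A.valuation N ≤ 1 * A.valuation N := mul_le_mul' hN1.le le_rfl
      _ = A.valuation N := one_mul _
      _ < 1 := hN1
  have hxρ₂ : x - ρ₂ ∈ A := sub_mem hx hρ₂
  have hxρ₁ : x - ρ₁ ∈ A := sub_mem hx hρ₁
  have hR : A.valuation (4 * ((x - ρ₂) * (x - ρ₃) + (x - ρ₁) * (x - ρ₃) + (x - ρ₁) * (x - ρ₂)))
      = 1 := by
    rw [map_mul, h4, one_mul]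
    have hsmall : A.valuation ((x - ρ₂) * (x - ρ₃) + (x - ρ₁) * (x - ρ₃)) < 1 :=
      cg_val_add_lt_one A (cg_val_mul_lt_one_right A hxρ₂ h3) (cg_val_mul_lt_one_right A hxρ₁ h3)
    have hunit : A.valuation ((x - ρ₁) * (x - ρ₂)) = 1 := by rw [map_mul, h1, h2', one_mul]
    rw [add_comm]
    exact cg_val_eq_one_add A hunit hsmall
  have hL : A.valuation (4 * M + 2 * W.a₁ * N) < 1 := by
    apply cg_val_add_lt_one A
    · exact cg_val_mul_lt_one_right A ((A.valuation_le_one_iff _).mp (le_of_eq h4)) hM1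
    · exact cg_val_mul_lt_one_right A
        (A.mul_mem _ _ ((A.valuation_le_one_iff _).mp (le_of_eq h2)) ha1) hN1
  rw [hder, hR] at hL
  exact lt_irrefl _ hL

end Fermat.Agent.S05
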