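import Mathlib
import Fermat.Agent.S05.Endgame

/-!
# S05 library: two small facts feeding `node_fixed_alt`

* `fa_val_N_eq`: in the annulus `v(ρ₁ - ρ₂) < v(x - ρ₁) < 1` one has
  `v(2y + a₁x + a₃) = v(x - ρ₁)`.
* `fa_exists_fixed_of_pow_eq`: if `γ ^ p = β ^ (2m)` with `β = v(π) ^ (p k)` then `γ = v(c)` for
  `c = π ^ (2 m k)`.
-/

set_option autoImplicit false

open WeierstrassCurve WeierstrassCurve.Affine

namespace Fermat.Agent.S05

variable {K : Type*} [Field K] (A : ValuationSubring K) (W : WeierstrassCurve K)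

/-- In the annulus, `N = 2y + a₁x + a₃` has the same valuation as `x - ρ₁`. -/
theorem fa_val_N_eq (h2 : A.valuation (2 : K) = 1) {ρ₁ ρ₂ ρ₃ : K}
    (hfac : ∀ t : K, 4 * t ^ 3 + W.b₂ * t ^ 2 + 2 * W.b₄ * t + W.b₆ =
      4 * (t - ρ₁) * (t - ρ₂) * (t - ρ₃))
    {x y : K} (h : W.toAffine.Equation x y)
    (hβ : A.valuation (ρ₁ - ρ₂) < A.valuation (x - ρ₁)) (h1 : A.valuation (x - ρ₁) < 1)
    (h3 : A.valuation (ρ₁ - ρ₃) = 1) :
    A.valuation (2 * y + W.a₁ * x + W.a₃) = A.valuation (x - ρ₁) := by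
  have h4 : A.valuation (4 : K) = 1 := by
    have : (4 : K) = 2 * 2 := by norm_num
    rw [this, map_mul, h2, one_mul]
  have hNsq : (2 * y + W.a₁ * x + W.a₃) ^ 2 = 4 * (x - ρ₁) * (x - ρ₂) * (x - ρ₃) := by
    rw [← hfac x]
    have e := (W.toAffine.equation_iff x y).mp h
    simp only [WeierstrassCurve.b₂, WeierstrassCurve.b₄, WeierstrassCurve.b₆]
    linear_combination 4 * e
  have hx2 : A.valuation (x - ρ₂) = A.valuation (x - ρ₁) := by
    have : x - ρ₂ = (x - ρ₁) + (ρ₁ - ρ₂) := by ring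
    rw [this]
    exact Valuation.map_add_eq_of_lt_left _ hβ
  have hx3 : A.valuation (x - ρ₃) = 1 := by
    have : x - ρ₃ = (ρ₁ - ρ₃) + (x - ρ₁) := by ring
    rw [this]
    exact cg_val_eq_one_add A h3 h1
  have := congrArg A.valuation hNsq
  rw [map_pow, map_mul, map_mul, map_mul, h4, hx2, hx3, one_mul, mul_one, ← pow_two] at this
  exact (pow_left_inj₀ zero_le zero_le two_ne_zero).mp this

/-- Arithmetic in the value group: `γ ^ p = β ^ (2m)` and `β = v(π) ^ (p k)` force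
`γ = v(π ^ (2 m k))`. -/
theorem fa_exists_fixed_of_pow_eq {π : K} (hπ : π ≠ 0) {p k : ℕ} (hp : p ≠ 0)
    {γ β : A.ValueGroup} (hβ : β = A.valuation π ^ (p * k)) {m : ℤ}
    (hγ : γ ^ p = β ^ (2 * m)) :
    γ = A.valuation (π ^ (2 * m * k)) := by
  have hπv : A.valuation π ≠ 0 := (Valuation.ne_zero_iff _).mpr hπ
  rw [map_zpow₀]
  apply (pow_left_inj₀ zero_le zero_le hp).mp
  rw [hγ, hβ, ← zpow_natCast (A.valuation π ^ (2 * m * k)) p, ← zpow_mul,
    ← zpow_natCast (A.valuation π) (p * k), ← zpow_mul]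
  congr 1
  push_cast
  ring

end Fermat.Agent.S05
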