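import Mathlib
import Fermat.Agent.S05.FreyLocal
import Fermat.Agent.S05.GaloisAction

set_option autoImplicit false
open WeierstrassCurve WeierstrassCurve.Affine WeierstrassCurve.Affine.Point

namespace Fermat.Agent.S05

variable (P : FreyPackage)

section
variable {L : Type*} [Field L] [DecidableEq L] [Algebra ℚ L]

/-- `hTe` of `node_fixed` for the Frey curve: the rational `2`-torsion point over a root. -/
theorem frey_hTe (σ : L ≃ₐ[ℚ] L) (r : ℚ)
    (hr : psi2Sq (P.freyCurve⁄L) (algebraMap ℚ L r) = 0) :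
    ∃ (yT : L) (hT : (P.freyCurve⁄L).Nonsingular (algebraMap ℚ L r) yT),
      σ • (Point.some (algebraMap ℚ L r) yT hT : (P.freyCurve⁄L).Point) =
        Point.some (algebraMap ℚ L r) yT hT :=
  ⟨algebraMap ℚ L (-r / 2), freyL_twoTorsion_point P r hr,
    ga_smul_some_of_mem_range σ _ ⟨r, rfl⟩ ⟨-r / 2, rfl⟩⟩

/-- `hTe` from the factorisation of the `2`-division polynomial. -/
theorem frey_hTe_of_factor (σ : L ≃ₐ[ℚ] L) (r₁ r₂ r₃ : ℚ)
    (hfac : ∀ x : L, psi2Sq (P.freyCurve⁄L) x =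
        4 * (x - algebraMap ℚ L r₁) * (x - algebraMap ℚ L r₂) * (x - algebraMap ℚ L r₃)) :
    ∃ (yT : L) (hT : (P.freyCurve⁄L).Nonsingular (algebraMap ℚ L r₁) yT),
      σ • (Point.some (algebraMap ℚ L r₁) yT hT : (P.freyCurve⁄L).Point) =
        Point.some (algebraMap ℚ L r₁) yT hT :=
  frey_hTe P σ r₁ (by rw [hfac]; ring)

end

section
variable {L : Type*} [Field L] [DecidableEq L] [Algebra ℚ L] [CharZero L] [IsAlgClosed L]
  (A : ValuationSubring L) {q : ℕ} (hq : A.LiesOverPrime q)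
include hq

/-- `hQ` of `node_fixed` for the Frey curve: enough inertia-fixed points in the annulus. -/
theorem frey_hQ (hqp : q.Prime) (hq2 : q ≠ 2) {σ : L ≃ₐ[ℚ] L} (hσ : σ ∈ A.inertiaSubgroupIn ℚ)
    (r₁ r₂ r₃ : ℚ) (k : ℕ)
    (hfac : ∀ x : L, psi2Sq (P.freyCurve⁄L) x =
        4 * (x - algebraMap ℚ L r₁) * (x - algebraMap ℚ L r₂) * (x - algebraMap ℚ L r₃))
    (h12 : r₁ ≠ r₂) (h13 : r₁ ≠ r₃) (hv12 : padicValRat q (r₁ - r₂) = P.p * k)
    (hv13 : padicValRat q (r₁ - r₃) = 0)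
    (γ : A.ValueGroup) (hβγ : A.valuation (q : L) ^ (P.p * k) < γ) (hγ1 : γ < 1)
    (hm : ∃ m : ℤ, γ ^ P.p = (A.valuation (q : L) ^ (P.p * k)) ^ (2 * m)) :
    ∃ (x' y' : L) (h' : (P.freyCurve⁄L).Nonsingular x' y'),
      A.valuation (x' - algebraMap ℚ L r₁) = γ ∧
      σ • (Point.some x' y' h' : (P.freyCurve⁄L).Point) = Point.some x' y' h' := by
  obtain ⟨m, hm⟩ := hm
  set t := A.valuation (q : L) with ht
  have ht0 : t ≠ 0 := by
    rw [ht, Ne, map_eq_zero]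
    exact_mod_cast hqp.ne_zero
  have htpos : 0 < t := zero_lt_iff.mpr ht0
  have ht1 : t < 1 := intVal_prime_lt_one A hq
  -- `γ = t ^ j` with `j = 2 m k`
  have hγ : γ = t ^ (2 * m * k : ℤ) := by
    have h1 : γ ^ P.p = (t ^ (2 * m * k : ℤ)) ^ P.p := by
      rw [hm, ← zpow_natCast t (P.p * k), ← zpow_mul, ← zpow_natCast (t ^ (2 * m * k : ℤ)) P.p,
        ← zpow_mul]
      congr 1
      push_cast
      ring
    exact (pow_left_inj P.hp0).mp h1
  have hj0 : (0 : ℤ) < 2 * m * k := by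
    rw [hγ] at hγ1
    exact (zpow_lt_one_iff_right_of_lt_one₀ htpos ht1).mp hγ1
  have hjk : (2 * m * k : ℤ) < ((P.p * k : ℕ) : ℤ) := by
    rw [hγ, ← zpow_natCast t (P.p * k)] at hβγ
    exact (zpow_lt_zpow_iff_right_of_lt_one₀ htpos ht1).mp hβγ
  obtain ⟨j, hj⟩ := Int.eq_ofNat_of_zero_le hj0.le
  have hj0' : 0 < j := by
    rw [hj] at hj0
    exact_mod_cast hj0
  have hjk' : j < P.p * k := by
    rw [hj] at hjk
    exact_mod_cast hjk
  obtain ⟨ρ, w, y, hns, hρ0, hρv, hw, hy, hval⟩ :=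
    freyL_fixed_point P A hq hqp r₁ r₂ r₃ k hfac h12 h13 hv12 hv13 j hj0' hjk'
  refine ⟨_, y, hns, ?_, ?_⟩
  · rw [hval, hγ, hj, zpow_natCast]
  · have hσw : σ w = w := by
      refine ga_inertia_fixes_sqrt_of_algebraMap A hσ (two_unit A hq hqp hq2) hw ?_
      rw [eq_ratCast]
      exact ratVal_eq_one A hq hqp hρ0 hρv
    refine ga_smul_some_of_fixed σ hns (σ.commutes _) ?_
    rw [hy, map_sub, map_mul, map_div₀, σ.commutes, σ.commutes, hσw, map_ofNat]

end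

end Fermat.Agent.S05
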