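import Mathlib
import Fermat.Prelude.Def_FLTPrelim_GaloisRep
import Fermat.Agent.S05.NoTorsion
import Fermat.Agent.S05.Congruent
import Fermat.Agent.S05.Unfold

/-!
# S05 library: the generic endgame (inertia-fixed translate trick)

`σ` is an automorphism of `K` preserving the valuation subring `A` and acting trivially on the
residue field (`hσA`, `hσm`).  `E = W'⁄K` has `A`-integral coefficients, `2` and `p` are units.
Given the outputs `hM1 … hM4` of the multiplicative core (relative to a root `e` of the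
`2`-division polynomial and `β = v(b)`) and enough `σ`-fixed points (`hTe`, `hQ`), every
`p`-torsion point is fixed by `σ`.
-/

set_option autoImplicit false

namespace Fermat.Agent.S05

open WeierstrassCurve WeierstrassCurve.Affine WeierstrassCurve.Affine.Point

section

variable {R S K : Type*} [CommRing R] [CommRing S] [Field K] [DecidableEq K]
  [Algebra R S] [Algebra R K] [Algebra S K] [IsScalarTower R S K]
  {W' : Affine R} (A : ValuationSubring K) (σ : K ≃ₐ[S] K)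

omit [DecidableEq K] in
private lemma nf_val_le_one_of_mem {z : K} (hz : z ∈ A) : A.valuation z ≤ 1 :=
  (A.valuation_le_one_iff z).mpr hz

/-- `σ` commutes with natural multiples. -/
theorem nf_smul_nsmul (n : ℕ) (T : (W'⁄K).Point) : σ • (n • T) = n • (σ • T) :=
  map_nsmul (DistribSMul.toAddMonoidHom (W'⁄K).Point σ) n T

/-- If `R ∈ E₀` (zero, or `v(x_R - e) ≥ 1`), then `σ • R - R` lies in the kernel of reduction. -/
theorem nf_smul_sub_inKerRed_of_E0 (hW : IntegralModel (W'⁄K) A)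
    (ha1 : (W'⁄K).a₁ ∈ A) (ha2 : (W'⁄K).a₂ ∈ A) (ha3 : (W'⁄K).a₃ ∈ A) (ha4 : (W'⁄K).a₄ ∈ A)
    (ha6 : (W'⁄K).a₆ ∈ A)
    (hσA : ∀ z : K, σ z ∈ A ↔ z ∈ A) (hσm : ∀ z : K, z ∈ A → A.valuation (σ z - z) < 1)
    {e : K} (he : e ∈ A)
    (hM4 : ∀ {x y : K}, (W'⁄K).toAffine.Equation x y → x ∈ A → y ∈ A → A.valuation (x - e) = 1 →
      (A.valuation (2 * y + (W'⁄K).a₁ * x + (W'⁄K).a₃) = 1 ∨
        A.valuation (3 * x ^ 2 + 2 * (W'⁄K).a₂ * x + (W'⁄K).a₄ - (W'⁄K).a₁ * y) = 1))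
    (Rp : (W'⁄K).Point)
    (hR : Rp = 0 ∨ ∃ (X Y : K) (H : (W'⁄K).Nonsingular X Y),
      Rp = Point.some X Y H ∧ 1 ≤ A.valuation (X - e)) :
    InKerRed A (σ • Rp - Rp) := by
  rcases hR with rfl | ⟨X, Y, H, rfl, hXe⟩
  · rw [smul_zero, sub_zero]; exact inKerRed_zero
  · rw [smul_some σ H]
    by_cases hX : X ∈ A
    · have hXe1 : A.valuation (X - e) = 1 :=
        le_antisymm (nf_val_le_one_of_mem A (sub_mem hX he)) hXe
      have hY : Y ∈ A := cg_y_mem A (W'⁄K) ha1 ha2 ha3 ha4 ha6 hX H.1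
      have hns := hM4 H.1 hX hY hXe1
      rcases cg_sub_mem_E1 A (W'⁄K) ha1 ha2 H
          ((W'.baseChange_nonsingular (f := σ.toAlgHom) σ.injective X Y).mpr H) hX hY
          (hσm X hX) (hσm Y hY) hns with h0 | ⟨X', Y', H', hD, hX'⟩
      · exact h0 ▸ inKerRed_zero
      · exact hD ▸ (inKerRed_some H').mpr hX'
    · have h1 : InKerRed A (Point.some X Y H : (W'⁄K).Point) := (inKerRed_some H).mpr hX
      have h2 : InKerRed A (Point.some (σ X) (σ Y)
          ((W'.baseChange_nonsingular (f := σ.toAlgHom) σ.injective X Y).mpr H) :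
            (W'⁄K).Point) :=
        (inKerRed_some _).mpr (fun h => hX ((hσA X).mp h))
      exact (InKerRed.add_sub hW h2 h1).2

/-- **Generic endgame.** -/
theorem node_fixed (hW : IntegralModel (W'⁄K) A)
    (ha1 : (W'⁄K).a₁ ∈ A) (ha2 : (W'⁄K).a₂ ∈ A) (ha3 : (W'⁄K).a₃ ∈ A) (ha4 : (W'⁄K).a₄ ∈ A)
    (ha6 : (W'⁄K).a₆ ∈ A)
    (hσA : ∀ z : K, σ z ∈ A ↔ z ∈ A) (hσm : ∀ z : K, z ∈ A → A.valuation (σ z - z) < 1)
    {p : ℕ} (hp : p.Prime) (hp2 : p ≠ 2) (hpA : A.valuation (p : K) = 1)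
    {e : K} (he : e ∈ A) (β : A.ValueGroup)
    (hM1 : ∀ {x y : K} (h : (W'⁄K).Nonsingular x y),
      p • (Point.some x y h : (W'⁄K).Point) = 0 → β < A.valuation (x - e) →
        A.valuation (x - e) < 1 → ∃ m : ℤ, A.valuation (x - e) ^ p = β ^ (2 * m))
    (hM2 : ∀ {x y x' y' : K} (h : (W'⁄K).Nonsingular x y) (h' : (W'⁄K).Nonsingular x' y'),
      β < A.valuation (x - e) → A.valuation (x - e) < 1 →
        A.valuation (x' - e) = A.valuation (x - e) →
        ∃ Rp : (W'⁄K).Point, (Rp = Point.some x y h - Point.some x' y' h' ∨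
            Rp = Point.some x y h + Point.some x' y' h') ∧
          (Rp = 0 ∨ ∃ (X Y : K) (H : (W'⁄K).Nonsingular X Y),
            Rp = Point.some X Y H ∧ 1 ≤ A.valuation (X - e)))
    (hM3 : ∀ {x y yT : K} (h : (W'⁄K).Nonsingular x y) (hT : (W'⁄K).Nonsingular e yT),
      A.valuation (x - e) ≤ β →
        (Point.some x y h - Point.some e yT hT : (W'⁄K).Point) = 0 ∨
          ∃ (X Y : K) (H : (W'⁄K).Nonsingular X Y),
            (Point.some x y h - Point.some e yT hT : (W'⁄K).Point) = Point.some X Y H ∧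
              1 ≤ A.valuation (X - e))
    (hM4 : ∀ {x y : K}, (W'⁄K).toAffine.Equation x y → x ∈ A → y ∈ A → A.valuation (x - e) = 1 →
      (A.valuation (2 * y + (W'⁄K).a₁ * x + (W'⁄K).a₃) = 1 ∨
        A.valuation (3 * x ^ 2 + 2 * (W'⁄K).a₂ * x + (W'⁄K).a₄ - (W'⁄K).a₁ * y) = 1))
    (hTe : ∃ (yT : K) (hT : (W'⁄K).Nonsingular e yT),
      σ • (Point.some e yT hT : (W'⁄K).Point) = Point.some e yT hT)
    (hQ : ∀ γ : A.ValueGroup, β < γ → γ < 1 → (∃ m : ℤ, γ ^ p = β ^ (2 * m)) →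
      ∃ (x' y' : K) (h' : (W'⁄K).Nonsingular x' y'), A.valuation (x' - e) = γ ∧
        σ • (Point.some x' y' h' : (W'⁄K).Point) = Point.some x' y' h')
    (T : (W'⁄K).Point) (hT : p • T = 0) : σ • T = T := by
  have hE0 := fun Rp hR => nf_smul_sub_inKerRed_of_E0 (W' := W') A σ hW ha1 ha2 ha3 ha4 ha6
    hσA hσm he hM4 Rp hR
  -- it suffices to show that `σ • T - T` lies in the kernel of reduction
  suffices hD : InKerRed A (σ • T - T) by
    have hpD : p • (σ • T - T) = 0 := by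
      rw [smul_sub, ← nf_smul_nsmul, hT, smul_zero, sub_zero]
    exact sub_eq_zero.mp (eq_zero_of_nsmul_eq_zero hW hp hp2 hpA hD hpD)
  rcases T with _ | ⟨x, y, h⟩
  · have : σ • (0 : (W'⁄K).Point) - 0 = 0 := by rw [smul_zero, sub_zero]
    change InKerRed A (σ • (0 : (W'⁄K).Point) - 0)
    rw [this]; exact inKerRed_zero
  -- `x ∈ A`
  have hx : x ∈ A := by
    by_contra hx
    have := eq_zero_of_nsmul_eq_zero hW hp hp2 hpA ((inKerRed_some h).mpr hx) hT
    exact Point.some_ne_zero h this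
  rcases le_or_gt 1 (A.valuation (x - e)) with h1 | h1
  · -- `T ∈ E₀`
    exact hE0 _ (Or.inr ⟨x, y, h, rfl, h1⟩)
  rcases lt_or_ge β (A.valuation (x - e)) with h2 | h2
  · -- annulus
    obtain ⟨m, hm⟩ := hM1 h hT h2 h1
    obtain ⟨x', y', h', hv', hfix⟩ := hQ _ h2 h1 ⟨m, hm⟩
    obtain ⟨Rp, hRp, hR0⟩ := hM2 h h' h2 h1 hv'
    have key : σ • Point.some x y h - Point.some x y h = σ • Rp - Rp := by
      rcases hRp with rfl | rfl
      · rw [smul_sub, hfix]; abel
      · rw [smul_add, hfix]; abel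
    rw [key]
    exact hE0 Rp hR0
  · -- middle
    obtain ⟨yT, hTn, hfix⟩ := hTe
    have hR0 := hM3 h hTn h2
    have key : σ • Point.some x y h - Point.some x y h =
        σ • (Point.some x y h - Point.some e yT hTn) -
          (Point.some x y h - Point.some e yT hTn) := by
      rw [smul_sub, hfix]; abel
    rw [key]
    refine hE0 _ ?_
    rcases hR0 with h0 | ⟨X, Y, H, hXY, hX⟩
    · exact Or.inl h0
    · exact Or.inr ⟨X, Y, H, hXY, hX⟩

end

end Fermat.Agent.S05
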