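import Mathlib
import Fermat.Prelude.Def_FLTPrelim_GaloisRep
import Fermat.Agent.S05.NodeFixed
import Fermat.Agent.S05.Endgame

/-!
# S05 library: the generic endgame, variant without auxiliary fixed points

Same conclusion as `node_fixed`, but the annulus case is treated by the relative congruence
lemma `eg_node_sub_mem_E1` instead of the translate trick: no `hM2` (same level ⇒ sum or
difference in `E₀`) and no `hQ` (existence of `σ`-fixed points on every level) are needed.
Instead one needs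
* `hM1'`: for a `p`-torsion point in the annulus, `v(x - e) = v(c)` for some `σ`-fixed `c ≠ 0`
  (for Frey: `c = q ^ j`, from `hM1` and `β = v(q) ^ (p k)`);
* `hN`: in the annulus `v(2y + a₁x + a₃) = v(x - e)`.
-/

set_option autoImplicit false

namespace Fermat.Agent.S05

open WeierstrassCurve WeierstrassCurve.Affine WeierstrassCurve.Affine.Point

section

variable {R S K : Type*} [CommRing R] [CommRing S] [Field K] [DecidableEq K]
  [Algebra R S] [Algebra R K] [Algebra S K] [IsScalarTower R S K]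
  {W' : Affine R} (A : ValuationSubring K) (σ : K ≃ₐ[S] K)

omit [DecidableEq K] in
/-- `σ` fixes every element coming from the base ring `R`. -/
theorem nfa_fix_algebraMap (r : R) : σ (algebraMap R K r) = algebraMap R K r := by
  rw [IsScalarTower.algebraMap_apply R S K, σ.commutes]

/-- **Generic endgame, variant.** -/
theorem node_fixed_alt (hW : IntegralModel (W'⁄K) A)
    (ha1 : (W'⁄K).a₁ ∈ A) (ha2 : (W'⁄K).a₂ ∈ A) (ha3 : (W'⁄K).a₃ ∈ A) (ha4 : (W'⁄K).a₄ ∈ A)
    (ha6 : (W'⁄K).a₆ ∈ A)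
    (hσA : ∀ z : K, σ z ∈ A ↔ z ∈ A) (hσm : ∀ z : K, z ∈ A → A.valuation (σ z - z) < 1)
    {p : ℕ} (hp : p.Prime) (hp2 : p ≠ 2) (hpA : A.valuation (p : K) = 1)
    {e : K} (he : e ∈ A) (hσe : σ e = e) (β : A.ValueGroup)
    (hM1' : ∀ {x y : K} (h : (W'⁄K).Nonsingular x y),
      p • (Point.some x y h : (W'⁄K).Point) = 0 → β < A.valuation (x - e) →
        A.valuation (x - e) < 1 → ∃ c : K, c ≠ 0 ∧ σ c = c ∧ A.valuation (x - e) = A.valuation c)
    (hN : ∀ {x y : K}, (W'⁄K).toAffine.Equation x y → β < A.valuation (x - e) →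
      A.valuation (x - e) < 1 →
        A.valuation (2 * y + (W'⁄K).a₁ * x + (W'⁄K).a₃) = A.valuation (x - e))
    (hM3 : ∀ {x y yT : K} (h : (W'⁄K).Nonsingular x y) (hT : (W'⁄K).Nonsingular e yT),
      A.valuation (x - e) ≤ β →
        (Point.some x y h - Point.some e yT hT : (W'⁄K).Point) = 0 ∨
          ∃ (X Y : K) (H : (W'⁄K).Nonsingular X Y),
            (Point.some x y h - Point.some e yT hT : (W'⁄K).Point) = Point.some X Y H ∧
              1 ≤ A.valuation (X - e))
    (hM4 : ∀ {x y : K}, (W'⁄K).toAffine.Equation x y → x ∈ A → y ∈ A → A.valuation (x - e) = 1 →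
      (A.valuation (2 * y + (W'⁄K).a₁ * x + (W'⁄K).a₃) = 1 ∨
        A.valuation (3 * x ^ 2 + 2 * (W'⁄K).a₂ * x + (W'⁄K).a₄ - (W'⁄K).a₁ * y) = 1))
    (hTe : ∃ (yT : K) (hT : (W'⁄K).Nonsingular e yT),
      σ • (Point.some e yT hT : (W'⁄K).Point) = Point.some e yT hT)
    (T : (W'⁄K).Point) (hT : p • T = 0) : σ • T = T := by
  have hE0 := fun Rp hR => nf_smul_sub_inKerRed_of_E0 (W' := W') A σ hW ha1 ha2 ha3 ha4 ha6
    hσA hσm he hM4 Rp hR
  suffices hD : InKerRed A (σ • T - T) by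
    have hpD : p • (σ • T - T) = 0 := by
      rw [smul_sub, ← nf_smul_nsmul, hT, smul_zero, sub_zero]
    exact sub_eq_zero.mp (eq_zero_of_nsmul_eq_zero hW hp hp2 hpA hD hpD)
  rcases T with _ | ⟨x, y, h⟩
  · have : σ • (0 : (W'⁄K).Point) - 0 = 0 := by rw [smul_zero, sub_zero]
    change InKerRed A (σ • (0 : (W'⁄K).Point) - 0)
    rw [this]; exact inKerRed_zero
  have hx : x ∈ A := by
    by_contra hx
    have := eq_zero_of_nsmul_eq_zero hW hp hp2 hpA ((inKerRed_some h).mpr hx) hT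
    exact Point.some_ne_zero h this
  rcases le_or_gt 1 (A.valuation (x - e)) with h1 | h1
  · exact hE0 _ (Or.inr ⟨x, y, h, rfl, h1⟩)
  rcases lt_or_ge β (A.valuation (x - e)) with h2 | h2
  · -- annulus: relative congruence
    obtain ⟨c, hc0, hσc, hvc⟩ := hM1' h hT h2 h1
    have hNv := hN h.1 h2 h1
    have hσ1 : (σ : K →+* K) (W'⁄K).a₁ = (W'⁄K).a₁ := by
      change σ (W'⁄K).a₁ = (W'⁄K).a₁
      have : (W'⁄K).a₁ = algebraMap R K W'.a₁ := rfl
      rw [this]; exact nfa_fix_algebraMap σ _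
    have hσ3 : (σ : K →+* K) (W'⁄K).a₃ = (W'⁄K).a₃ := by
      change σ (W'⁄K).a₃ = (W'⁄K).a₃
      have : (W'⁄K).a₃ = algebraMap R K W'.a₃ := rfl
      rw [this]; exact nfa_fix_algebraMap σ _
    rw [smul_some σ h]
    rcases eg_node_sub_mem_E1 A (W'⁄K) ha1 ha2 hW.two (σ : K →+* K)
        (fun z hz => hσm z hz) hσ1 hσ3 (e := e) (c := c) hσe hσc hc0 h
        ((W'.baseChange_nonsingular (f := σ.toAlgHom) σ.injective x y).mpr h) hx hvc
        (hNv.trans hvc) with h0 | ⟨X', Y', H', hD, hX'⟩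
    · exact h0 ▸ inKerRed_zero
    · exact hD ▸ (inKerRed_some H').mpr hX'
  · -- middle
    obtain ⟨yT, hTn, hfix⟩ := hTe
    have hR0 := hM3 h hTn h2
    have key : σ • Point.some x y h - Point.some x y h =
        σ • (Point.some x y h - Point.some e yT hTn) -
          (Point.some x y h - Point.some e yT hTn) := by
      rw [smul_sub, hfix]; abel
    rw [key]
    refine hE0 _ ?_
    rcases hR0 with h0 | ⟨X, Y, H, hXY, hX⟩
    · exact Or.inl h0
    · exact Or.inr ⟨X, Y, H, hXY, hX⟩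

end

end Fermat.Agent.S05
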