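import Fermat.Agent.S05.Kummer

/-!
# S05 library, piece (M4): points whose `x - e` is a unit reduce to nonsingular points

`K` a field, `A` a valuation subring in which `2` is a unit, `W` a Weierstrass curve over `K` with
`a₁ .. a₄ ∈ A`, and a factorisation `psi2Sq W x = 4 (x - e) ((x - e)² + a (x - e) + b)` with
`e, a ∈ A` and `b` in the maximal ideal.  If `(x, y)` is a point of `W` with `x ∈ A` and `x - e`
a unit of `A`, then one of the two partial derivatives at `(x, y)` is a unit of `A`.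

The proof uses `dupNum W x = e * psi2Sq W x + ((x - e)² - b)²` and, on the curve,
`dupNum W x = M² + a₁ M η - (a₂ + 2x) η²` with `η = 2y + a₁x + a₃`,
`M = 3x² + 2a₂x + a₄ - a₁y`.
-/

set_option autoImplicit false

namespace Fermat.Agent.S05

open WeierstrassCurve WeierstrassCurve.Affine

variable {K : Type*} [Field K]

/-- From the factorisation of `psi2Sq` as a function, the coefficient identities. -/
lemma nu_coeffs_of_forall (W : WeierstrassCurve K) (h2 : (2 : K) ≠ 0) {e a b : K}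
    (hfac : ∀ x : K, psi2Sq W x = 4 * (x - e) * ((x - e) ^ 2 + a * (x - e) + b)) :
    W.b₂ = 4 * a - 12 * e ∧ W.b₄ = 6 * e ^ 2 - 4 * a * e + 2 * b ∧
      W.b₆ = -4 * e ^ 3 + 4 * a * e ^ 2 - 4 * b * e := by
  have h0 := hfac 0
  have h1 := hfac 1
  have hm1 := hfac (-1)
  simp only [psi2Sq] at h0 h1 hm1
  have h4 : (4 : K) ≠ 0 := by
    have : (4 : K) = 2 * 2 := by norm_num
    rw [this]; exact mul_ne_zero h2 h2
  refine ⟨?_, ?_, ?_⟩
  · apply mul_left_cancel₀ h2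
    linear_combination h1 + hm1 - 2 * h0
  · apply mul_left_cancel₀ h4
    linear_combination h1 - hm1
  · linear_combination h0

/-- Conversely, the coefficient identities give the factorisation. -/
lemma nu_forall_of_coeffs (W : WeierstrassCurve K) {e a b : K}
    (hb₂ : W.b₂ = 4 * a - 12 * e) (hb₄ : W.b₄ = 6 * e ^ 2 - 4 * a * e + 2 * b)
    (hb₆ : W.b₆ = -4 * e ^ 3 + 4 * a * e ^ 2 - 4 * b * e) (x : K) :
    psi2Sq W x = 4 * (x - e) * ((x - e) ^ 2 + a * (x - e) + b) := by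
  simp only [psi2Sq, hb₂, hb₄, hb₆]; ring

/-- `dupNum W x - e * psi2Sq W x = ((x - e)² - b)²`: the duplication formula in the coordinate
`ξ = x - e` is `ξ(2P) = (ξ² - b)² / psi2Sq`. -/
lemma nu_dupNum_sub (W : WeierstrassCurve K) (h2 : (2 : K) ≠ 0) {e a b : K}
    (hb₂ : W.b₂ = 4 * a - 12 * e) (hb₄ : W.b₄ = 6 * e ^ 2 - 4 * a * e + 2 * b)
    (hb₆ : W.b₆ = -4 * e ^ 3 + 4 * a * e ^ 2 - 4 * b * e) (x : K) :
    dupNum W x - e * psi2Sq W x = ((x - e) ^ 2 - b) ^ 2 := by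
  have h4 : (4 : K) ≠ 0 := by
    have : (4 : K) = 2 * 2 := by norm_num
    rw [this]; exact mul_ne_zero h2 h2
  apply mul_left_cancel₀ h4
  have hb := W.b_relation
  simp only [dupNum, psi2Sq]
  rw [hb₂, hb₄, hb₆] at hb
  simp only [hb₂, hb₄, hb₆]
  linear_combination (-1 : K) * hb

/-- On the curve, `dupNum W x = M² + a₁ M η - (a₂ + 2x) η²`. -/
lemma nu_dupNum_eq (W : WeierstrassCurve K) {x y : K} (h : W.toAffine.Equation x y) :
    dupNum W x = (3 * x ^ 2 + 2 * W.a₂ * x + W.a₄ - W.a₁ * y) ^ 2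
      + W.a₁ * (3 * x ^ 2 + 2 * W.a₂ * x + W.a₄ - W.a₁ * y) * (2 * y + W.a₁ * x + W.a₃)
      - (W.a₂ + 2 * x) * (2 * y + W.a₁ * x + W.a₃) ^ 2 := by
  have e := (Affine.equation_iff ..).mp h
  simp only [dupNum, WeierstrassCurve.b₄, WeierstrassCurve.b₆, WeierstrassCurve.b₈]
  linear_combination (W.a₁ ^ 2 + 4 * W.a₂ + 8 * x) * e

/-- **(M4), coefficient form.** -/
theorem nu_hns_of_coeffs (A : ValuationSubring K) (W : WeierstrassCurve K)
    (h2 : A.valuation (2 : K) = 1) (ha1 : W.a₁ ∈ A) (ha2 : W.a₂ ∈ A) (ha3 : W.a₃ ∈ A)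
    (ha4 : W.a₄ ∈ A) {e a b : K} (he : e ∈ A) (ha : a ∈ A) (hb : A.valuation b < 1)
    (hb₂ : W.b₂ = 4 * a - 12 * e) (hb₄ : W.b₄ = 6 * e ^ 2 - 4 * a * e + 2 * b)
    (hb₆ : W.b₆ = -4 * e ^ 3 + 4 * a * e ^ 2 - 4 * b * e)
    {x y : K} (h : W.toAffine.Equation x y) (hx : x ∈ A) (hξ : A.valuation (x - e) = 1) :
    A.valuation (2 * y + W.a₁ * x + W.a₃) = 1 ∨
      A.valuation (3 * x ^ 2 + 2 * W.a₂ * x + W.a₄ - W.a₁ * y) = 1 := by
  have h2ne : (2 : K) ≠ 0 := by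
    intro h0
    rw [h0, map_zero] at h2
    exact zero_ne_one h2
  have h2mem : (2 : K) ∈ A := (A.valuation_le_one_iff _).mp h2.le
  have h4mem : (4 : K) ∈ A := by
    have : (4 : K) = 2 * 2 := by norm_num
    rw [this]; exact A.mul_mem _ _ h2mem h2mem
  have h3mem : (3 : K) ∈ A := by
    have : (3 : K) = 2 + 1 := by norm_num
    rw [this]; exact A.add_mem _ _ h2mem A.one_mem
  have hbmem : b ∈ A := (A.valuation_le_one_iff _).mp hb.le
  have hξmem : x - e ∈ A := sub_mem hx he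
  set η : K := 2 * y + W.a₁ * x + W.a₃ with hη
  set M : K := 3 * x ^ 2 + 2 * W.a₂ * x + W.a₄ - W.a₁ * y with hM
  -- `η² = psi2Sq ∈ A`, hence `η ∈ A`, `y ∈ A`, `M ∈ A`
  have hηsq : η ^ 2 = psi2Sq W x := psi2_sq_eq h
  have hfac := nu_forall_of_coeffs W hb₂ hb₄ hb₆ x
  have hψ : psi2Sq W x ∈ A := by
    rw [hfac]
    exact A.mul_mem _ _ (A.mul_mem _ _ h4mem hξmem)
      (A.add_mem _ _ (A.add_mem _ _ (A.pow_mem hξmem 2) (A.mul_mem _ _ ha hξmem)) hbmem)
  have hηmem : η ∈ A := by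
    rw [← A.valuation_le_one_iff]
    by_contra hcon
    rw [not_le] at hcon
    have h1 : A.valuation (η ^ 2) ≤ 1 := by
      rw [hηsq]; exact (A.valuation_le_one_iff _).mpr hψ
    rw [map_pow] at h1
    have h3 : (1 : A.ValueGroup) < A.valuation η ^ 2 := one_lt_pow₀ hcon two_ne_zero
    exact absurd h3 (not_lt.mpr h1)
  have hymem : y ∈ A := by
    have hy : y = (η - W.a₁ * x - W.a₃) * (2 : K)⁻¹ := by
      rw [hη]; field_simp; ring
    have h2inv : (2 : K)⁻¹ ∈ A := by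
      rw [← A.valuation_le_one_iff, map_inv₀, h2, inv_one]
    rw [hy]
    exact A.mul_mem _ _ (sub_mem (sub_mem hηmem (A.mul_mem _ _ ha1 hx)) ha3) h2inv
  have hMmem : M ∈ A := by
    rw [hM]
    exact sub_mem (A.add_mem _ _ (A.add_mem _ _ (A.mul_mem _ _ h3mem (A.pow_mem hx 2))
      (A.mul_mem _ _ (A.mul_mem _ _ h2mem ha2) hx)) ha4) (A.mul_mem _ _ ha1 hymem)
  by_cases hη1 : A.valuation η = 1
  · exact Or.inl hη1
  right
  have hηlt : A.valuation η < 1 :=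
    lt_of_le_of_ne ((A.valuation_le_one_iff _).mpr hηmem) hη1
  -- `v (dupNum) = 1`
  have hu : A.valuation ((x - e) ^ 2 - b) = 1 := by
    have h1 : A.valuation ((x - e) ^ 2) = 1 := by rw [map_pow, hξ, one_pow]
    rw [Valuation.map_sub_eq_of_lt_left _ (by rw [h1]; exact hb), h1]
  have hD : A.valuation (dupNum W x) = 1 := by
    have hd : dupNum W x = ((x - e) ^ 2 - b) ^ 2 + e * η ^ 2 := by
      rw [hηsq, ← nu_dupNum_sub W h2ne hb₂ hb₄ hb₆ x]; ring
    have h1 : A.valuation (((x - e) ^ 2 - b) ^ 2) = 1 := by rw [map_pow, hu, one_pow]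
    have h3 : A.valuation (e * η ^ 2) < 1 := by
      rw [map_mul, map_pow]
      calc A.valuation e * A.valuation η ^ 2 ≤ 1 * A.valuation η ^ 2 :=
            mul_le_mul' ((A.valuation_le_one_iff _).mpr he) le_rfl
        _ = A.valuation η ^ 2 := one_mul _
        _ < 1 := pow_lt_one₀ zero_le hηlt two_ne_zero
    rw [hd, Valuation.map_add_eq_of_lt_left _ (by rw [h1]; exact h3), h1]
  -- `M² = dupNum - η * (a₁ M - (a₂ + 2x) η)`
  have hMsq : M ^ 2 = dupNum W x + η * (-(W.a₁ * M) + (W.a₂ + 2 * x) * η) := by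
    rw [nu_dupNum_eq W h]; ring
  have hrest : A.valuation (η * (-(W.a₁ * M) + (W.a₂ + 2 * x) * η)) < 1 := by
    have hmem : -(W.a₁ * M) + (W.a₂ + 2 * x) * η ∈ A :=
      A.add_mem _ _ (A.neg_mem _ (A.mul_mem _ _ ha1 hMmem))
        (A.mul_mem _ _ (A.add_mem _ _ ha2 (A.mul_mem _ _ h2mem hx)) hηmem)
    rw [map_mul]
    calc A.valuation η * A.valuation (-(W.a₁ * M) + (W.a₂ + 2 * x) * η)
        ≤ A.valuation η * 1 := mul_le_mul' le_rfl ((A.valuation_le_one_iff _).mpr hmem)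
      _ = A.valuation η := mul_one _
      _ < 1 := hηlt
  have hM2 : A.valuation (M ^ 2) = 1 := by
    rw [hMsq, Valuation.map_add_eq_of_lt_left _ (by rw [hD]; exact hrest), hD]
  by_contra hcon
  have hMlt : A.valuation M < 1 :=
    lt_of_le_of_ne ((A.valuation_le_one_iff _).mpr hMmem) hcon
  rw [map_pow] at hM2
  have : A.valuation M ^ 2 < 1 := pow_lt_one₀ zero_le hMlt two_ne_zero
  rw [hM2] at this
  exact lt_irrefl _ this

/-- **(M4), functional form.** -/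
theorem nu_hns (A : ValuationSubring K) (W : WeierstrassCurve K)
    (h2 : A.valuation (2 : K) = 1) (ha1 : W.a₁ ∈ A) (ha2 : W.a₂ ∈ A) (ha3 : W.a₃ ∈ A)
    (ha4 : W.a₄ ∈ A) {e a b : K} (he : e ∈ A) (ha : a ∈ A) (hb : A.valuation b < 1)
    (hfac : ∀ x : K, psi2Sq W x = 4 * (x - e) * ((x - e) ^ 2 + a * (x - e) + b))
    {x y : K} (h : W.toAffine.Equation x y) (hx : x ∈ A) (hξ : A.valuation (x - e) = 1) :
    A.valuation (2 * y + W.a₁ * x + W.a₃) = 1 ∨
      A.valuation (3 * x ^ 2 + 2 * W.a₂ * x + W.a₄ - W.a₁ * y) = 1 := by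
  have h2ne : (2 : K) ≠ 0 := by
    intro h0
    rw [h0, map_zero] at h2
    exact zero_ne_one h2
  obtain ⟨hb₂, hb₄, hb₆⟩ := nu_coeffs_of_forall W h2ne hfac
  exact nu_hns_of_coeffs A W h2 ha1 ha2 ha3 ha4 he ha hb hb₂ hb₄ hb₆ h hx hξ

end Fermat.Agent.S05
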