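import Fermat.Agent.S05.Kummer

/-!
# S05 library, piece (M3): translation by a 2-torsion point

Let `W` be a Weierstrass curve over a field `F` (general `a₁..a₆`), `e` a root of
`ψ₂² = 4x³ + b₂x² + 2b₄x + b₆` and `T = (e, yT)` a point of `W` (automatically 2-torsion).
For an affine point `P = (x, y)` with `x ≠ e`, the point `P ± T = (x', y')` satisfies

  `2 (x' - e) (x - e) = 6e² + b₂e + b₄`,

i.e. `ξ' = b / ξ` with `ξ = x - e`, `b = 3e² + b₂e/2 + b₄/2`.
Consequence `(M3)`: for a valuation subring `A`, if `v (x - e) ≤ v b` then `P - T` is `0` or has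
`1 ≤ v (x' - e)`.
-/

namespace Fermat.Agent.S05

open WeierstrassCurve WeierstrassCurve.Affine

variable {F : Type*} [Field F] {W : Affine F}

/-- A point whose `x`-coordinate is a root of `ψ₂²` satisfies `2y + a₁x + a₃ = 0`. -/
lemma tt_two_y_eq_zero {e yT : F} (he : psi2Sq W e = 0) (hT : W.Equation e yT) :
    2 * yT + W.a₁ * e + W.a₃ = 0 := by
  have h := psi2_sq_eq hT
  rw [he] at h
  exact pow_eq_zero_iff (two_ne_zero) |>.mp h

/-- Such a point is its own `negY`. -/
lemma tt_negY_eq {e yT : F} (he : psi2Sq W e = 0) (hT : W.Equation e yT) :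
    W.negY e yT = yT := by
  have h := tt_two_y_eq_zero he hT
  rw [negY]
  linear_combination -h

/-- Such a point is its own negative. -/
lemma tt_neg_eq {e yT : F} (he : psi2Sq W e = 0) (hT : W.Nonsingular e yT) :
    -Point.some e yT hT = Point.some e yT hT := by
  rw [Point.neg_some]
  congr 1
  exact tt_negY_eq he hT.1

/-- Such a point is killed by `2`. -/
lemma tt_two_nsmul_eq_zero [DecidableEq F] {e yT : F} (he : psi2Sq W e = 0)
    (hT : W.Nonsingular e yT) : (2 : ℕ) • Point.some e yT hT = 0 := by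
  rw [two_nsmul]
  exact Point.add_self_of_Y_eq (tt_negY_eq he hT.1).symm

/-- Two points with the same `x`-coordinate `e`, a root of `ψ₂²`, coincide (`2 ≠ 0`). -/
lemma tt_y_eq (h2 : (2 : F) ≠ 0) {e y yT : F} (he : psi2Sq W e = 0) (h : W.Equation e y)
    (hT : W.Equation e yT) : y = yT := by
  have h₁ := tt_two_y_eq_zero he h
  have h₂ := tt_two_y_eq_zero he hT
  have : 2 * (y - yT) = 0 := by linear_combination h₁ - h₂
  exact sub_eq_zero.mp ((mul_eq_zero.mp this).resolve_left h2)

/-- The pure identity behind the translation formula. -/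
lemma tt_addX_identity {e yT x y : F} (he : psi2Sq W e = 0) (hT : W.Equation e yT)
    (h : W.Equation x y) (hx : x ≠ e) :
    2 * ((W.addX x e ((y - yT) / (x - e)) - e) * (x - e)) = 6 * e ^ 2 + W.b₂ * e + W.b₄ := by
  have hD : x - e ≠ 0 := sub_ne_zero.mpr hx
  have e₁ := (Affine.equation_iff ..).mp h
  have e₂ := (Affine.equation_iff ..).mp hT
  have e₃ := tt_two_y_eq_zero he hT
  simp only [psi2Sq, WeierstrassCurve.b₂, WeierstrassCurve.b₄, WeierstrassCurve.b₆] at he
  simp only [addX, WeierstrassCurve.b₂, WeierstrassCurve.b₄]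
  field_simp
  linear_combination 2 * e₁ + 2 * e₂ - (2 * y + W.a₁ * x + W.a₃) * e₃ + he

variable [DecidableEq F]

/-- Subtracting such a point is the same as adding it. -/
lemma tt_sub_eq_add {e yT : F} (he : psi2Sq W e = 0) (hT : W.Nonsingular e yT) (P : W.Point) :
    P - Point.some e yT hT = P + Point.some e yT hT := by
  rw [sub_eq_add_neg, tt_neg_eq he hT]

/-- **Translation by a 2-torsion point**, `ξ' ξ = b` in division-free form. -/
theorem tt_add_some {e yT x y : F} (he : psi2Sq W e = 0) (hT : W.Nonsingular e yT)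
    (h : W.Nonsingular x y) (hx : x ≠ e) :
    ∃ (x' y' : F) (h' : W.Nonsingular x' y'),
      Point.some x y h + Point.some e yT hT = Point.some x' y' h' ∧
      2 * ((x' - e) * (x - e)) = 6 * e ^ 2 + W.b₂ * e + W.b₄ := by
  refine ⟨_, _, nonsingular_add h hT fun hxy => hx hxy.left, Point.add_of_X_ne hx, ?_⟩
  rw [slope_of_X_ne hx]
  exact tt_addX_identity he hT.1 h.1 hx

/-- The same for `P - T`. -/
theorem tt_sub_some {e yT x y : F} (he : psi2Sq W e = 0) (hT : W.Nonsingular e yT)
    (h : W.Nonsingular x y) (hx : x ≠ e) :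
    ∃ (x' y' : F) (h' : W.Nonsingular x' y'),
      Point.some x y h - Point.some e yT hT = Point.some x' y' h' ∧
      2 * ((x' - e) * (x - e)) = 6 * e ^ 2 + W.b₂ * e + W.b₄ := by
  rw [tt_sub_eq_add he hT]
  exact tt_add_some he hT h hx

/-- Version with an explicit `b` (`2b = 6e² + b₂e + b₄`, `2 ≠ 0`): `(x' - e)(x - e) = b`. -/
theorem tt_sub_some' (h2 : (2 : F) ≠ 0) {e b yT x y : F} (he : psi2Sq W e = 0)
    (hb : 2 * b = 6 * e ^ 2 + W.b₂ * e + W.b₄) (hT : W.Nonsingular e yT)
    (h : W.Nonsingular x y) (hx : x ≠ e) :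
    ∃ (x' y' : F) (h' : W.Nonsingular x' y'),
      Point.some x y h - Point.some e yT hT = Point.some x' y' h' ∧
      Point.some x y h + Point.some e yT hT = Point.some x' y' h' ∧
      (x' - e) * (x - e) = b := by
  obtain ⟨x', y', h', hsub, hform⟩ := tt_sub_some he hT h hx
  refine ⟨x', y', h', hsub, ?_, ?_⟩
  · rw [← tt_sub_eq_add he hT]; exact hsub
  · have : 2 * ((x' - e) * (x - e) - b) = 0 := by linear_combination hform - hb
    exact sub_eq_zero.mp ((mul_eq_zero.mp this).resolve_left h2)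

/-- If `x = e` then `P = T`, so `P - T = 0`. -/
theorem tt_sub_eq_zero (h2 : (2 : F) ≠ 0) {e yT y : F} (he : psi2Sq W e = 0)
    (hT : W.Nonsingular e yT) (h : W.Nonsingular e y) :
    Point.some e y h - Point.some e yT hT = 0 := by
  have hy : y = yT := tt_y_eq h2 he h.1 hT.1
  subst hy
  exact sub_self _

/-- **(M3)** If `v (x - e) ≤ v b` then `P - T` is `0` or an affine point with
`1 ≤ v (x' - e)`: the "middle" region is translated into `E₀`. -/
theorem tt_M3 (A : ValuationSubring F) (h2 : (2 : F) ≠ 0) {e b : F} (he : psi2Sq W e = 0)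
    (hb : 2 * b = 6 * e ^ 2 + W.b₂ * e + W.b₄) {x y yT : F} (h : W.Nonsingular x y)
    (hT : W.Nonsingular e yT) (hv : A.valuation (x - e) ≤ A.valuation b) :
    Point.some x y h - Point.some e yT hT = 0 ∨
      ∃ (x' y' : F) (h' : W.Nonsingular x' y'),
        Point.some x y h - Point.some e yT hT = Point.some x' y' h' ∧
        1 ≤ A.valuation (x' - e) := by
  by_cases hx : x = e
  · left
    subst hx
    exact tt_sub_eq_zero h2 he hT h
  · right
    obtain ⟨x', y', h', hsub, -, hform⟩ := tt_sub_some' h2 he hb hT h hx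
    refine ⟨x', y', h', hsub, ?_⟩
    have hD : x - e ≠ 0 := sub_ne_zero.mpr hx
    have hvD : A.valuation (x - e) ≠ 0 := (A.valuation.ne_zero_iff).mpr hD
    rw [← hform, map_mul] at hv
    by_contra hlt
    rw [not_le] at hlt
    have : A.valuation (x' - e) * A.valuation (x - e) < 1 * A.valuation (x - e) :=
      mul_lt_mul_of_pos_right hlt (zero_lt_iff.mpr hvD)
    rw [one_mul] at this
    exact absurd hv (not_le.mpr this)

/-- (M3) for `P + T`. -/
theorem tt_M3_add (A : ValuationSubring F) (h2 : (2 : F) ≠ 0) {e b : F} (he : psi2Sq W e = 0)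
    (hb : 2 * b = 6 * e ^ 2 + W.b₂ * e + W.b₄) {x y yT : F} (h : W.Nonsingular x y)
    (hT : W.Nonsingular e yT) (hv : A.valuation (x - e) ≤ A.valuation b) :
    Point.some x y h + Point.some e yT hT = 0 ∨
      ∃ (x' y' : F) (h' : W.Nonsingular x' y'),
        Point.some x y h + Point.some e yT hT = Point.some x' y' h' ∧
        1 ≤ A.valuation (x' - e) := by
  rw [← tt_sub_eq_add he hT]
  exact tt_M3 A h2 he hb h hT hv

/-- Quantitative form: if `x ≠ e` then `v (x' - e) * v (x - e) = v b`. -/
theorem tt_valuation_mul (A : ValuationSubring F) (h2 : (2 : F) ≠ 0) {e b : F}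
    (he : psi2Sq W e = 0) (hb : 2 * b = 6 * e ^ 2 + W.b₂ * e + W.b₄) {x y yT : F}
    (h : W.Nonsingular x y) (hT : W.Nonsingular e yT) (hx : x ≠ e) :
    ∃ (x' y' : F) (h' : W.Nonsingular x' y'),
      Point.some x y h - Point.some e yT hT = Point.some x' y' h' ∧
      Point.some x y h + Point.some e yT hT = Point.some x' y' h' ∧
      A.valuation (x' - e) * A.valuation (x - e) = A.valuation b := by
  obtain ⟨x', y', h', hsub, hadd, hform⟩ := tt_sub_some' h2 he hb hT h hx
  exact ⟨x', y', h', hsub, hadd, by rw [← map_mul, hform]⟩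

end Fermat.Agent.S05
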