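import Mathlib

/-!
# S05 library: unsigned tropical leaves (U1), (U2), (U4)

Pure valuation algebra (no elliptic curves).  `zp`, `zm` are the `ξ`-coordinates of `P₁ + P₂` and
`P₁ - P₂`; `hS`, `hP` are the sum and product formulas.  The second point is always in the annulus
`v b < v ξ₂ < 1`.

* `ul_E0` : first point in the identity component (`1 ≤ v ξ₁`) ⟹ both have level `v ξ₂`;
* `ul_M`  : first point in the "middle" (`v ξ₁ ≤ v b`) ⟹ both have level `v b / v ξ₂`;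
* `ul_dbl`: doubling formula in the annulus.
-/

set_option autoImplicit false
set_option linter.unusedVariables false

namespace Fermat.Agent.S05

variable {F : Type*} [Field F] {Γ₀ : Type*} [LinearOrderedCommGroupWithZero Γ₀]
  (v : Valuation F Γ₀)

/-- `v (z₁ + z₂) ≤ g`, `v (z₁ z₂) = g²` ⟹ both roots have valuation `g`. -/
lemma ul_roots_eq {z₁ z₂ : F} {g : Γ₀} (hS : v (z₁ + z₂) ≤ g) (hP : v (z₁ * z₂) = g ^ 2) :
    v z₁ = g ∧ v z₂ = g := by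
  rcases eq_or_ne g 0 with rfl | hg
  · have h0 : v (z₁ * z₂) = 0 := by rw [hP]; simp
    have hS0 : v (z₁ + z₂) = 0 := le_antisymm hS zero_le
    rw [map_mul, mul_eq_zero] at h0
    rcases h0 with h0 | h0
    · refine ⟨h0, ?_⟩
      have := v.map_add_of_left_eq_zero (y := z₂) h0
      rw [← this]; exact hS0
    · refine ⟨?_, h0⟩
      have := v.map_add_of_right_eq_zero (x := z₁) h0
      rw [← this]; exact hS0
  have hgpos : 0 < g := zero_lt_iff.mpr hg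
  rw [map_mul] at hP
  have key : ∀ {u w : F}, v (u + w) ≤ g → v u * v w = g ^ 2 → ¬ g < v u := by
    intro u w hS hP hu
    have hw : v w < g := by
      by_contra hw
      push Not at hw
      have : g ^ 2 < v u * v w := by
        rw [pow_two]
        exact mul_lt_mul hu hw hgpos zero_le
      rw [hP] at this
      exact lt_irrefl _ this
    have : v (u + w) = v u := v.map_add_eq_of_lt_left (lt_trans hw hu)
    rw [this] at hS
    exact absurd hS (not_le.mpr hu)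
  have h1 : v z₁ ≤ g := not_lt.mp (key hS hP)
  have h2 : v z₂ ≤ g := not_lt.mp (key (by rwa [add_comm]) (by rwa [mul_comm]))
  have h1' : g ≤ v z₁ := by
    by_contra h
    push Not at h
    have : v z₁ * v z₂ < g ^ 2 := by
      rw [pow_two]
      exact mul_lt_mul_of_lt_of_le_of_nonneg_of_pos h h2 zero_le hgpos
    rw [hP] at this
    exact lt_irrefl _ this
  have h2' : g ≤ v z₂ := by
    by_contra h
    push Not at h
    have : v z₁ * v z₂ < g ^ 2 := by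
      rw [pow_two, mul_comm]
      exact mul_lt_mul_of_lt_of_le_of_nonneg_of_pos h h1 zero_le hgpos
    rw [hP] at this
    exact lt_irrefl _ this
  exact ⟨le_antisymm h1 h1', le_antisymm h2 h2'⟩

variable {a b ξ₁ ξ₂ zp zm : F}

/-- **(U1)** first point in the identity component. -/
theorem ul_E0 (h2 : v 2 = 1) (ha : v a = 1) (hb : v b < 1) (hb0 : b ≠ 0)
    (hS : (zp + zm) * (ξ₁ - ξ₂) ^ 2
      = 2 * ((ξ₁ * ξ₂ + b) * (ξ₁ + ξ₂) + 2 * a * (ξ₁ * ξ₂)))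
    (hP : (zp * zm) * (ξ₁ - ξ₂) ^ 2 = (ξ₁ * ξ₂ - b) ^ 2) (hne : ξ₁ ≠ ξ₂)
    (h2l : v b < v ξ₂) (h2u : v ξ₂ < 1) (h1 : 1 ≤ v ξ₁) :
    v zp = v ξ₂ ∧ v zm = v ξ₂ := by
  have h21 : v ξ₂ < v ξ₁ := lt_of_lt_of_le h2u h1
  have h1pos : v ξ₁ ≠ 0 := ne_of_gt (lt_of_lt_of_le zero_lt_one h1)
  have h2pos : v ξ₂ ≠ 0 := ne_of_gt (lt_of_le_of_lt zero_le h2l)
  have hd : v (ξ₁ - ξ₂) = v ξ₁ := Valuation.map_sub_eq_of_lt_left _ h21
  have hsum : v (ξ₁ + ξ₂) = v ξ₁ := Valuation.map_add_eq_of_lt_left _ h21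
  have hprod : v b < v (ξ₁ * ξ₂) := by
    rw [map_mul]
    calc v b < v ξ₂ := h2l
      _ = 1 * v ξ₂ := (one_mul _).symm
      _ ≤ v ξ₁ * v ξ₂ := mul_le_mul' h1 le_rfl
  have hN : v (ξ₁ * ξ₂ - b) = v ξ₁ * v ξ₂ := by
    rw [Valuation.map_sub_eq_of_lt_left _ hprod, map_mul]
  have hN' : v (ξ₁ * ξ₂ + b) = v ξ₁ * v ξ₂ := by
    rw [Valuation.map_add_eq_of_lt_left _ hprod, map_mul]
  have hd2 : v ξ₁ ^ 2 ≠ 0 := pow_ne_zero _ h1pos
  -- product
  have hPv : v (zp * zm) = v ξ₂ ^ 2 := by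
    have := congrArg v hP
    rw [map_mul, map_pow, hd, map_pow, hN, mul_pow, mul_comm] at this
    exact mul_left_cancel₀ hd2 this
  -- sum
  have hSv : v (zp + zm) ≤ v ξ₂ := by
    have := congrArg v hS
    rw [map_mul, map_pow, hd, map_mul, h2, one_mul] at this
    have hnum : v ((ξ₁ * ξ₂ + b) * (ξ₁ + ξ₂) + 2 * a * (ξ₁ * ξ₂)) ≤ v ξ₂ * v ξ₁ ^ 2 := by
      refine Valuation.map_add_le _ ?_ ?_
      · rw [map_mul, hN', hsum]
        exact le_of_eq (by rw [pow_two, mul_comm (v ξ₁) (v ξ₂), mul_assoc])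
      · rw [map_mul, map_mul, map_mul, h2, ha, one_mul, one_mul, pow_two]
        calc v ξ₁ * v ξ₂ = v ξ₂ * (1 * v ξ₁) := by rw [one_mul, mul_comm]
          _ ≤ v ξ₂ * (v ξ₁ * v ξ₁) := mul_le_mul' le_rfl (mul_le_mul' h1 le_rfl)
    rw [← this] at hnum
    exact le_of_mul_le_mul_right hnum (zero_lt_iff.mpr hd2)
  exact ul_roots_eq v hSv hPv

/-- **(U2)** first point in the middle region. -/
theorem ul_M (h2 : v 2 = 1) (ha : v a = 1) (hb : v b < 1) (hb0 : b ≠ 0)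
    (hS : (zp + zm) * (ξ₁ - ξ₂) ^ 2
      = 2 * ((ξ₁ * ξ₂ + b) * (ξ₁ + ξ₂) + 2 * a * (ξ₁ * ξ₂)))
    (hP : (zp * zm) * (ξ₁ - ξ₂) ^ 2 = (ξ₁ * ξ₂ - b) ^ 2) (hne : ξ₁ ≠ ξ₂)
    (h2l : v b < v ξ₂) (h2u : v ξ₂ < 1) (h1 : v ξ₁ ≤ v b) :
    v zp * v ξ₂ = v b ∧ v zm * v ξ₂ = v b := by
  have h12 : v ξ₁ < v ξ₂ := lt_of_le_of_lt h1 h2l
  have hbpos : v b ≠ 0 := (Valuation.ne_zero_iff _).mpr hb0
  have h2pos : v ξ₂ ≠ 0 := ne_of_gt (lt_of_le_of_lt zero_le h2l)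
  have hd : v (ξ₁ - ξ₂) = v ξ₂ := Valuation.map_sub_eq_of_lt_right _ h12
  have hsum : v (ξ₁ + ξ₂) = v ξ₂ := Valuation.map_add_eq_of_lt_right _ h12
  have hprod : v (ξ₁ * ξ₂) < v b := by
    rw [map_mul]
    calc v ξ₁ * v ξ₂ ≤ v b * v ξ₂ := mul_le_mul' h1 le_rfl
      _ < v b * 1 := mul_lt_mul_of_pos_left h2u (zero_lt_iff.mpr hbpos)
      _ = v b := mul_one _
  have hN : v (ξ₁ * ξ₂ - b) = v b := Valuation.map_sub_eq_of_lt_right _ hprod
  have hN' : v (ξ₁ * ξ₂ + b) = v b := Valuation.map_add_eq_of_lt_right _ hprod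
  have hd2 : v ξ₂ ^ 2 ≠ 0 := pow_ne_zero _ h2pos
  set g : Γ₀ := v b / v ξ₂ with hg
  have hgmul : g * v ξ₂ = v b := div_mul_cancel₀ _ h2pos
  -- product
  have hPv : v (zp * zm) = g ^ 2 := by
    have := congrArg v hP
    rw [map_mul, map_pow, hd, map_pow, hN] at this
    have h' : g ^ 2 * v ξ₂ ^ 2 = v b ^ 2 := by rw [← mul_pow, hgmul]
    rw [← h'] at this
    exact mul_right_cancel₀ hd2 this
  -- sum
  have hSv : v (zp + zm) ≤ g := by
    have := congrArg v hS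
    rw [map_mul, map_pow, hd, map_mul, h2, one_mul] at this
    have hnum : v ((ξ₁ * ξ₂ + b) * (ξ₁ + ξ₂) + 2 * a * (ξ₁ * ξ₂)) ≤ g * v ξ₂ ^ 2 := by
      have hgg : g * v ξ₂ ^ 2 = v b * v ξ₂ := by rw [pow_two, ← mul_assoc, hgmul]
      rw [hgg]
      refine Valuation.map_add_le _ ?_ ?_
      · rw [map_mul, hN', hsum]
      · rw [map_mul, map_mul, map_mul, h2, ha, one_mul, one_mul]
        exact mul_le_mul' h1 le_rfl
    rw [← this] at hnum
    exact le_of_mul_le_mul_right hnum (zero_lt_iff.mpr hd2)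
  obtain ⟨hp, hm⟩ := ul_roots_eq v hSv hPv
  exact ⟨by rw [hp, hgmul], by rw [hm, hgmul]⟩

/-- **(U4)** doubling in the annulus. -/
theorem ul_dbl (h2 : v 2 = 1) (ha : v a = 1) (hb : v b < 1) (hb0 : b ≠ 0) {ξ z : F}
    (hz : z * (4 * ξ * (ξ ^ 2 + a * ξ + b)) = (ξ ^ 2 - b) ^ 2) (hl : v b < v ξ) (hu : v ξ < 1) :
    4 * ξ * (ξ ^ 2 + a * ξ + b) ≠ 0 ∧ (v b < v ξ ^ 2 → v z = v ξ ^ 2) ∧
      (v ξ ^ 2 < v b → v z * v ξ ^ 2 = v b ^ 2) ∧ (v ξ ^ 2 = v b → v z ≤ v b) := by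
  have hξpos : v ξ ≠ 0 := ne_of_gt (lt_of_le_of_lt zero_le hl)
  have hξ0 : 0 < v ξ := zero_lt_iff.mpr hξpos
  have h4 : v (4 : F) = 1 := by
    have : (4 : F) = 2 * 2 := by norm_num
    rw [this, map_mul, h2, one_mul]
  have haξ : v (a * ξ) = v ξ := by rw [map_mul, ha, one_mul]
  have hsq : v (ξ ^ 2) < v ξ := by
    rw [map_pow, pow_two]
    calc v ξ * v ξ < v ξ * 1 := mul_lt_mul_of_pos_left hu hξ0
      _ = v ξ := mul_one _
  have hquad : v (ξ ^ 2 + a * ξ + b) = v ξ := by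
    have h1 : v (ξ ^ 2 + a * ξ) = v ξ := by
      rw [Valuation.map_add_eq_of_lt_right _ (by rw [haξ]; exact hsq), haξ]
    rw [Valuation.map_add_eq_of_lt_left _ (by rw [h1]; exact hl), h1]
  have hden : v (4 * ξ * (ξ ^ 2 + a * ξ + b)) = v ξ ^ 2 := by
    rw [map_mul, map_mul, h4, one_mul, hquad, pow_two]
  have hden0 : 4 * ξ * (ξ ^ 2 + a * ξ + b) ≠ 0 := by
    rw [← Valuation.ne_zero_iff v, hden]
    exact pow_ne_zero _ hξpos
  have hd2 : v ξ ^ 2 ≠ 0 := pow_ne_zero _ hξpos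
  have hzv : v z * v ξ ^ 2 = v (ξ ^ 2 - b) ^ 2 := by
    have := congrArg v hz
    rw [map_mul, hden, map_pow] at this
    exact this
  refine ⟨hden0, fun h => ?_, fun h => ?_, fun h => ?_⟩
  · have h' : v b < v (ξ ^ 2) := by rwa [map_pow]
    rw [Valuation.map_sub_eq_of_lt_left _ h', map_pow, pow_two (v ξ ^ 2)] at hzv
    exact mul_right_cancel₀ hd2 hzv
  · have h' : v (ξ ^ 2) < v b := by rwa [map_pow]
    rw [Valuation.map_sub_eq_of_lt_right _ h'] at hzv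
    exact hzv
  · have h' : v (ξ ^ 2) = v b := by rwa [map_pow]
    have hle : v (ξ ^ 2 - b) ≤ v b := Valuation.map_sub_le _ h'.le le_rfl
    have h3 : v z * v ξ ^ 2 ≤ v b * v ξ ^ 2 := by
      rw [hzv, pow_two]
      calc v (ξ ^ 2 - b) * v (ξ ^ 2 - b) ≤ v b * v b := mul_le_mul' hle hle
        _ = v b * v ξ ^ 2 := by rw [h]
    exact le_of_mul_le_mul_right h3 (zero_lt_iff.mpr hd2)

end Fermat.Agent.S05
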