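import Mathlib

/-!
# S05 library: unsigned leaf (U3), both points in the annulus

Pure valuation statement (no elliptic curves).  `zp, zm` are the `ξ`-coordinates of `P₁ ± P₂`:
`zp + zm = S / (ξ₁-ξ₂)²`, `zp zm = (ξ₁ξ₂ - b)² / (ξ₁-ξ₂)²`.  When both `ξᵢ` lie in the annulus
`v b < v ξᵢ < 1`, one of the two roots has valuation `v ξ₁ v ξ₂ / v (ξ₁-ξ₂)²` (outside the
annulus, or `ξ₁/ξ₂` up to a unit) and the other one is the "product" `ξ₁ξ₂`, folded.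
-/

set_option autoImplicit false
set_option linter.unusedVariables false

namespace Fermat.Agent.S05

variable {F : Type*} [Field F] {Γ₀ : Type*} [LinearOrderedCommGroupWithZero Γ₀]
  (v : Valuation F Γ₀)

/-- Newton polygon, two roots of distinct size: if `v (z₁ z₂) < v (z₁+z₂)²` then one of the roots
has the valuation of the sum, and it is strictly the larger one. -/
lemma ul_newton {z₁ z₂ : F} (h : v (z₁ * z₂) < v (z₁ + z₂) ^ 2) :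
    (v z₂ < v z₁ ∧ v (z₁ + z₂) = v z₁) ∨ (v z₁ < v z₂ ∧ v (z₁ + z₂) = v z₂) := by
  rcases lt_trichotomy (v z₁) (v z₂) with h12 | h12 | h12
  · exact Or.inr ⟨h12, Valuation.map_add_eq_of_lt_right _ h12⟩
  · exfalso
    have hle : v (z₁ + z₂) ≤ v z₁ := Valuation.map_add_le _ le_rfl h12.ge
    have : v (z₁ + z₂) ^ 2 ≤ v (z₁ * z₂) := by
      rw [map_mul, ← h12, pow_two]
      exact mul_le_mul' hle hle
    exact absurd h (not_lt.mpr this)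
  · exact Or.inl ⟨h12, Valuation.map_add_eq_of_lt_left _ h12⟩

/-- **Leaf (U3)**: both points in the annulus. -/
theorem ul_NN {a b ξ₁ ξ₂ zp zm : F} (h2 : v 2 = 1) (ha : v a = 1) (hb : v b < 1) (hb0 : b ≠ 0)
    (hS : (zp + zm) * (ξ₁ - ξ₂) ^ 2 = 2 * ((ξ₁ * ξ₂ + b) * (ξ₁ + ξ₂) + 2 * a * (ξ₁ * ξ₂)))
    (hP : (zp * zm) * (ξ₁ - ξ₂) ^ 2 = (ξ₁ * ξ₂ - b) ^ 2) (hne : ξ₁ ≠ ξ₂)
    (h2l : v b < v ξ₂) (h2u : v ξ₂ < 1) (h1l : v b < v ξ₁) (h1u : v ξ₁ < 1) :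
    ∃ z z' : F, ((z = zp ∧ z' = zm) ∨ (z = zm ∧ z' = zp)) ∧
      v z * v (ξ₁ - ξ₂) ^ 2 = v ξ₁ * v ξ₂ ∧
      (v b < v ξ₁ * v ξ₂ → v z' = v ξ₁ * v ξ₂) ∧
      (v ξ₁ * v ξ₂ < v b → v z' * (v ξ₁ * v ξ₂) = v b ^ 2) ∧
      (v ξ₁ * v ξ₂ = v b → v z' ≤ v b) := by
  set m₁ := v ξ₁ with hm₁
  set m₂ := v ξ₂ with hm₂
  have hβpos : 0 < v b := zero_lt_iff.mpr ((Valuation.ne_zero_iff _).mpr hb0)
  have hm₁pos : 0 < m₁ := lt_trans hβpos h1l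
  have hm₂pos : 0 < m₂ := lt_trans hβpos h2l
  have hmmpos : 0 < m₁ * m₂ := mul_pos hm₁pos hm₂pos
  have hdne : ξ₁ - ξ₂ ≠ 0 := sub_ne_zero.mpr hne
  have hdpos : 0 < v (ξ₁ - ξ₂) := zero_lt_iff.mpr ((Valuation.ne_zero_iff _).mpr hdne)
  set M := max m₁ m₂ with hM
  have hM1 : M < 1 := max_lt h1u h2u
  have hdM : v (ξ₁ - ξ₂) ≤ M := Valuation.map_sub_le _ (le_max_left _ _) (le_max_right _ _)
  have haM : v (ξ₁ + ξ₂) ≤ M := Valuation.map_add_le _ (le_max_left _ _) (le_max_right _ _)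
  have hβM : v b * M < m₁ * m₂ := by
    rcases le_total m₁ m₂ with h | h
    · rw [hM, max_eq_right h]
      exact mul_lt_mul_of_pos_right h1l hm₂pos
    · rw [hM, max_eq_left h, mul_comm m₁ m₂]
      exact mul_lt_mul_of_pos_right h2l hm₁pos
  have hmmM : m₁ * m₂ * M < m₁ * m₂ := by
    calc m₁ * m₂ * M < m₁ * m₂ * 1 := mul_lt_mul_of_pos_left hM1 hmmpos
      _ = m₁ * m₂ := mul_one _
  have hmaxM : max (m₁ * m₂) (v b) * M < m₁ * m₂ := by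
    rcases le_total (m₁ * m₂) (v b) with h | h
    · rw [max_eq_right h]; exact hβM
    · rw [max_eq_left h]; exact hmmM
  have hN : v (ξ₁ * ξ₂ - b) ≤ max (m₁ * m₂) (v b) := by
    have := Valuation.map_sub v (ξ₁ * ξ₂) b
    rwa [map_mul] at this
  have hNd : v (ξ₁ * ξ₂ - b) * v (ξ₁ - ξ₂) < m₁ * m₂ :=
    lt_of_le_of_lt (mul_le_mul' hN hdM) hmaxM
  -- the numerator of the sum has valuation exactly `m₁ m₂`
  have hNS : v (2 * ((ξ₁ * ξ₂ + b) * (ξ₁ + ξ₂) + 2 * a * (ξ₁ * ξ₂))) = m₁ * m₂ := by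
    have h4 : v (2 * (2 * a * (ξ₁ * ξ₂))) = m₁ * m₂ := by
      rw [map_mul, map_mul, map_mul, map_mul, h2, ha, one_mul, one_mul, one_mul]
    have hrest : v (2 * ((ξ₁ * ξ₂ + b) * (ξ₁ + ξ₂))) < m₁ * m₂ := by
      rw [map_mul, h2, one_mul, map_mul]
      have h5 : v (ξ₁ * ξ₂ + b) ≤ max (m₁ * m₂) (v b) := by
        have := Valuation.map_add v (ξ₁ * ξ₂) b
        rwa [map_mul] at this
      exact lt_of_le_of_lt (mul_le_mul' h5 haM) hmaxM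
    have hsplit : 2 * ((ξ₁ * ξ₂ + b) * (ξ₁ + ξ₂) + 2 * a * (ξ₁ * ξ₂)) =
        2 * (2 * a * (ξ₁ * ξ₂)) + 2 * ((ξ₁ * ξ₂ + b) * (ξ₁ + ξ₂)) := by ring
    rw [hsplit, Valuation.map_add_eq_of_lt_left _ (by rw [h4]; exact hrest), h4]
  have hF1 : v (zp + zm) * v (ξ₁ - ξ₂) ^ 2 = m₁ * m₂ := by
    have := congrArg v hS
    rwa [map_mul, map_pow, hNS] at this
  have hF2 : v (zp * zm) * v (ξ₁ - ξ₂) ^ 2 = v (ξ₁ * ξ₂ - b) ^ 2 := by
    have := congrArg v hP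
    rwa [map_mul, map_pow, map_pow] at this
  -- `v (zp zm) < v (zp + zm)²`
  have hkey : v (zp * zm) < v (zp + zm) ^ 2 := by
    have hd2pos : 0 < v (ξ₁ - ξ₂) ^ 2 := pow_pos hdpos 2
    have h1 : v (zp * zm) * (v (ξ₁ - ξ₂) ^ 2 * v (ξ₁ - ξ₂) ^ 2) <
        v (zp + zm) ^ 2 * (v (ξ₁ - ξ₂) ^ 2 * v (ξ₁ - ξ₂) ^ 2) := by
      calc v (zp * zm) * (v (ξ₁ - ξ₂) ^ 2 * v (ξ₁ - ξ₂) ^ 2)
          = (v (zp * zm) * v (ξ₁ - ξ₂) ^ 2) * v (ξ₁ - ξ₂) ^ 2 := (mul_assoc _ _ _).symm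
        _ = (v (ξ₁ * ξ₂ - b) * v (ξ₁ - ξ₂)) ^ 2 := by rw [hF2, mul_pow]
        _ < (m₁ * m₂) ^ 2 := pow_lt_pow_left₀ hNd zero_le two_ne_zero
        _ = v (zp + zm) ^ 2 * (v (ξ₁ - ξ₂) ^ 2 * v (ξ₁ - ξ₂) ^ 2) := by
          rw [← hF1, mul_pow, pow_two (v (ξ₁ - ξ₂) ^ 2)]
    exact lt_of_mul_lt_mul_right h1 zero_le
  -- the three conclusions for the smaller root
  have hfin : ∀ w : Γ₀, m₁ * m₂ * w = v (ξ₁ * ξ₂ - b) ^ 2 →
      (v b < m₁ * m₂ → w = m₁ * m₂) ∧ (m₁ * m₂ < v b → w * (m₁ * m₂) = v b ^ 2) ∧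
        (m₁ * m₂ = v b → w ≤ v b) := by
    intro w hw
    refine ⟨fun h => ?_, fun h => ?_, fun h => ?_⟩
    · have hN' : v (ξ₁ * ξ₂ - b) = m₁ * m₂ := by
        rw [Valuation.map_sub_eq_of_lt_left _ (by rw [map_mul]; exact h), map_mul]
      rw [hN', pow_two] at hw
      exact mul_left_cancel₀ hmmpos.ne' hw
    · have hN' : v (ξ₁ * ξ₂ - b) = v b := by
        rw [Valuation.map_sub_eq_of_lt_right _ (by rw [map_mul]; exact h)]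
      rw [hN'] at hw
      rw [mul_comm]; exact hw
    · have hN' : v (ξ₁ * ξ₂ - b) ≤ v b := by
        apply Valuation.map_sub_le _ _ le_rfl
        rw [map_mul]; exact h.le
      rw [h] at hw
      have h3 : v b * w ≤ v b * v b := by
        rw [hw, pow_two]; exact mul_le_mul' hN' hN'
      exact le_of_mul_le_mul_left h3 hβpos
  rcases ul_newton v hkey with ⟨hlt, hs⟩ | ⟨hlt, hs⟩
  · refine ⟨zp, zm, Or.inl ⟨rfl, rfl⟩, ?_, ?_⟩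
    · rw [← hs]; exact hF1
    · apply hfin
      rw [← hF2, map_mul, ← hF1, hs]
      exact mul_right_comm _ _ _
  · refine ⟨zm, zp, Or.inr ⟨rfl, rfl⟩, ?_, ?_⟩
    · rw [← hs]; exact hF1
    · apply hfin
      rw [← hF2, map_mul, ← hF1, hs, mul_comm (v zp) (v zm)]
      exact mul_right_comm _ _ _

end Fermat.Agent.S05
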