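import Mathlib
import Fermat.Agent.S05.Kummer

/-!
# S05 library (unsigned route, part 1): centred Kummer identities and roots lemmas

`NodeParam W e a b` : `psi2Sq W x = 4 ξ (ξ² + a ξ + b)` with `ξ = x - e` (coefficient form).
Centred forms of the sum / product / duplication numerators of `Kummer.lean`, and the
"valuations of the two roots of `z² - S z + Π`" lemmas for an arbitrary valuation.
All names are prefixed `un_`.
-/

set_option autoImplicit false

namespace Fermat.Agent.S05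

open WeierstrassCurve WeierstrassCurve.Affine

variable {F : Type*} [Field F]

/-- `psi2Sq W x = 4 ξ (ξ² + a ξ + b)`, `ξ = x - e`, in coefficient form. -/
structure NodeParam (W : Affine F) (e a b : F) : Prop where
  hb₂ : W.b₂ = 4 * a - 12 * e
  hb₄ : W.b₄ = 6 * e ^ 2 - 4 * a * e + 2 * b
  hb₆ : W.b₆ = -4 * e ^ 3 + 4 * a * e ^ 2 - 4 * b * e

namespace NodeParam

variable {W : Affine F} {e a b : F} (hN : NodeParam W e a b)
include hN

lemma un_psi2Sq (x : F) :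
    psi2Sq W x = 4 * (x - e) * ((x - e) ^ 2 + a * (x - e) + b) := by
  simp only [psi2Sq, hN.hb₂, hN.hb₄, hN.hb₆]; ring

lemma un_sum (x₁ x₂ : F) :
    sumNum W x₁ x₂ - 2 * e * (x₁ - x₂) ^ 2 =
      2 * (((x₁ - e) * (x₂ - e) + b) * ((x₁ - e) + (x₂ - e)) + 2 * a * ((x₁ - e) * (x₂ - e))) := by
  simp only [sumNum, hN.hb₂, hN.hb₄, hN.hb₆]; ring

lemma un_b₈ (h2 : (2 : F) ≠ 0) :
    W.b₈ = ((4 * a - 12 * e) * (-4 * e ^ 3 + 4 * a * e ^ 2 - 4 * b * e)
      - (6 * e ^ 2 - 4 * a * e + 2 * b) ^ 2) / 4 := by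
  have h4 : (4 : F) ≠ 0 := by
    have : (4 : F) = 2 * 2 := by norm_num
    rw [this]; exact mul_ne_zero h2 h2
  rw [eq_div_iff h4, mul_comm, W.b_relation, hN.hb₂, hN.hb₄, hN.hb₆]

lemma un_prod (h2 : (2 : F) ≠ 0) (x₁ x₂ : F) :
    prodNum W x₁ x₂ - e * sumNum W x₁ x₂ + e ^ 2 * (x₁ - x₂) ^ 2 =
      ((x₁ - e) * (x₂ - e) - b) ^ 2 := by
  have h4 : (4 : F) ≠ 0 := by
    have : (4 : F) = 2 * 2 := by norm_num
    rw [this]; exact mul_ne_zero h2 h2
  simp only [prodNum, sumNum, hN.un_b₈ h2, hN.hb₂, hN.hb₄, hN.hb₆]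
  field_simp
  ring

lemma un_dup (h2 : (2 : F) ≠ 0) (x : F) :
    dupNum W x - e * psi2Sq W x = ((x - e) ^ 2 - b) ^ 2 := by
  have h4 : (4 : F) ≠ 0 := by
    have : (4 : F) = 2 * 2 := by norm_num
    rw [this]; exact mul_ne_zero h2 h2
  simp only [dupNum, psi2Sq, hN.un_b₈ h2, hN.hb₂, hN.hb₄, hN.hb₆]
  field_simp
  ring

variable [DecidableEq F]

/-- Centred sum/difference formulas for `x₁ ≠ x₂`. -/
theorem un_add_sub (h2 : (2 : F) ≠ 0) {x₁ y₁ x₂ y₂ : F} (h₁ : W.Nonsingular x₁ y₁)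
    (h₂ : W.Nonsingular x₂ y₂) (hx : x₁ ≠ x₂) :
    ∃ (xp yp : F) (hp : W.Nonsingular xp yp) (xm ym : F) (hm : W.Nonsingular xm ym),
      Point.some x₁ y₁ h₁ + Point.some x₂ y₂ h₂ = Point.some xp yp hp ∧
      Point.some x₁ y₁ h₁ - Point.some x₂ y₂ h₂ = Point.some xm ym hm ∧
      ((xp - e) + (xm - e)) * ((x₁ - e) - (x₂ - e)) ^ 2 =
        2 * (((x₁ - e) * (x₂ - e) + b) * ((x₁ - e) + (x₂ - e)) + 2 * a * ((x₁ - e) * (x₂ - e))) ∧
      ((xp - e) * (xm - e)) * ((x₁ - e) - (x₂ - e)) ^ 2 = ((x₁ - e) * (x₂ - e) - b) ^ 2 := by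
  obtain ⟨xp, yp, hp, xm, ym, hm, hadd, hsub, hs, hpr⟩ := add_sub_of_X_ne' h2 h₁ h₂ hx
  refine ⟨xp, yp, hp, xm, ym, hm, hadd, hsub, ?_, ?_⟩
  · rw [← hN.un_sum]; linear_combination hs
  · rw [← hN.un_prod h2]; linear_combination hpr - e * hs

/-- Centred duplication formula. -/
theorem un_two_nsmul (h2 : (2 : F) ≠ 0) {x y : F} (h : W.Nonsingular x y)
    (hne : psi2Sq W x ≠ 0) :
    ∃ (x' y' : F) (h' : W.Nonsingular x' y'),
      (2 : ℕ) • Point.some x y h = Point.some x' y' h' ∧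
      (x' - e) * (4 * (x - e) * ((x - e) ^ 2 + a * (x - e) + b)) = ((x - e) ^ 2 - b) ^ 2 := by
  rcases two_nsmul_some h with ⟨h0, -⟩ | ⟨-, x', y', h', hd, hx'⟩
  · exact absurd h0 hne
  · refine ⟨x', y', h', hd, ?_⟩
    rw [← hN.un_psi2Sq, ← hN.un_dup h2]; linear_combination hx'

end NodeParam

/-! ### Valuations of the two roots of a quadratic -/

section roots

variable {Γ₀ : Type*} [LinearOrderedCommGroupWithZero Γ₀] (v : Valuation F Γ₀)

/-- `v S ≤ g`, `v Π = g²` ⟹ both roots have valuation `g`. -/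
lemma un_roots_eq {z₁ z₂ : F} {g : Γ₀} (hS : v (z₁ + z₂) ≤ g) (hP : v (z₁ * z₂) = g ^ 2) :
    v z₁ = g ∧ v z₂ = g := by
  rcases eq_or_ne g 0 with rfl | hg
  · have h0 : v (z₁ * z₂) = 0 := by rw [hP]; simp
    have hS0 : v (z₁ + z₂) = 0 := le_antisymm hS zero_le
    rw [map_mul, mul_eq_zero] at h0
    rcases h0 with h0 | h0
    · refine ⟨h0, ?_⟩
      have := v.map_add_of_left_eq_zero (y := z₂) h0
      rw [← this]; exact hS0
    · refine ⟨?_, h0⟩
      have := v.map_add_of_right_eq_zero (x := z₁) h0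
      rw [← this]; exact hS0
  have hgpos : 0 < g := zero_lt_iff.mpr hg
  rw [map_mul] at hP
  have key : ∀ {u w : F}, v (u + w) ≤ g → v u * v w = g ^ 2 → ¬ g < v u := by
    intro u w hS hP hu
    have hw : v w < g := by
      by_contra hw
      push Not at hw
      have : g ^ 2 < v u * v w := by
        rw [pow_two]
        exact mul_lt_mul hu hw hgpos zero_le
      rw [hP] at this
      exact lt_irrefl _ this
    have : v (u + w) = v u := v.map_add_eq_of_lt_left (lt_trans hw hu)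
    rw [this] at hS
    exact not_lt.mpr hS hu
  have h1 : v z₁ ≤ g := not_lt.mp (key hS hP)
  have h2 : v z₂ ≤ g := not_lt.mp (key (by rwa [add_comm]) (by rwa [mul_comm]))
  have h1' : g ≤ v z₁ := by
    by_contra h
    push Not at h
    have : v z₁ * v z₂ < g ^ 2 := by
      rw [pow_two]
      calc v z₁ * v z₂ ≤ v z₁ * g := mul_le_mul' le_rfl h2
        _ < g * g := mul_lt_mul_of_pos_right h hgpos
    rw [hP] at this
    exact lt_irrefl _ this
  have h2' : g ≤ v z₂ := by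
    by_contra h
    push Not at h
    have : v z₁ * v z₂ < g ^ 2 := by
      rw [pow_two]
      calc v z₁ * v z₂ ≤ g * v z₂ := mul_le_mul' h1 le_rfl
        _ < g * g := mul_lt_mul_of_pos_left h hgpos
    rw [hP] at this
    exact lt_irrefl _ this
  exact ⟨le_antisymm h1 h1', le_antisymm h2 h2'⟩

end roots

end Fermat.Agent.S05
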