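import Mathlib

/-!
# S05 library (unsigned route, part 2): the abstract "Kummer homomorphism" lemma

If `f : G → H` (abelian groups) satisfies `f 0 = 1` and, for a fixed `P` and all `R`,
`{f (R+P), f (R-P)} = {f R * f P, f R / f P}` up to inversion of each entry, then
`f (k • P) = (f P) ^ k` up to inversion.  In particular `p • P = 0 ⟹ (f P) ^ p = 1`.
-/

set_option autoImplicit false

namespace Fermat.Agent.S05

/-- equality up to inversion -/
def USim {H : Type*} [CommGroup H] (a b : H) : Prop := a = b ∨ a = b⁻¹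

namespace USim

variable {H : Type*} [CommGroup H]

lemma refl (a : H) : USim a a := Or.inl rfl

lemma symm {a b : H} (h : USim a b) : USim b a := by
  rcases h with rfl | rfl
  · exact Or.inl rfl
  · exact Or.inr (inv_inv b).symm

lemma trans {a b c : H} (h₁ : USim a b) (h₂ : USim b c) : USim a c := by
  rcases h₁ with rfl | rfl <;> rcases h₂ with rfl | rfl
  · exact Or.inl rfl
  · exact Or.inr rfl
  · exact Or.inr rfl
  · exact Or.inl (inv_inv c)

lemma inv_right {a b : H} (h : USim a b) : USim a b⁻¹ := by
  rcases h with rfl | rfl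
  · exact Or.inr (inv_inv a).symm
  · exact Or.inl rfl

lemma eq_one {a : H} (h : USim 1 a) : a = 1 := by
  rcases h with h | h
  · exact h.symm
  · exact inv_eq_one.mp h.symm

end USim

/-- **Abstract Kummer-homomorphism lemma.** -/
theorem un_kh_pow {G H : Type*} [AddCommGroup G] [CommGroup H] (f : G → H) (P : G)
    (h0 : f 0 = 1)
    (hP : ∀ R : G,
      (USim (f (R + P)) (f R * f P) ∧ USim (f (R - P)) (f R / f P)) ∨
      (USim (f (R + P)) (f R / f P) ∧ USim (f (R - P)) (f R * f P))) :
    ∀ k : ℕ, USim (f (k • P)) (f P ^ k) := by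
  have main : ∀ k : ℕ, USim (f (k • P)) (f P ^ k) ∧ USim (f ((k + 1) • P)) (f P ^ (k + 1)) := by
    intro k
    induction k with
    | zero =>
      refine ⟨?_, ?_⟩
      · rw [zero_smul, pow_zero, h0]; exact USim.refl 1
      · rw [zero_add, one_smul, pow_one]; exact USim.refl _
    | succ k ih =>
      obtain ⟨ih0, ih1⟩ := ih
      refine ⟨ih1, ?_⟩
      set h := f P with hh
      have e1 : (k + 1) • P + P = (k + 1 + 1) • P := by rw [add_smul (k + 1) 1 P, one_smul]
      have e2 : (k + 1) • P - P = k • P := by rw [add_smul k 1 P, one_smul]; abel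
      have key := hP ((k + 1) • P)
      rw [e1, e2] at key
      -- two possible values of `f ((k+1)P)`
      rcases ih1 with hg | hg
      · -- g = h^(k+1)
        rw [hg] at key
        have m1 : h ^ (k + 1) * h = h ^ (k + 1 + 1) := (pow_succ h (k + 1)).symm
        have m2 : h ^ (k + 1) / h = h ^ k := by rw [pow_succ, mul_div_cancel_right]
        rw [m1, m2] at key
        rcases key with ⟨ka, -⟩ | ⟨ka, kb⟩
        · exact ka
        · -- f((k+2)P) ~ h^k and f(kP) ~ h^(k+2); with ih0 : f(kP) ~ h^k
          exact ka.trans (ih0.symm.trans kb)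
      · -- g = (h^(k+1))⁻¹
        rw [hg] at key
        have m1 : (h ^ (k + 1))⁻¹ * h = (h ^ k)⁻¹ := by
          rw [pow_succ, mul_inv, mul_assoc, inv_mul_cancel, mul_one]
        have m2 : (h ^ (k + 1))⁻¹ / h = (h ^ (k + 1 + 1))⁻¹ := by
          rw [pow_succ h (k + 1), mul_inv, div_eq_mul_inv]
        rw [m1, m2] at key
        rcases key with ⟨ka, kb⟩ | ⟨ka, -⟩
        · -- f((k+2)P) ~ (h^k)⁻¹, f(kP) ~ (h^(k+2))⁻¹
          have ka' : USim (f ((k + 1 + 1) • P)) (h ^ k) := by
            have := ka.inv_right; rwa [inv_inv] at this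
          have kb' : USim (f (k • P)) (h ^ (k + 1 + 1)) := by
            have := kb.inv_right; rwa [inv_inv] at this
          exact ka'.trans (ih0.symm.trans kb')
        · have := ka.inv_right; rwa [inv_inv] at this
  exact fun k => (main k).1

/-- Consequence for torsion points. -/
theorem un_kh_torsion {G H : Type*} [AddCommGroup G] [CommGroup H] (f : G → H) (P : G)
    (h0 : f 0 = 1)
    (hP : ∀ R : G,
      (USim (f (R + P)) (f R * f P) ∧ USim (f (R - P)) (f R / f P)) ∨
      (USim (f (R + P)) (f R / f P) ∧ USim (f (R - P)) (f R * f P)))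
    {p : ℕ} (hp : p • P = 0) : f P ^ p = 1 := by
  have := un_kh_pow f P h0 hP p
  rw [hp, h0] at this
  exact this.eq_one

end Fermat.Agent.S05
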