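import Mathlib
import Fermat.Agent.S05.UnCentered
import Fermat.Agent.S05.UnKH

/-!
# S05 library (unsigned route, part 3): the glue — `(M1)` from the leaves

`un_M1_of_leaves`: given the four pure-valuation leaves (hypothesis-shaped), a torsion point in
the annulus `β < v ξ < 1` satisfies `v ξ ^ p = β ^ (2 m)` for some `m : ℤ`.
-/

set_option autoImplicit false

namespace Fermat.Agent.S05

open WeierstrassCurve WeierstrassCurve.Affine

section

variable {Γ₀ : Type*} [LinearOrderedCommGroupWithZero Γ₀]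

/-- clamp to `[β, 1]` -/
def unClamp (β g : Γ₀) : Γ₀ := max β (min 1 g)

lemma unClamp_ge (β g : Γ₀) : β ≤ unClamp β g := le_max_left _ _

lemma unClamp_le {β : Γ₀} (hβ : β ≤ 1) (g : Γ₀) : unClamp β g ≤ 1 :=
  max_le hβ (min_le_left _ _)

lemma unClamp_ne_zero {β : Γ₀} (hβ : β ≠ 0) (g : Γ₀) : unClamp β g ≠ 0 :=
  ne_of_gt (lt_of_lt_of_le (zero_lt_iff.mpr hβ) (unClamp_ge β g))

lemma unClamp_of_mem {β g : Γ₀} (h1 : β ≤ g) (h2 : g ≤ 1) : unClamp β g = g := by
  rw [unClamp, min_eq_right h2, max_eq_right h1]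

lemma unClamp_of_ge {β g : Γ₀} (hβ : β ≤ 1) (h : 1 ≤ g) : unClamp β g = 1 := by
  rw [unClamp, min_eq_left h, max_eq_right hβ]

lemma unClamp_of_le {β g : Γ₀} (hβ : β ≤ 1) (h : g ≤ β) : unClamp β g = β := by
  rw [unClamp, min_eq_right (h.trans hβ), max_eq_left h]

end

section

variable {K : Type*} [Field K] {Γ₀ : Type*} [LinearOrderedCommGroupWithZero Γ₀]
  (v : Valuation K Γ₀) {W : Affine K} (e b : K)

/-- the unsigned component function -/
def unMu : W.Point → Γ₀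
  | .zero => 1
  | .some x _ _ => unClamp (v b) (v (x - e))

@[simp] lemma unMu_zero : unMu v e b (0 : W.Point) = 1 := rfl

@[simp] lemma unMu_some {x y : K} (h : W.Nonsingular x y) :
    unMu v e b (Point.some x y h) = unClamp (v b) (v (x - e)) := rfl

lemma unMu_neg (P : W.Point) : unMu v e b (-P) = unMu v e b P := by
  cases P <;> rfl

variable {e b}

lemma unMu_ne_zero (hb0 : b ≠ 0) (P : W.Point) : unMu v e b P ≠ 0 := by
  cases P with
  | zero => exact one_ne_zero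
  | some x y h => exact unClamp_ne_zero ((Valuation.ne_zero_iff v).mpr hb0) _

end

/-! ### The class group `Γ₀ˣ ⧸ ⟨β²⟩` -/

section

variable {Γ₀ : Type*} [LinearOrderedCommGroupWithZero Γ₀]

/-- `β²` as a unit (junk `1` if `β = 0`). -/
noncomputable def unSq (β : Γ₀) : Γ₀ˣ :=
  if h : β = 0 then 1 else Units.mk0 (β ^ 2) (pow_ne_zero 2 h)

/-- the class group -/
abbrev unH (β : Γ₀) : Type _ := Γ₀ˣ ⧸ Subgroup.zpowers (unSq β)

/-- class of a (nonzero) element of the value group -/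
noncomputable def unCl (β g : Γ₀) : unH β :=
  if h : g = 0 then 1 else QuotientGroup.mk (Units.mk0 g h)

lemma unCl_of_ne {β g : Γ₀} (h : g ≠ 0) :
    unCl β g = QuotientGroup.mk (Units.mk0 g h) := dif_neg h

lemma unCl_one (β : Γ₀) : unCl β 1 = 1 := by
  rw [unCl_of_ne one_ne_zero]
  have : Units.mk0 (1 : Γ₀) one_ne_zero = 1 := by ext; rfl
  rw [this]; rfl

lemma unCl_mul {β g g' : Γ₀} (h : g ≠ 0) (h' : g' ≠ 0) :
    unCl β (g * g') = unCl β g * unCl β g' := by
  rw [unCl_of_ne h, unCl_of_ne h', unCl_of_ne (mul_ne_zero h h'), ← QuotientGroup.mk_mul]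
  congr 1
  ext; rfl

lemma unCl_inv {β g : Γ₀} (h : g ≠ 0) : unCl β g⁻¹ = (unCl β g)⁻¹ := by
  have h1 := unCl_mul (β := β) h (inv_ne_zero h)
  rw [mul_inv_cancel₀ h, unCl_one] at h1
  exact eq_inv_of_mul_eq_one_right h1.symm

lemma unCl_div {β g g' : Γ₀} (h : g ≠ 0) (h' : g' ≠ 0) :
    unCl β (g / g') = unCl β g / unCl β g' := by
  rw [div_eq_mul_inv, unCl_mul h (inv_ne_zero h'), unCl_inv h', div_eq_mul_inv]

lemma unCl_pow {β g : Γ₀} (h : g ≠ 0) (n : ℕ) : unCl β (g ^ n) = unCl β g ^ n := by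
  induction n with
  | zero => rw [pow_zero, pow_zero, unCl_one]
  | succ n ih => rw [pow_succ, pow_succ, unCl_mul (pow_ne_zero n h) h, ih]

lemma unCl_sq {β : Γ₀} (hβ : β ≠ 0) : unCl β (β ^ 2) = 1 := by
  rw [unCl_of_ne (pow_ne_zero 2 hβ)]
  rw [QuotientGroup.eq_one_iff]
  have : unSq β = Units.mk0 (β ^ 2) (pow_ne_zero 2 hβ) := dif_neg hβ
  rw [this]
  exact Subgroup.mem_zpowers _

lemma unCl_eq_one {β g : Γ₀} (hβ : β ≠ 0) (h : g ≠ 0) (h1 : unCl β g = 1) :
    ∃ m : ℤ, g = β ^ (2 * m) := by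
  rw [unCl_of_ne h, QuotientGroup.eq_one_iff] at h1
  obtain ⟨m, hm⟩ := Subgroup.mem_zpowers_iff.mp h1
  refine ⟨m, ?_⟩
  have hsq : unSq β = Units.mk0 (β ^ 2) (pow_ne_zero 2 hβ) := dif_neg hβ
  rw [hsq] at hm
  have := congrArg (fun u : Γ₀ˣ => (u : Γ₀)) hm
  simp only [Units.val_zpow_eq_zpow_val, Units.val_mk0] at this
  rw [← this, zpow_mul, zpow_ofNat]

/-- `β` itself has order dividing two in the class group. -/
lemma unCl_self_mul_self {β : Γ₀} (hβ : β ≠ 0) : unCl β β * unCl β β = 1 := by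
  rw [← unCl_mul hβ hβ, ← pow_two, unCl_sq hβ]

end

/-! ### The glue -/

section glue

variable {K : Type*} [Field K] {Γ₀ : Type*} [LinearOrderedCommGroupWithZero Γ₀]
  (v : Valuation K Γ₀) {W : Affine K} {e a b : K}

/-- the class function `f P = [μ(P)]` -/
noncomputable def unF (e b : K) (P : W.Point) : unH (v b) := unCl (v b) (unMu v e b P)

lemma unF_zero : unF v e b (0 : W.Point) = 1 := by
  rw [unF, unMu_zero, unCl_one]

lemma unF_neg (P : W.Point) : unF v e b (-P) = unF v e b P := by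
  rw [unF, unF, unMu_neg]

variable {v}

lemma unF_of_val (hb : v b < 1) {x' y' : K} (h' : W.Nonsingular x' y') {g : Γ₀}
    (hg1 : v b ≤ g) (hg2 : g ≤ 1) (hv : v (x' - e) = g) :
    unF v e b (Point.some x' y' h') = unCl (v b) g := by
  rw [unF, unMu_some, hv, unClamp_of_mem hg1 hg2]

lemma unF_of_ge (hb : v b < 1) {x' y' : K} (h' : W.Nonsingular x' y')
    (hv : 1 ≤ v (x' - e)) : unF v e b (Point.some x' y' h') = 1 := by
  rw [unF, unMu_some, unClamp_of_ge hb.le hv, unCl_one]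

lemma unF_of_le (hb : v b < 1) {x' y' : K} (h' : W.Nonsingular x' y')
    (hv : v (x' - e) ≤ v b) : unF v e b (Point.some x' y' h') = unCl (v b) (v b) := by
  rw [unF, unMu_some, unClamp_of_le hb.le hv]

/-- class of a "product-type" root -/
lemma un_prod_class (hb : v b < 1) (hb0 : b ≠ 0) {w u : Γ₀} (hw : v b < w) (hw1 : w < 1)
    (hu : v b < u) (hu1 : u < 1) {x' y' : K} (h' : W.Nonsingular x' y')
    (c1 : v b < w * u → v (x' - e) = w * u)
    (c2 : w * u < v b → v (x' - e) * (w * u) = v b ^ 2)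
    (c3 : w * u = v b → v (x' - e) ≤ v b) :
    USim (unF v e b (Point.some x' y' h')) (unCl (v b) w * unCl (v b) u) := by
  have hβ0 : v b ≠ 0 := (Valuation.ne_zero_iff v).mpr hb0
  have hβpos : 0 < v b := zero_lt_iff.mpr hβ0
  have hw0 : w ≠ 0 := ne_of_gt (lt_trans hβpos hw)
  have hu0 : u ≠ 0 := ne_of_gt (lt_trans hβpos hu)
  have hwu0 : w * u ≠ 0 := mul_ne_zero hw0 hu0
  have hwupos : 0 < w * u := zero_lt_iff.mpr hwu0
  have hwu1 : w * u ≤ 1 := by
    calc w * u ≤ 1 * 1 := mul_le_mul' hw1.le hu1.le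
      _ = 1 := one_mul 1
  rw [← unCl_mul hw0 hu0]
  rcases lt_trichotomy (v b) (w * u) with hlt | heq | hgt
  · left
    exact unF_of_val hb h' hlt.le hwu1 (c1 hlt)
  · left
    rw [unF_of_le hb h' (c3 heq.symm), heq]
  · right
    have hz := c2 hgt
    have hval : v (x' - e) = v b ^ 2 / (w * u) := by
      rw [eq_div_iff hwu0]; exact hz
    have h1 : v b ≤ v b ^ 2 / (w * u) := by
      rw [le_div_iff₀ hwupos, pow_two]
      exact mul_le_mul' le_rfl hgt.le
    have h2 : v b ^ 2 / (w * u) ≤ 1 := by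
      rw [div_le_iff₀ hwupos, one_mul, pow_two]
      exact mul_le_mul' hw.le hu.le
    rw [unF_of_val hb h' h1 h2 hval, unCl_div (pow_ne_zero 2 hβ0) hwu0, unCl_sq hβ0, one_div]

/-- class of a "ratio-type" root -/
lemma un_ratio_class (hb : v b < 1) (hb0 : b ≠ 0) {w u d : Γ₀} (hw : v b < w) (hw1 : w < 1)
    (hu : v b < u) (hu1 : u < 1) (hd : d ≤ max w u) (hd' : w ≠ u → d = max w u) (hd0 : d ≠ 0)
    {x' y' : K} (h' : W.Nonsingular x' y') (hz : v (x' - e) * d ^ 2 = w * u) :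
    USim (unF v e b (Point.some x' y' h')) (unCl (v b) w / unCl (v b) u) := by
  have hβ0 : v b ≠ 0 := (Valuation.ne_zero_iff v).mpr hb0
  have hβpos : 0 < v b := zero_lt_iff.mpr hβ0
  have hw0 : w ≠ 0 := ne_of_gt (lt_trans hβpos hw)
  have hu0 : u ≠ 0 := ne_of_gt (lt_trans hβpos hu)
  have hwpos : 0 < w := zero_lt_iff.mpr hw0
  have hupos : 0 < u := zero_lt_iff.mpr hu0
  rcases lt_trichotomy w u with hlt | heq | hgt
  · -- d = u, value w / u
    have hdu : d = u := by rw [hd' hlt.ne, max_eq_right hlt.le]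
    rw [hdu, pow_two] at hz
    have hval : v (x' - e) = w / u := by
      rw [eq_div_iff hu0]
      have : v (x' - e) * u * u = w * u := by rw [mul_assoc]; exact hz
      exact mul_right_cancel₀ hu0 this
    have h1 : v b ≤ w / u := by
      rw [le_div_iff₀ hupos]
      calc v b * u ≤ v b * 1 := mul_le_mul' le_rfl hu1.le
        _ = v b := mul_one _
        _ ≤ w := hw.le
    have h2 : w / u ≤ 1 := by
      rw [div_le_iff₀ hupos, one_mul]; exact hlt.le
    left
    rw [unF_of_val hb h' h1 h2 hval, unCl_div hw0 hu0]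
  · -- w = u, d ≤ u, value ≥ 1
    subst heq
    rw [max_self] at hd
    have hdpos : 0 < d := zero_lt_iff.mpr hd0
    have hge : 1 ≤ v (x' - e) := by
      by_contra hlt
      push Not at hlt
      have : v (x' - e) * d ^ 2 < w * w := by
        rw [pow_two]
        calc v (x' - e) * (d * d) < 1 * (d * d) :=
              mul_lt_mul_of_pos_right hlt (mul_pos hdpos hdpos)
          _ = d * d := one_mul _
          _ ≤ w * w := mul_le_mul' hd hd
      rw [hz] at this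
      exact lt_irrefl _ this
    left
    rw [unF_of_ge hb h' hge, div_self']
  · -- d = w, value u / w
    have hdw : d = w := by rw [hd' hgt.ne', max_eq_left hgt.le]
    rw [hdw, pow_two] at hz
    have hval : v (x' - e) = u / w := by
      rw [eq_div_iff hw0]
      have : v (x' - e) * w * w = u * w := by rw [mul_assoc, hz, mul_comm]
      exact mul_right_cancel₀ hw0 this
    have h1 : v b ≤ u / w := by
      rw [le_div_iff₀ hwpos]
      calc v b * w ≤ v b * 1 := mul_le_mul' le_rfl hw1.le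
        _ = v b := mul_one _
        _ ≤ u := hu.le
    have h2 : u / w ≤ 1 := by
      rw [div_le_iff₀ hwpos, one_mul]; exact hgt.le
    right
    rw [unF_of_val hb h' h1 h2 hval, unCl_div hu0 hw0, inv_div]

/-- nonvanishing of the duplication denominator in the annulus -/
lemma un_den_ne_zero (h2 : v 2 = 1) (ha : v a = 1) {ξ : K} (hl : v b < v ξ) (hu : v ξ < 1) :
    4 * ξ * (ξ ^ 2 + a * ξ + b) ≠ 0 := by
  have h20 : (2 : K) ≠ 0 := by
    intro h0; rw [h0, map_zero] at h2; exact zero_ne_one h2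
  have h4 : (4 : K) ≠ 0 := by
    have : (4 : K) = 2 * 2 := by norm_num
    rw [this]; exact mul_ne_zero h20 h20
  have hξ0 : ξ ≠ 0 := by
    intro hx0; rw [hx0, map_zero] at hl; exact not_lt.mpr zero_le hl
  have hvξ : 0 < v ξ := zero_lt_iff.mpr ((Valuation.ne_zero_iff v).mpr hξ0)
  have h1 : v (a * ξ) = v ξ := by rw [map_mul, ha, one_mul]
  have h3 : v (ξ ^ 2) < v (a * ξ) := by
    rw [h1, map_pow, pow_two]
    calc v ξ * v ξ < 1 * v ξ := mul_lt_mul_of_pos_right hu hvξ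
      _ = v ξ := one_mul _
  have h5 : v (ξ ^ 2 + a * ξ) = v ξ := by
    rw [v.map_add_eq_of_lt_right h3, h1]
  have h6 : v (ξ ^ 2 + a * ξ + b) = v ξ := by
    rw [v.map_add_eq_of_lt_left (by rw [h5]; exact hl), h5]
  have h7 : ξ ^ 2 + a * ξ + b ≠ 0 := by
    intro h0; rw [h0, map_zero] at h6; exact hvξ.ne h6
  exact mul_ne_zero (mul_ne_zero h4 hξ0) h7

variable [DecidableEq K]

/-- **(M1) from the leaves** (unsigned route). -/
theorem un_M1_of_leaves (hN : NodeParam W e a b) (h2 : v 2 = 1) (ha : v a = 1) (hb : v b < 1)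
    (hb0 : b ≠ 0)
    (U1 : ∀ {ξ₁ ξ₂ zp zm : K},
      (zp + zm) * (ξ₁ - ξ₂) ^ 2 = 2 * ((ξ₁ * ξ₂ + b) * (ξ₁ + ξ₂) + 2 * a * (ξ₁ * ξ₂)) →
      (zp * zm) * (ξ₁ - ξ₂) ^ 2 = (ξ₁ * ξ₂ - b) ^ 2 → ξ₁ ≠ ξ₂ → v b < v ξ₂ → v ξ₂ < 1 →
      1 ≤ v ξ₁ → v zp = v ξ₂ ∧ v zm = v ξ₂)
    (U2 : ∀ {ξ₁ ξ₂ zp zm : K},
      (zp + zm) * (ξ₁ - ξ₂) ^ 2 = 2 * ((ξ₁ * ξ₂ + b) * (ξ₁ + ξ₂) + 2 * a * (ξ₁ * ξ₂)) →
      (zp * zm) * (ξ₁ - ξ₂) ^ 2 = (ξ₁ * ξ₂ - b) ^ 2 → ξ₁ ≠ ξ₂ → v b < v ξ₂ → v ξ₂ < 1 →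
      v ξ₁ ≤ v b → v zp * v ξ₂ = v b ∧ v zm * v ξ₂ = v b)
    (U3 : ∀ {ξ₁ ξ₂ zp zm : K},
      (zp + zm) * (ξ₁ - ξ₂) ^ 2 = 2 * ((ξ₁ * ξ₂ + b) * (ξ₁ + ξ₂) + 2 * a * (ξ₁ * ξ₂)) →
      (zp * zm) * (ξ₁ - ξ₂) ^ 2 = (ξ₁ * ξ₂ - b) ^ 2 → ξ₁ ≠ ξ₂ → v b < v ξ₂ → v ξ₂ < 1 →
      v b < v ξ₁ → v ξ₁ < 1 →
      ∃ z z' : K, ((z = zp ∧ z' = zm) ∨ (z = zm ∧ z' = zp)) ∧
        v z * v (ξ₁ - ξ₂) ^ 2 = v ξ₁ * v ξ₂ ∧
        (v b < v ξ₁ * v ξ₂ → v z' = v ξ₁ * v ξ₂) ∧
        (v ξ₁ * v ξ₂ < v b → v z' * (v ξ₁ * v ξ₂) = v b ^ 2) ∧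
        (v ξ₁ * v ξ₂ = v b → v z' ≤ v b))
    (U4 : ∀ {ξ z : K}, z * (4 * ξ * (ξ ^ 2 + a * ξ + b)) = (ξ ^ 2 - b) ^ 2 → v b < v ξ → v ξ < 1 →
      (v b < v ξ ^ 2 → v z = v ξ ^ 2) ∧
        (v ξ ^ 2 < v b → v z * v ξ ^ 2 = v b ^ 2) ∧ (v ξ ^ 2 = v b → v z ≤ v b))
    {p : ℕ} {x y : K} (h : W.Nonsingular x y) (hp : p • Point.some x y h = 0)
    (hl : v b < v (x - e)) (hu : v (x - e) < 1) :
    ∃ m : ℤ, v (x - e) ^ p = v b ^ (2 * m) := by
  have h20 : (2 : K) ≠ 0 := by
    intro h0; rw [h0, map_zero] at h2; exact zero_ne_one h2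
  have hβ0 : v b ≠ 0 := (Valuation.ne_zero_iff v).mpr hb0
  have hβpos : 0 < v b := zero_lt_iff.mpr hβ0
  set u := v (x - e) with hu_def
  have hu0 : u ≠ 0 := ne_of_gt (lt_trans hβpos hl)
  have hfP : unF v e b (Point.some x y h) = unCl (v b) u := unF_of_val hb h hl.le hu.le rfl
  -- class of `2 • P`
  have hdbl : USim (unF v e b ((2 : ℕ) • Point.some x y h))
      (unCl (v b) u * unCl (v b) u) := by
    have hpsi : psi2Sq W x ≠ 0 := by
      rw [hN.un_psi2Sq]; exact un_den_ne_zero h2 ha hl hu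
    obtain ⟨x', y', h', h2P, hz⟩ := hN.un_two_nsmul h20 h hpsi
    obtain ⟨d1, d2, d3⟩ := U4 hz hl hu
    rw [h2P]
    refine un_prod_class hb hb0 hl hu hl hu h' ?_ ?_ ?_
    · intro hh; rw [← pow_two] at hh ⊢; exact d1 hh
    · intro hh; rw [← pow_two] at hh ⊢; exact d2 hh
    · intro hh; rw [← pow_two] at hh; exact d3 hh
  -- the Kummer property
  have hprop : ∀ R : W.Point,
      (USim (unF v e b (R + Point.some x y h)) (unF v e b R * unF v e b (Point.some x y h)) ∧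
        USim (unF v e b (R - Point.some x y h))
          (unF v e b R / unF v e b (Point.some x y h))) ∨
      (USim (unF v e b (R + Point.some x y h)) (unF v e b R / unF v e b (Point.some x y h)) ∧
        USim (unF v e b (R - Point.some x y h))
          (unF v e b R * unF v e b (Point.some x y h))) := by
    intro R
    rw [hfP]
    rcases R with _ | ⟨x₁, y₁, h₁⟩
    · -- R = 0
      left
      change USim (unF v e b (0 + Point.some x y h)) (unF v e b 0 * _) ∧
        USim (unF v e b (0 - Point.some x y h)) (unF v e b 0 / _)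
      rw [zero_add, zero_sub, unF_neg, hfP, unF_zero, one_mul, one_div]
      exact ⟨USim.refl _, (USim.refl _).inv_right⟩
    by_cases hx : x₁ = x
    · rcases (Point.X_eq_iff (h₁ := h₁) (h₂ := h)).mp hx with hRP | hRP
      · -- R = P
        left
        rw [hRP, sub_self, unF_zero, hfP, div_self', ← two_nsmul]
        exact ⟨hdbl, USim.refl _⟩
      · -- R = -P
        right
        rw [hRP, neg_add_cancel, unF_zero, unF_neg, hfP, div_self']
        refine ⟨USim.refl _, ?_⟩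
        have : -Point.some x y h - Point.some x y h = -((2 : ℕ) • Point.some x y h) := by
          rw [two_nsmul]; abel
        rw [this, unF_neg]
        exact hdbl
    · -- x₁ ≠ x
      obtain ⟨xp, yp, hpp, xm, ym, hmm, hadd, hsub, hS, hP⟩ := hN.un_add_sub h20 h₁ h hx
      have hne : x₁ - e ≠ x - e := fun hh => hx (sub_left_injective hh)
      rw [hadd, hsub]
      rcases le_or_gt 1 (v (x₁ - e)) with hw1 | hw1
      · -- R ∈ E₀
        obtain ⟨e1, e2⟩ := U1 hS hP hne hl hu hw1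
        left
        rw [unF_of_ge hb h₁ hw1, one_mul, one_div,
          unF_of_val hb hpp hl.le hu.le e1, unF_of_val hb hmm hl.le hu.le e2]
        exact ⟨USim.refl _, (USim.refl _).inv_right⟩
      rcases lt_or_ge (v b) (v (x₁ - e)) with hw2 | hw2
      · -- R in the annulus
        obtain ⟨z, z', hzz, hz, c1, c2, c3⟩ := U3 hS hP hne hl hu hw2 hw1
        have hfR : unF v e b (Point.some x₁ y₁ h₁) = unCl (v b) (v (x₁ - e)) :=
          unF_of_val hb h₁ hw2.le hw1.le rfl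
        rw [hfR]
        have hdne : v ((x₁ - e) - (x - e)) ≠ 0 :=
          (Valuation.ne_zero_iff v).mpr (sub_ne_zero.mpr hne)
        have hd : v ((x₁ - e) - (x - e)) ≤ max (v (x₁ - e)) (v (x - e)) := v.map_sub _ _
        have hd' : v (x₁ - e) ≠ v (x - e) →
            v ((x₁ - e) - (x - e)) = max (v (x₁ - e)) (v (x - e)) := by
          intro hne'
          rcases lt_or_gt_of_ne hne' with hlt | hgt
          · rw [v.map_sub_eq_of_lt_right hlt, max_eq_right hlt.le]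
          · rw [v.map_sub_eq_of_lt_left hgt, max_eq_left hgt.le]
        rcases hzz with ⟨rfl, rfl⟩ | ⟨rfl, rfl⟩
        · right
          exact ⟨un_ratio_class hb hb0 hw2 hw1 hl hu hd hd' hdne hpp hz,
            un_prod_class hb hb0 hw2 hw1 hl hu hmm c1 c2 c3⟩
        · left
          exact ⟨un_prod_class hb hb0 hw2 hw1 hl hu hpp c1 c2 c3,
            un_ratio_class hb hb0 hw2 hw1 hl hu hd hd' hdne hmm hz⟩
      · -- R in the middle
        obtain ⟨e1, e2⟩ := U2 hS hP hne hl hu hw2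
        have hupos : 0 < u := zero_lt_iff.mpr hu0
        have hval : ∀ {t : K}, v t * u = v b → v t = v b / u := fun ht => by
          rw [eq_div_iff hu0]; exact ht
        have h1 : v b ≤ v b / u := by
          rw [le_div_iff₀ hupos]
          calc v b * u ≤ v b * 1 := mul_le_mul' le_rfl hu.le
            _ = v b := mul_one _
        have h2' : v b / u ≤ 1 := by
          rw [div_le_iff₀ hupos, one_mul]; exact hl.le
        left
        rw [unF_of_le hb h₁ hw2, unF_of_val hb hpp h1 h2' (hval e1),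
          unF_of_val hb hmm h1 h2' (hval e2), unCl_div hβ0 hu0]
        refine ⟨Or.inr ?_, USim.refl _⟩
        -- t / h = (t * h)⁻¹ since t * t = 1
        have ht := unCl_self_mul_self (β := v b) hβ0
        rw [mul_inv, div_eq_mul_inv]
        congr 1
        exact eq_inv_of_mul_eq_one_left ht
  have hfin := un_kh_torsion (unF v e b) (Point.some x y h) (unF_zero v) hprop hp
  rw [hfP, ← unCl_pow hu0] at hfin
  exact unCl_eq_one hβ0 (pow_ne_zero p hu0) hfin

end glue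

end Fermat.Agent.S05
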