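import Mathlib
import Fermat.Agent.S05.UnM1
import Fermat.Agent.S05.UnLeafA
import Fermat.Agent.S05.UnLeafB

/-!
# S05 library (unsigned route, part 4): `(M1)` unconditionally

`un_M1`: for a nodal parametrisation `NodeParam W e a b` with `v 2 = 1`, `v a = 1`, `v b < 1`,
`b ≠ 0`, a `p`-torsion point in the annulus `v b < v (x - e) < 1` satisfies
`v (x - e) ^ p = v b ^ (2 m)` for some `m : ℤ`.
-/

set_option autoImplicit false

namespace Fermat.Agent.S05

open WeierstrassCurve WeierstrassCurve.Affine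

variable {K : Type*} [Field K] [DecidableEq K] {Γ₀ : Type*} [LinearOrderedCommGroupWithZero Γ₀]
  (v : Valuation K Γ₀) {W : Affine K} {e a b : K}

/-- **(M1)**, unsigned route. -/
theorem un_M1 (hN : NodeParam W e a b) (h2 : v 2 = 1) (ha : v a = 1) (hb : v b < 1)
    (hb0 : b ≠ 0) {p : ℕ} {x y : K} (h : W.Nonsingular x y) (hp : p • Point.some x y h = 0)
    (hl : v b < v (x - e)) (hu : v (x - e) < 1) :
    ∃ m : ℤ, v (x - e) ^ p = v b ^ (2 * m) :=
  un_M1_of_leaves (v := v) hN h2 ha hb hb0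
    (fun hS hP hne h2l h2u h1 => ul_E0 v h2 ha hb hb0 hS hP hne h2l h2u h1)
    (fun hS hP hne h2l h2u h1 => ul_M v h2 ha hb hb0 hS hP hne h2l h2u h1)
    (fun hS hP hne h2l h2u h1l h1u => ul_NN v h2 ha hb hb0 hS hP hne h2l h2u h1l h1u)
    (fun hz hl hu => (ul_dbl v h2 ha hb hb0 hz hl hu).2)
    h hp hl hu

end Fermat.Agent.S05
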