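import Mathlib
import Fermat.Prelude.Def_FLTPrelim_Ramification

/-!
# S05: unfolding the inertia subgroup of a valuation subring

For `σ ∈ A.inertiaSubgroupIn K`: `σ` preserves `A`, preserves the valuation, and
`σ x - x` lies in the maximal ideal for every `x ∈ A`.
-/

set_option autoImplicit false

namespace Fermat.Agent.S05

open ValuationSubring Polynomial

variable {K L : Type*} [Field K] [Field L] [Algebra K L] (A : ValuationSubring L)

lemma inertia_exists {σ : L ≃ₐ[K] L} (hσ : σ ∈ A.inertiaSubgroupIn K) :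
    ∃ τ : A.decompositionSubgroup K, τ ∈ A.inertiaSubgroup K ∧ (τ : L ≃ₐ[K] L) = σ := by
  unfold ValuationSubring.inertiaSubgroupIn at hσ
  rw [Subgroup.mem_map] at hσ
  obtain ⟨τ, hτ, hτσ⟩ := hσ
  exact ⟨τ, hτ, hτσ⟩

lemma inertia_inv_mem {σ : L ≃ₐ[K] L} (hσ : σ ∈ A.inertiaSubgroupIn K) :
    σ⁻¹ ∈ A.inertiaSubgroupIn K := Subgroup.inv_mem _ hσ

lemma inertia_apply_mem {σ : L ≃ₐ[K] L} (hσ : σ ∈ A.inertiaSubgroupIn K) {x : L} (hx : x ∈ A) :
    σ x ∈ A := by
  obtain ⟨τ, -, rfl⟩ := inertia_exists A hσ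
  exact ((⟨τ, τ.2⟩ : A.decompositionSubgroup K) • (⟨x, hx⟩ : A)).2

lemma inertia_apply_mem_iff {σ : L ≃ₐ[K] L} (hσ : σ ∈ A.inertiaSubgroupIn K) (x : L) :
    σ x ∈ A ↔ x ∈ A := by
  refine ⟨fun h => ?_, fun h => inertia_apply_mem A hσ h⟩
  have := inertia_apply_mem A (inertia_inv_mem A hσ) h
  simpa using this

lemma inertia_valuation_le_one_iff {σ : L ≃ₐ[K] L} (hσ : σ ∈ A.inertiaSubgroupIn K) (x : L) :
    A.valuation (σ x) ≤ 1 ↔ A.valuation x ≤ 1 := by
  rw [A.valuation_le_one_iff, A.valuation_le_one_iff]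
  exact inertia_apply_mem_iff A hσ x

/-- an element of the inertia group preserves the valuation. -/
lemma inertia_valuation_le_iff {σ : L ≃ₐ[K] L} (hσ : σ ∈ A.inertiaSubgroupIn K) (x y : L) :
    A.valuation (σ x) ≤ A.valuation (σ y) ↔ A.valuation x ≤ A.valuation y := by
  by_cases hy : y = 0
  · subst hy
    simp
  have hσy : σ y ≠ 0 := by simpa using hy
  have h1 : A.valuation (σ x) ≤ A.valuation (σ y) ↔ A.valuation (σ (x / y)) ≤ 1 := by
    rw [map_div₀ σ, map_div₀ A.valuation, div_le_one₀ ((Valuation.pos_iff _).mpr hσy)]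
  have h2 : A.valuation x ≤ A.valuation y ↔ A.valuation (x / y) ≤ 1 := by
    rw [map_div₀ A.valuation, div_le_one₀ ((Valuation.pos_iff _).mpr hy)]
  rw [h1, h2]
  exact inertia_valuation_le_one_iff A hσ _

lemma inertia_valuation_lt_iff {σ : L ≃ₐ[K] L} (hσ : σ ∈ A.inertiaSubgroupIn K) (x y : L) :
    A.valuation (σ x) < A.valuation (σ y) ↔ A.valuation x < A.valuation y := by
  rw [← not_le, ← not_le, inertia_valuation_le_iff A hσ]

lemma inertia_valuation_lt_one_iff {σ : L ≃ₐ[K] L} (hσ : σ ∈ A.inertiaSubgroupIn K) (x : L) :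
    A.valuation (σ x) < 1 ↔ A.valuation x < 1 := by
  have := inertia_valuation_lt_iff A hσ x 1
  simpa using this

lemma inertia_valuation_eq_one_iff {σ : L ≃ₐ[K] L} (hσ : σ ∈ A.inertiaSubgroupIn K) (x : L) :
    A.valuation (σ x) = 1 ↔ A.valuation x = 1 := by
  rw [le_antisymm_iff, le_antisymm_iff]
  have h1 := inertia_valuation_le_iff A hσ x 1
  have h2 := inertia_valuation_le_iff A hσ 1 x
  simp only [map_one] at h1 h2
  rw [h1, h2]

/-- the defining property of inertia: `σ x ≡ x` modulo the maximal ideal, for `x ∈ A`. -/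
lemma inertia_sub_lt_one {σ : L ≃ₐ[K] L} (hσ : σ ∈ A.inertiaSubgroupIn K) {x : L} (hx : x ∈ A) :
    A.valuation (σ x - x) < 1 := by
  obtain ⟨τ, hτ, rfl⟩ := inertia_exists A hσ
  have hker : MulSemiringAction.toRingAut (A.decompositionSubgroup K)
      (IsLocalRing.ResidueField A) τ = 1 := hτ
  have h1 : τ • IsLocalRing.residue A ⟨x, hx⟩ = IsLocalRing.residue A ⟨x, hx⟩ := by
    have := congrArg (fun e : RingAut (IsLocalRing.ResidueField A) =>
      e (IsLocalRing.residue A ⟨x, hx⟩)) hker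
    simpa using this
  rw [← IsLocalRing.ResidueField.residue_smul] at h1
  have h2 : IsLocalRing.residue A (τ • (⟨x, hx⟩ : A) - ⟨x, hx⟩) = 0 := by
    rw [map_sub, h1, sub_self]
  rw [IsLocalRing.residue_eq_zero_iff] at h2
  have h3 := (A.valuation_lt_one_iff _).mp h2
  exact h3

/-- multiplicative form: `σ x / x ≡ 1` for units `x` of `A`. -/
lemma inertia_div_sub_one_lt_one {σ : L ≃ₐ[K] L} (hσ : σ ∈ A.inertiaSubgroupIn K) {x : L}
    (hx : A.valuation x = 1) : A.valuation (σ x / x - 1) < 1 := by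
  have hx0 : x ≠ 0 := by
    rintro rfl
    simp at hx
  have hxA : x ∈ A := (A.valuation_le_one_iff x).mp hx.le
  have h1 := inertia_sub_lt_one A hσ hxA
  have : σ x / x - 1 = (σ x - x) / x := by field_simp
  rw [this, map_div₀, hx, div_one]
  exact h1

/-- the value group of an algebraic extension is torsion over the value group of the base. -/
theorem exists_pow_valuation_eq_of_isAlgebraic {K L Γ₀ : Type*} [Field K] [Field L] [Algebra K L]
    [LinearOrderedCommGroupWithZero Γ₀] (v : Valuation L Γ₀) {x : L} (hx : IsAlgebraic K x)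
    (hx0 : x ≠ 0) :
    ∃ (n : ℕ) (c : K), 0 < n ∧ c ≠ 0 ∧ v x ^ n = v (algebraMap K L c) := by
  classical
  obtain ⟨p, hp0, hp⟩ := hx
  set f : ℕ → L := fun i => algebraMap K L (p.coeff i) * x ^ i with hf
  have hsum : ∑ i ∈ p.support, f i = 0 := by
    rw [← hp, aeval_def, eval₂_eq_sum, Polynomial.sum]
  have hne : p.support.Nonempty := by
    rw [Polynomial.support_nonempty]; exact hp0
  have hfne : ∀ i ∈ p.support, v (f i) ≠ 0 := by
    intro i hi
    rw [Valuation.ne_zero_iff]
    refine mul_ne_zero ?_ (pow_ne_zero _ hx0)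
    rw [Ne, map_eq_zero_iff _ (algebraMap K L).injective]
    exact Polynomial.mem_support_iff.mp hi
  obtain ⟨j, hj, hjmax⟩ := Finset.exists_max_image p.support (fun i => v (f i)) hne
  -- there is a second index with the same valuation
  have hex : ∃ i ∈ p.support, i ≠ j ∧ v (f i) = v (f j) := by
    by_contra hcon
    simp only [not_exists, not_and] at hcon
    have hlt : ∀ i ∈ p.support \ {j}, v (f i) < v (f j) := by
      intro i hi
      rw [Finset.mem_sdiff, Finset.mem_singleton] at hi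
      exact lt_of_le_of_ne (hjmax i hi.1) (hcon i hi.1 hi.2)
    have := Valuation.map_sum_eq_of_lt v hj hlt
    rw [hsum, map_zero] at this
    exact hfne j hj this.symm
  obtain ⟨i, hi, hij, hveq⟩ := hex
  have hci : p.coeff i ≠ 0 := Polynomial.mem_support_iff.mp hi
  have hcj : p.coeff j ≠ 0 := Polynomial.mem_support_iff.mp hj
  have hvx : v x ≠ 0 := (Valuation.ne_zero_iff v).mpr hx0
  have hvci : v (algebraMap K L (p.coeff i)) ≠ 0 := by
    rw [Valuation.ne_zero_iff, Ne, map_eq_zero_iff _ (algebraMap K L).injective]; exact hci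
  have hvcj : v (algebraMap K L (p.coeff j)) ≠ 0 := by
    rw [Valuation.ne_zero_iff, Ne, map_eq_zero_iff _ (algebraMap K L).injective]; exact hcj
  simp only [hf, map_mul, map_pow] at hveq
  -- general step: for a < b, v x ^ (b - a) = v (c_a / c_b)
  have key : ∀ a b : ℕ, a < b → p.coeff a ≠ 0 → p.coeff b ≠ 0 →
      v (algebraMap K L (p.coeff a)) * v x ^ a = v (algebraMap K L (p.coeff b)) * v x ^ b →
      ∃ (n : ℕ) (c : K), 0 < n ∧ c ≠ 0 ∧ v x ^ n = v (algebraMap K L c) := by
    intro a b hab ha hb h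
    refine ⟨b - a, p.coeff a / p.coeff b, Nat.sub_pos_of_lt hab, div_ne_zero ha hb, ?_⟩
    have hvb : v (algebraMap K L (p.coeff b)) ≠ 0 := by
      rw [Valuation.ne_zero_iff, Ne, map_eq_zero_iff _ (algebraMap K L).injective]; exact hb
    rw [map_div₀, map_div₀, eq_div_iff hvb]
    have hxa : v x ^ a ≠ 0 := pow_ne_zero _ hvx
    have : v x ^ b = v x ^ (b - a) * v x ^ a := by
      rw [← pow_add, Nat.sub_add_cancel hab.le]
    rw [this, ← mul_assoc] at h
    have h' := mul_right_cancel₀ hxa h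
    rw [h', mul_comm]
  rcases lt_or_gt_of_ne hij with h | h
  · exact key i j h hci hcj hveq
  · exact key j i h hcj hci hveq.symm

/-- inertia preserves the valuation (for algebraic extensions). -/
theorem inertia_valuation_apply [Algebra.IsAlgebraic K L] {σ : L ≃ₐ[K] L}
    (hσ : σ ∈ A.inertiaSubgroupIn K) (x : L) : A.valuation (σ x) = A.valuation x := by
  by_cases hx0 : x = 0
  · subst hx0; simp
  obtain ⟨n, c, hn, hc, hpow⟩ := exists_pow_valuation_eq_of_isAlgebraic (K := K) A.valuation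
    (Algebra.IsAlgebraic.isAlgebraic x) hx0
  have hc' : algebraMap K L c ≠ 0 := by
    rw [Ne, map_eq_zero_iff _ (algebraMap K L).injective]; exact hc
  -- u = x^n / c is a unit
  have hu : A.valuation (x ^ n / algebraMap K L c) = 1 := by
    rw [map_div₀, map_pow, hpow, div_self ((Valuation.ne_zero_iff _).mpr hc')]
  have hσu : A.valuation (σ (x ^ n / algebraMap K L c)) = 1 :=
    (inertia_valuation_eq_one_iff A hσ _).mpr hu
  rw [map_div₀, map_pow, σ.commutes, map_div₀, map_pow] at hσu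
  have h1 : A.valuation (σ x) ^ n = A.valuation (algebraMap K L c) := by
    have := (div_eq_one_iff_eq ((Valuation.ne_zero_iff _).mpr hc')).mp hσu
    exact this
  have h2 : A.valuation (σ x) ^ n = A.valuation x ^ n := by rw [h1, hpow]
  exact (pow_left_inj hn.ne').mp h2

end Fermat.Agent.S05
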