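import Mathlib
import Fermat.Agent.S51.Basic

/-!
# S05 library, piece C1: exact identities for the x-coordinates of `P₁ ± P₂`

General Weierstrass curve `W` over a field `K`.  `eta W x y = 2y + a₁x + a₃`,
`dblDen W x = 4x³ + b₂x² + 2b₄x + b₆ = eta²`, `dblNum W x = x⁴ - b₄x² - 2b₆x - b₈`
(both from `Fermat.Agent.S51`).  For `x₁ ≠ x₂`:

* `2 x(P₁+P₂) (x₁-x₂)² = sNum - η₁η₂`, `2 x(P₁-P₂) (x₁-x₂)² = sNum + η₁η₂`,
* `x(P₁+P₂) x(P₁-P₂) (x₁-x₂)² = pNum`.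

`RootData` records a factorisation `dblDen = 4 (x-r₁)(x-r₂)(x-r₃)`; with `c₀ = (r₁+r₂)/2`,
`δ = (r₁-r₂)/2`, `e = r₃ - c₀` and shifted coordinates `x̂ = x - c₀` we get the model forms
`Tm`, `Rm` of the numerators (`y² = (x̂² - δ²)(x̂ - e)` with `y = η/2`).
-/

set_option autoImplicit false

namespace Fermat.Agent.S05

open WeierstrassCurve
open Fermat.Agent.S51 (dblDen dblNum)

variable {K : Type*} [Field K]

/-- `η = 2y + a₁x + a₃` (so that `η² = dblDen W x` on the curve). -/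
def eta (W : WeierstrassCurve K) (x y : K) : K := 2 * y + W.a₁ * x + W.a₃

/-- numerator of `x(P₁+P₂) + x(P₁-P₂)` (denominator `(x₁-x₂)²`). -/
def sNum (W : WeierstrassCurve K) (x₁ x₂ : K) : K :=
  2 * (x₁ + x₂) * (x₁ * x₂) + W.b₂ * (x₁ * x₂) + W.b₄ * (x₁ + x₂) + W.b₆

/-- numerator of `x(P₁+P₂) * x(P₁-P₂)` (denominator `(x₁-x₂)²`). -/
def pNum (W : WeierstrassCurve K) (x₁ x₂ : K) : K :=
  (x₁ * x₂) ^ 2 - W.b₄ * (x₁ * x₂) - W.b₆ * (x₁ + x₂) - W.b₈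

lemma eta_sq (W : WeierstrassCurve K) {x y : K} (h : W.toAffine.Equation x y) :
    eta W x y ^ 2 = dblDen W x :=
  (Fermat.Agent.S51.dblDen_eq_sq W h).symm

lemma eta_negY (W : WeierstrassCurve K) (x y : K) :
    eta W x (W.toAffine.negY x y) = - eta W x y := by
  simp only [eta, Affine.negY]; ring

lemma eta_eq_zero_iff (W : WeierstrassCurve K) (x y : K) :
    eta W x y = 0 ↔ y = W.toAffine.negY x y := by
  rw [Fermat.Agent.S51.eq_negY_iff]; rfl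

lemma sNum_comm (W : WeierstrassCurve K) (x₁ x₂ : K) : sNum W x₁ x₂ = sNum W x₂ x₁ := by
  simp only [sNum]; ring

lemma pNum_comm (W : WeierstrassCurve K) (x₁ x₂ : K) : pNum W x₁ x₂ = pNum W x₂ x₁ := by
  simp only [pNum]; ring

/-- The key quadratic relation between the numerators. -/
lemma sNum_sq_sub (W : WeierstrassCurve K) (x₁ x₂ : K) :
    sNum W x₁ x₂ ^ 2 - dblDen W x₁ * dblDen W x₂ = 4 * pNum W x₁ x₂ * (x₁ - x₂) ^ 2 := by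
  have := W.b_relation
  simp only [sNum, pNum, dblDen]
  linear_combination ((x₁ - x₂) ^ 2) * this

lemma sNum_self (W : WeierstrassCurve K) (x : K) : sNum W x x = dblDen W x := by
  simp only [sNum, dblDen]; ring

lemma pNum_self (W : WeierstrassCurve K) (x : K) : pNum W x x = dblNum W x := by
  simp only [pNum, dblNum]; ring

variable [DecidableEq K]

/-- `x`-coordinate of a sum, `x₁ ≠ x₂`. -/
lemma addX_mul_sq (W : WeierstrassCurve K) {x₁ y₁ x₂ y₂ : K}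
    (h₁ : W.toAffine.Equation x₁ y₁) (h₂ : W.toAffine.Equation x₂ y₂) (hx : x₁ ≠ x₂) :
    2 * W.toAffine.addX x₁ x₂ (W.toAffine.slope x₁ x₂ y₁ y₂) * (x₁ - x₂) ^ 2
      = sNum W x₁ x₂ - eta W x₁ y₁ * eta W x₂ y₂ := by
  have hd : x₁ - x₂ ≠ 0 := sub_ne_zero.mpr hx
  rw [Affine.slope_of_X_ne hx]
  rw [Affine.equation_iff] at h₁ h₂
  simp only [Affine.addX, sNum, eta, b₂, b₄, b₆]
  field_simp
  linear_combination 2 * h₁ + 2 * h₂

/-- Sum and difference of two affine points with distinct `x`-coordinates, with the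
formulas for their `x`-coordinates. -/
theorem exists_add_sub (W : WeierstrassCurve K) (h2 : (2 : K) ≠ 0) {x₁ y₁ x₂ y₂ : K}
    (h₁ : W.toAffine.Nonsingular x₁ y₁) (h₂ : W.toAffine.Nonsingular x₂ y₂) (hx : x₁ ≠ x₂) :
    ∃ (xp yp : K) (hp : W.toAffine.Nonsingular xp yp) (xm ym : K)
      (hm : W.toAffine.Nonsingular xm ym),
      Affine.Point.some x₁ y₁ h₁ + Affine.Point.some x₂ y₂ h₂ = Affine.Point.some xp yp hp ∧
      Affine.Point.some x₁ y₁ h₁ - Affine.Point.some x₂ y₂ h₂ = Affine.Point.some xm ym hm ∧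
      2 * xp * (x₁ - x₂) ^ 2 = sNum W x₁ x₂ - eta W x₁ y₁ * eta W x₂ y₂ ∧
      2 * xm * (x₁ - x₂) ^ 2 = sNum W x₁ x₂ + eta W x₁ y₁ * eta W x₂ y₂ ∧
      (xp + xm) * (x₁ - x₂) ^ 2 = sNum W x₁ x₂ ∧
      xp * xm * (x₁ - x₂) ^ 2 = pNum W x₁ x₂ := by
  have hd : x₁ - x₂ ≠ 0 := sub_ne_zero.mpr hx
  have h₂' : W.toAffine.Nonsingular x₂ (W.toAffine.negY x₂ y₂) :=
    (Affine.nonsingular_neg ..).mpr h₂
  set xp := W.toAffine.addX x₁ x₂ (W.toAffine.slope x₁ x₂ y₁ y₂) with hxp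
  set xm := W.toAffine.addX x₁ x₂ (W.toAffine.slope x₁ x₂ y₁ (W.toAffine.negY x₂ y₂)) with hxm
  have e1 : 2 * xp * (x₁ - x₂) ^ 2 = sNum W x₁ x₂ - eta W x₁ y₁ * eta W x₂ y₂ :=
    addX_mul_sq W h₁.1 h₂.1 hx
  have e2 : 2 * xm * (x₁ - x₂) ^ 2 = sNum W x₁ x₂ + eta W x₁ y₁ * eta W x₂ y₂ := by
    have := addX_mul_sq W h₁.1 h₂'.1 hx
    rw [eta_negY] at this
    rw [hxm, this]; ring
  refine ⟨xp, _, Affine.nonsingular_add h₁ h₂ fun hxy => hx hxy.left, xm, _,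
    Affine.nonsingular_add h₁ h₂' fun hxy => hx hxy.left, ?_, ?_, e1, e2, ?_, ?_⟩
  · exact Affine.Point.add_of_X_ne hx
  · rw [sub_eq_add_neg, Affine.Point.neg_some]
    exact Affine.Point.add_of_X_ne hx
  · have : 2 * ((xp + xm) * (x₁ - x₂) ^ 2) = 2 * sNum W x₁ x₂ := by
      linear_combination e1 + e2
    exact mul_left_cancel₀ h2 this
  · have hη₁ := eta_sq W h₁.1
    have hη₂ := eta_sq W h₂.1
    have hq := sNum_sq_sub W x₁ x₂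
    have : (4 * (x₁ - x₂) ^ 2) * (xp * xm * (x₁ - x₂) ^ 2) =
        (4 * (x₁ - x₂) ^ 2) * pNum W x₁ x₂ := by
      linear_combination (2 * xm * (x₁ - x₂) ^ 2) * e1 +
        (sNum W x₁ x₂ - eta W x₁ y₁ * eta W x₂ y₂) * e2 + hq
          - (eta W x₂ y₂ ^ 2) * hη₁ - (dblDen W x₁) * hη₂
    have h4 : (4 * (x₁ - x₂) ^ 2 : K) ≠ 0 := by
      have : (4 : K) = 2 * 2 := by norm_num
      rw [this]
      exact mul_ne_zero (mul_ne_zero h2 h2) (pow_ne_zero 2 hd)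
    exact mul_left_cancel₀ h4 this

/-! ### Root data and the model `y² = (x̂² - δ²)(x̂ - e)` -/

/-- A factorisation `dblDen W x = 4 (x - r₁) (x - r₂) (x - r₃)` of the 2-division polynomial. -/
structure RootData (W : WeierstrassCurve K) where
  r₁ : K
  r₂ : K
  r₃ : K
  hb₂ : W.b₂ = -4 * (r₁ + r₂ + r₃)
  hb₄ : W.b₄ = 2 * (r₁ * r₂ + r₁ * r₃ + r₂ * r₃)
  hb₆ : W.b₆ = -4 * (r₁ * r₂ * r₃)

namespace RootData

variable {W : WeierstrassCurve K} (D : RootData W)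

/-- midpoint of the two distinguished roots -/
def c₀ : K := (D.r₁ + D.r₂) / 2
/-- half difference of the two distinguished roots -/
def δ : K := (D.r₁ - D.r₂) / 2
/-- third root, in the shifted coordinate -/
def e : K := D.r₃ - D.c₀

/-- the model cubic `(x̂² - δ²)(x̂ - e)` -/
def fm (x : K) : K := (x ^ 2 - D.δ ^ 2) * (x - D.e)
/-- model numerator `T` : `x̂(P₁±P₂) (x̂₁-x̂₂)² = T ∓ η₁η₂/2` -/
def Tm (x₁ x₂ : K) : K := (x₁ * x₂ - D.δ ^ 2) * (x₁ + x₂ - 2 * D.e)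
/-- model numerator `R` : `x̂(P₁+P₂) x̂(P₁-P₂) (x̂₁-x̂₂)² = R` -/
def Rm (x₁ x₂ : K) : K :=
  (x₁ * x₂ + D.δ ^ 2) ^ 2 - 4 * D.δ ^ 2 * D.e * (x₁ + x₂ - D.e)

omit [DecidableEq K] in
lemma r₁_eq (h2 : (2 : K) ≠ 0) : D.r₁ = D.c₀ + D.δ := by
  simp only [c₀, δ]; field_simp; ring

omit [DecidableEq K] in
lemma r₂_eq (h2 : (2 : K) ≠ 0) : D.r₂ = D.c₀ - D.δ := by
  simp only [c₀, δ]; field_simp; ring

omit [DecidableEq K] in
lemma r₃_eq : D.r₃ = D.c₀ + D.e := by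
  simp only [e]; ring

omit [DecidableEq K] in
lemma dblDen_eq_roots (x : K) :
    dblDen W x = 4 * ((x - D.r₁) * (x - D.r₂) * (x - D.r₃)) := by
  simp only [dblDen, D.hb₂, D.hb₄, D.hb₆]; ring

omit [DecidableEq K] in
lemma dblDen_eq_fm (h2 : (2 : K) ≠ 0) (x : K) : dblDen W x = 4 * D.fm (x - D.c₀) := by
  rw [D.dblDen_eq_roots, D.r₁_eq h2, D.r₂_eq h2, D.r₃_eq]
  simp only [fm]; ring

omit [DecidableEq K] in
lemma sNum_eq_Tm (h2 : (2 : K) ≠ 0) (x₁ x₂ : K) :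
    sNum W x₁ x₂ - 2 * D.c₀ * (x₁ - x₂) ^ 2 = 2 * D.Tm (x₁ - D.c₀) (x₂ - D.c₀) := by
  simp only [sNum, D.hb₂, D.hb₄, D.hb₆, Tm]
  rw [D.r₁_eq h2, D.r₂_eq h2, D.r₃_eq]
  ring

omit [DecidableEq K] in
lemma b₈_eq (h2 : (2 : K) ≠ 0) :
    W.b₈ = (W.b₂ * W.b₆ - W.b₄ ^ 2) / 4 := by
  have h4 : (4 : K) ≠ 0 := by
    have : (4 : K) = 2 * 2 := by norm_num
    rw [this]; exact mul_ne_zero h2 h2
  rw [eq_div_iff h4, mul_comm]; exact W.b_relation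

omit [DecidableEq K] in
lemma pNum_eq_Rm (h2 : (2 : K) ≠ 0) (x₁ x₂ : K) :
    pNum W x₁ x₂ - D.c₀ * sNum W x₁ x₂ + D.c₀ ^ 2 * (x₁ - x₂) ^ 2
      = D.Rm (x₁ - D.c₀) (x₂ - D.c₀) := by
  have h4 : (4 : K) ≠ 0 := by
    have : (4 : K) = 2 * 2 := by norm_num
    rw [this]; exact mul_ne_zero h2 h2
  apply mul_left_cancel₀ h4
  have hb := W.b_relation
  simp only [pNum, sNum, Rm]
  rw [D.hb₂, D.hb₄, D.hb₆] at hb
  simp only [D.hb₂, D.hb₄, D.hb₆]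
  rw [D.r₁_eq h2, D.r₂_eq h2, D.r₃_eq] at hb ⊢
  linear_combination (-1 : K) * hb

omit [DecidableEq K] in
lemma dblNum_eq_Rm (h2 : (2 : K) ≠ 0) (x : K) :
    dblNum W x - D.c₀ * dblDen W x = D.Rm (x - D.c₀) (x - D.c₀) := by
  have := D.pNum_eq_Rm h2 x x
  rw [pNum_self, sNum_self, sub_self] at this
  rw [← this]; ring

omit [DecidableEq K] in
/-- model form of `sNum_sq_sub` -/
lemma Tm_sq_sub (x₁ x₂ : K) :
    D.Tm x₁ x₂ ^ 2 - 4 * D.fm x₁ * D.fm x₂ = D.Rm x₁ x₂ * (x₁ - x₂) ^ 2 := by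
  simp only [Tm, fm, Rm]; ring

omit [DecidableEq K] in
lemma Tm_self (x : K) : D.Tm x x = 2 * D.fm x := by
  simp only [Tm, fm]; ring

omit [DecidableEq K] in
lemma eta_sq_eq_fm (h2 : (2 : K) ≠ 0) {x y : K} (h : W.toAffine.Equation x y) :
    eta W x y ^ 2 = 4 * D.fm (x - D.c₀) := by
  rw [eta_sq W h, D.dblDen_eq_fm h2]

/-- Model form of `exists_add_sub`: shifted `x`-coordinates `x̂ = x - c₀`. -/
theorem exists_add_sub_model (h2 : (2 : K) ≠ 0) {x₁ y₁ x₂ y₂ : K}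
    (h₁ : W.toAffine.Nonsingular x₁ y₁) (h₂ : W.toAffine.Nonsingular x₂ y₂) (hx : x₁ ≠ x₂) :
    ∃ (xp yp : K) (hp : W.toAffine.Nonsingular xp yp) (xm ym : K)
      (hm : W.toAffine.Nonsingular xm ym),
      Affine.Point.some x₁ y₁ h₁ + Affine.Point.some x₂ y₂ h₂ = Affine.Point.some xp yp hp ∧
      Affine.Point.some x₁ y₁ h₁ - Affine.Point.some x₂ y₂ h₂ = Affine.Point.some xm ym hm ∧
      2 * (xp - D.c₀) * (x₁ - x₂) ^ 2
        = 2 * D.Tm (x₁ - D.c₀) (x₂ - D.c₀) - eta W x₁ y₁ * eta W x₂ y₂ ∧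
      2 * (xm - D.c₀) * (x₁ - x₂) ^ 2
        = 2 * D.Tm (x₁ - D.c₀) (x₂ - D.c₀) + eta W x₁ y₁ * eta W x₂ y₂ ∧
      ((xp - D.c₀) + (xm - D.c₀)) * (x₁ - x₂) ^ 2 = 2 * D.Tm (x₁ - D.c₀) (x₂ - D.c₀) ∧
      (xp - D.c₀) * (xm - D.c₀) * (x₁ - x₂) ^ 2 = D.Rm (x₁ - D.c₀) (x₂ - D.c₀) := by
  obtain ⟨xp, yp, hp, xm, ym, hm, e1, e2, e3, e4, e5, e6⟩ := exists_add_sub W h2 h₁ h₂ hx
  refine ⟨xp, yp, hp, xm, ym, hm, e1, e2, ?_, ?_, ?_, ?_⟩
  · rw [← D.sNum_eq_Tm h2]; linear_combination e3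
  · rw [← D.sNum_eq_Tm h2]; linear_combination e4
  · rw [← D.sNum_eq_Tm h2]; linear_combination e5
  · rw [← D.pNum_eq_Rm h2]; linear_combination e6 - D.c₀ * e5

/-- Model form of the duplication formula: `x̂(2P) η² = R(x̂,x̂)`. -/
theorem two_nsmul_model (h2 : (2 : K) ≠ 0) {x y : K} (h : W.toAffine.Nonsingular x y)
    (hη : eta W x y ≠ 0) :
    ∃ (x' y' : K) (h' : W.toAffine.Nonsingular x' y'),
      (2 : ℕ) • Affine.Point.some x y h = Affine.Point.some x' y' h' ∧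
      (x' - D.c₀) * eta W x y ^ 2 = D.Rm (x - D.c₀) (x - D.c₀) ∧
      x' * eta W x y ^ 2 = dblNum W x := by
  have hd : dblDen W x ≠ 0 := by rw [← eta_sq W h.1]; exact pow_ne_zero 2 hη
  obtain ⟨x', y', h', e1, e2⟩ := Fermat.Agent.S51.two_nsmul_some_of_dblDen_ne W h hd
  refine ⟨x', y', h', e1, ?_, ?_⟩
  · rw [← D.dblNum_eq_Rm h2, eta_sq W h.1]; linear_combination e2
  · rw [eta_sq W h.1]; exact e2

end RootData

/-- `2 • P = 0` iff `η = 0`. -/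
lemma two_nsmul_eq_zero_iff_eta (W : WeierstrassCurve K) {x y : K}
    (h : W.toAffine.Nonsingular x y) :
    (2 : ℕ) • Affine.Point.some x y h = 0 ↔ eta W x y = 0 := by
  rw [Fermat.Agent.S51.two_nsmul_some_eq_zero_iff, ← eta_sq W h.1]
  exact pow_eq_zero_iff two_ne_zero

end Fermat.Agent.S05
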