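import Fermat.Agent.S05.Tropical
import Fermat.Agent.S05.NodeUnit

/-!
# S05 library, piece C3: consequences of the component homomorphism

* `(M1)` `n • P = 0`, `v b < v (ξ P) < 1`  ⟹  `∃ m : ℤ, v (ξ P) ^ n = v b ^ (2 m)`.
* `(M2)` `v b < v (ξ P) < 1`, `v (ξ Q) = v (ξ P)` ⟹ `P - Q` or `P + Q` lies in `E₀`.
-/

namespace Fermat.Agent.S05

open WeierstrassCurve WeierstrassCurve.Affine

variable {F : Type*} [Field F] {Γ₀ : Type*} [LinearOrderedCommGroupWithZero Γ₀]

/-- A class whose `n`-th power is trivial. -/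
lemma trK_pow_eq_one (v : Valuation F Γ₀) {b z : F} (hz : z ≠ 0) (hb : b ≠ 0) {n : ℕ}
    (h : trK v b z ^ n = 1) : ∃ m : ℤ, v z ^ n = v b ^ (2 * m) := by
  simp only [trK] at h
  rw [← QuotientGroup.mk_pow, QuotientGroup.eq_one_iff, Subgroup.mem_zpowers_iff] at h
  obtain ⟨m, hm⟩ := h
  refine ⟨m, ?_⟩
  have := congrArg Units.val hm
  rw [Units.val_zpow_eq_zpow_val, Units.val_pow_eq_pow_val, Units.val_pow_eq_pow_val,
    trU_val v hz, trU_val v hb] at this
  rw [← this, zpow_mul]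
  norm_cast

/-- Even powers of `β < 1` avoid the interval `[β, 1)`. -/
lemma tr_zpow_cases {β : Γ₀} (h0 : 0 < β) (h1 : β < 1) (m : ℤ) :
    1 ≤ β ^ (2 * m) ∨ β ^ (2 * m) < β := by
  rcases le_or_gt m 0 with hm | hm
  · left
    exact one_le_zpow_of_nonpos₀ h0 (le_of_lt h1) (by omega)
  · right
    have h2 : β ^ (2 * m) ≤ β ^ (2 : ℤ) :=
      zpow_le_zpow_right_of_le_one₀ h0 (le_of_lt h1) (by omega)
    have h3 : β ^ (2 : ℤ) < β := by
      rw [zpow_two]
      calc β * β < β * 1 := mul_lt_mul_of_pos_left h1 h0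
        _ = β := mul_one _
    exact lt_of_le_of_lt h2 h3

section comp

variable {v : Valuation F Γ₀} {W : Affine F} {e s : F} [DecidableEq F]

omit [DecidableEq F] in
/-- The kernel of the component map is `E₀`. -/
theorem trC_eq_one (H : TrHyp v W e s) {P : W.Point} (h : trC v W e s P = 1) :
    P = 0 ∨ ∃ (x y : F) (hh : W.Nonsingular x y), P = Point.some x y hh ∧ 1 ≤ v (x - e) := by
  rcases P with _ | ⟨x, y, hh⟩
  · left; rfl
  · right
    refine ⟨x, y, hh, rfl, ?_⟩
    by_contra hE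
    by_cases hT : v (x - e) ≤ v (xtB W e)
    · rw [trC_T H hh hT] at h
      obtain ⟨m, hm⟩ := trK_pow_eq_one v H.b_ne H.b_ne (n := 1) (by rw [pow_one]; exact h)
      rw [pow_one] at hm
      rcases tr_zpow_cases H.b_pos H.b_lt m with h1 | h1
      · rw [← hm] at h1
        exact absurd H.b_lt (not_lt.mpr h1)
      · rw [← hm] at h1
        exact lt_irrefl _ h1
    · rw [not_le] at hE hT
      have hx := tr_ne_of_lt hT
      have hk : trK v (xtB W e) (x - e) = 1 := by
        rcases trC_N_or (s := s) hh hT hE with hk | hk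
        · rw [← hk]; exact h
        · rw [← inv_inv (trK v (xtB W e) (x - e)), ← hk, h, inv_one]
      obtain ⟨m, hm⟩ := trK_pow_eq_one v (sub_ne_zero.mpr hx) H.b_ne (n := 1)
        (by rw [pow_one]; exact hk)
      rw [pow_one] at hm
      rcases tr_zpow_cases H.b_pos H.b_lt m with h1 | h1
      · rw [← hm] at h1
        exact absurd hE (not_lt.mpr h1)
      · rw [← hm] at h1
        exact absurd hT (not_lt.mpr (le_of_lt h1))

/-- **(M1)**, abstract valuation form. -/
theorem tr_M1 (H : TrHyp v W e s) {n : ℕ} {x y : F} (h : W.Nonsingular x y)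
    (hn : n • (Point.some x y h : W.Point) = 0)
    (h1 : v (xtB W e) < v (x - e)) (h2 : v (x - e) < 1) :
    ∃ m : ℤ, v (x - e) ^ n = v (xtB W e) ^ (2 * m) := by
  have hc := trC_nsmul H n (Point.some x y h)
  rw [hn, trC_zero] at hc
  have hx := tr_ne_of_lt h1
  apply trK_pow_eq_one v (sub_ne_zero.mpr hx) H.b_ne
  rcases trC_N_or (s := s) h h1 h2 with hk | hk
  · rw [hk] at hc; exact hc.symm
  · rw [hk, inv_pow] at hc
    rw [← inv_inv (trK v (xtB W e) (x - e) ^ n), ← hc, inv_one]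

/-- **(M2)**, abstract valuation form. -/
theorem tr_M2 (H : TrHyp v W e s) {x y x' y' : F} (h : W.Nonsingular x y)
    (h' : W.Nonsingular x' y')
    (h1 : v (xtB W e) < v (x - e)) (h2 : v (x - e) < 1) (heq : v (x' - e) = v (x - e)) :
    ∃ Rp : W.Point,
      (Rp = Point.some x y h - Point.some x' y' h' ∨
        Rp = Point.some x y h + Point.some x' y' h') ∧
      (Rp = 0 ∨ ∃ (X Y : F) (HH : W.Nonsingular X Y), Rp = Point.some X Y HH ∧
        1 ≤ v (X - e)) := by
  have hx := tr_ne_of_lt h1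
  have h1' : v (xtB W e) < v (x' - e) := by rw [heq]; exact h1
  have h2' : v (x' - e) < 1 := by rw [heq]; exact h2
  have hx' := tr_ne_of_lt h1'
  have hk : trK v (xtB W e) (x' - e) = trK v (xtB W e) (x - e) :=
    trK_eq_of_val_eq v _ (sub_ne_zero.mpr hx') (sub_ne_zero.mpr hx) heq
  rcases trC_N_or (s := s) h h1 h2 with c1 | c1 <;>
    rcases trC_N_or (s := s) h' h1' h2' with c2 | c2
  · refine ⟨_, Or.inl rfl, trC_eq_one H ?_⟩
    rw [trC_sub H, c1, c2, hk, mul_inv_cancel]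
  · refine ⟨_, Or.inr rfl, trC_eq_one H ?_⟩
    rw [trC_add H, c1, c2, hk, mul_inv_cancel]
  · refine ⟨_, Or.inr rfl, trC_eq_one H ?_⟩
    rw [trC_add H, c1, c2, hk, inv_mul_cancel]
  · refine ⟨_, Or.inl rfl, trC_eq_one H ?_⟩
    rw [trC_sub H, c1, c2, hk, inv_inv, inv_mul_cancel]

end comp

/-! ### Final forms for a valuation subring -/

section final

variable [DecidableEq F] (A : ValuationSubring F) {W : Affine F} {e : F}

omit [DecidableEq F] in
/-- Build the standing hypotheses from a square root of `a`. -/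
lemma trHyp_of_sqrt (h2 : A.valuation (2 : F) = 1) (he : psi2Sq W e = 0)
    (ha : A.valuation (xtA W e) = 1) (hb0 : xtB W e ≠ 0) (hb : A.valuation (xtB W e) < 1)
    {s : F} (hs : s ^ 2 = xtA W e) : TrHyp A.valuation W e s :=
  ⟨h2, he, ha, hb0, hb, by rw [hs, sub_self, map_zero]; exact zero_lt_one⟩

/-- **(M1)** `n • P = 0`, `v b < v (ξ P) < 1` ⟹ `∃ m : ℤ, v (ξ P) ^ n = v b ^ (2 m)`. -/
theorem ch_M1 (h2 : A.valuation (2 : F) = 1) (he : psi2Sq W e = 0)
    (ha : A.valuation (xtA W e) = 1) (hb0 : xtB W e ≠ 0) (hb : A.valuation (xtB W e) < 1)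
    (hs : ∃ s : F, s ^ 2 = xtA W e) {n : ℕ} {x y : F} (h : W.Nonsingular x y)
    (hn : n • (Point.some x y h : W.Point) = 0)
    (h1 : A.valuation (xtB W e) < A.valuation (x - e)) (h1' : A.valuation (x - e) < 1) :
    ∃ m : ℤ, A.valuation (x - e) ^ n = A.valuation (xtB W e) ^ (2 * m) := by
  obtain ⟨s, hs⟩ := hs
  exact tr_M1 (trHyp_of_sqrt A h2 he ha hb0 hb hs) h hn h1 h1'

/-- **(M2)** same level ⟹ sum or difference in `E₀`. -/
theorem ch_M2 (h2 : A.valuation (2 : F) = 1) (he : psi2Sq W e = 0)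
    (ha : A.valuation (xtA W e) = 1) (hb0 : xtB W e ≠ 0) (hb : A.valuation (xtB W e) < 1)
    (hs : ∃ s : F, s ^ 2 = xtA W e) {x y x' y' : F} (h : W.Nonsingular x y)
    (h' : W.Nonsingular x' y')
    (h1 : A.valuation (xtB W e) < A.valuation (x - e)) (h1' : A.valuation (x - e) < 1)
    (heq : A.valuation (x' - e) = A.valuation (x - e)) :
    ∃ Rp : W.Point,
      (Rp = Point.some x y h - Point.some x' y' h' ∨
        Rp = Point.some x y h + Point.some x' y' h') ∧
      (Rp = 0 ∨ ∃ (X Y : F) (HH : W.Nonsingular X Y), Rp = Point.some X Y HH ∧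
        1 ≤ A.valuation (X - e)) := by
  obtain ⟨s, hs⟩ := hs
  exact tr_M2 (trHyp_of_sqrt A h2 he ha hb0 hb hs) h h' h1 h1' heq

omit [DecidableEq F] in
/-- From a factorisation `ψ₂² = 4 (x - e) ((x - e)² + a (x - e) + b)`: `a = xtA`, `b = xtB`. -/
lemma xt_AB_of_fac (h2 : (2 : F) ≠ 0) {a b : F}
    (hfac : ∀ x : F, psi2Sq W x = 4 * (x - e) * ((x - e) ^ 2 + a * (x - e) + b)) :
    psi2Sq W e = 0 ∧ xtA W e = a ∧ xtB W e = b := by
  obtain ⟨hb₂, hb₄, -⟩ := nu_coeffs_of_forall W h2 hfac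
  have h4 := xt_four_ne_zero h2
  refine ⟨by rw [hfac e]; ring, ?_, ?_⟩
  · simp only [xtA, hb₂]; field_simp; ring
  · simp only [xtB, hb₂, hb₄]; field_simp; ring

/-- **(M1)** in factorisation form (explicit `a`, `b`). -/
theorem ch_M1_fac (h2 : A.valuation (2 : F) = 1) {a b : F}
    (hfac : ∀ x : F, psi2Sq W x = 4 * (x - e) * ((x - e) ^ 2 + a * (x - e) + b))
    (ha : A.valuation a = 1) (hb0 : b ≠ 0) (hb : A.valuation b < 1)
    (hs : ∃ s : F, s ^ 2 = a) {n : ℕ} {x y : F} (h : W.Nonsingular x y)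
    (hn : n • (Point.some x y h : W.Point) = 0)
    (h1 : A.valuation b < A.valuation (x - e)) (h1' : A.valuation (x - e) < 1) :
    ∃ m : ℤ, A.valuation (x - e) ^ n = A.valuation b ^ (2 * m) := by
  have h2ne : (2 : F) ≠ 0 := by
    intro h0; rw [h0, map_zero] at h2; exact zero_ne_one h2
  obtain ⟨he, hA, hB⟩ := xt_AB_of_fac (W := W) (e := e) h2ne hfac
  subst hA; subst hB
  exact ch_M1 A h2 he ha hb0 hb hs h hn h1 h1'

/-- **(M2)** in factorisation form (explicit `a`, `b`). -/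
theorem ch_M2_fac (h2 : A.valuation (2 : F) = 1) {a b : F}
    (hfac : ∀ x : F, psi2Sq W x = 4 * (x - e) * ((x - e) ^ 2 + a * (x - e) + b))
    (ha : A.valuation a = 1) (hb0 : b ≠ 0) (hb : A.valuation b < 1)
    (hs : ∃ s : F, s ^ 2 = a) {x y x' y' : F} (h : W.Nonsingular x y)
    (h' : W.Nonsingular x' y')
    (h1 : A.valuation b < A.valuation (x - e)) (h1' : A.valuation (x - e) < 1)
    (heq : A.valuation (x' - e) = A.valuation (x - e)) :
    ∃ Rp : W.Point,
      (Rp = Point.some x y h - Point.some x' y' h' ∨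
        Rp = Point.some x y h + Point.some x' y' h') ∧
      (Rp = 0 ∨ ∃ (X Y : F) (HH : W.Nonsingular X Y), Rp = Point.some X Y HH ∧
        1 ≤ A.valuation (X - e)) := by
  have h2ne : (2 : F) ≠ 0 := by
    intro h0; rw [h0, map_zero] at h2; exact zero_ne_one h2
  obtain ⟨he, hA, hB⟩ := xt_AB_of_fac (W := W) (e := e) h2ne hfac
  subst hA; subst hB
  exact ch_M2 A h2 he ha hb0 hb hs h h' h1 h1' heq

end final

end Fermat.Agent.S05
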