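import Mathlib

/-!
# S05 library: a map which is additive up to inversion is additive

If `c : E → G` (`E` an additive commutative group, `G` a commutative group) satisfies
`c (-x) = (c x)⁻¹` and `c (x + y) ∈ {c x * c y, (c x * c y)⁻¹}` for all `x y`, then
`c (x + y) = c x * c y`.
-/

set_option autoImplicit false

namespace Fermat.Agent.S05

variable {E G : Type*} [AddCommGroup E] [CommGroup G]

/-- A sign-ambiguous homomorphism is a homomorphism. -/
theorem gl_map_add (c : E → G) (hneg : ∀ x, c (-x) = (c x)⁻¹)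
    (hadd : ∀ x y, c (x + y) = c x * c y ∨ c (x + y) = (c x * c y)⁻¹) :
    ∀ x y, c (x + y) = c x * c y := by
  intro x y
  rcases hadd x y with h | h
  · exact h
  -- it suffices to show `(c x * c y)² = 1`
  have key : (c x * c y) * (c x * c y) = 1 → c (x + y) = c x * c y := by
    intro hw
    rw [h]
    exact inv_eq_of_mul_eq_one_left hw
  have h1 := hadd (x + y) (-y)
  have h2 := hadd (x + y) (-x)
  rw [add_neg_cancel_right, hneg, h] at h1
  rw [add_neg_cancel_comm, hneg, h] at h2
  rcases h1 with h1 | h1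
  · -- `c x = (c x * c y)⁻¹ * (c y)⁻¹`
    apply key
    rw [← mul_inv_rev, eq_inv_iff_mul_eq_one] at h1
    rw [mul_assoc]
    exact h1
  rcases h2 with h2 | h2
  · apply key
    rw [← mul_inv_rev, eq_inv_iff_mul_eq_one] at h2
    calc c x * c y * (c x * c y) = c y * c x * (c x * c y) := by
          rw [mul_comm (c y) (c x)]
      _ = c y * (c x * (c x * c y)) := mul_assoc _ _ _
      _ = 1 := h2
  · -- `c x = c y * (c x * c y)` and `c y = c x * (c x * c y)`
    apply key
    have h1' : c x = c y * (c x * c y) := h1.trans (by rw [mul_inv_rev, inv_inv, inv_inv])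
    have h2' : c y = c x * (c x * c y) := h2.trans (by rw [mul_inv_rev, inv_inv, inv_inv])
    have hy2 : c y * c y = 1 :=
      mul_eq_left.mp ((mul_left_comm _ _ _).trans h1'.symm)
    have hx2 : c x * c x = 1 := by
      have h3 : c y * (c x * c x) = c y := by
        calc c y * (c x * c x) = c x * (c y * c x) := mul_left_comm _ _ _
          _ = c x * (c x * c y) := by rw [mul_comm (c y) (c x)]
          _ = c y := h2'.symm
      exact mul_eq_left.mp h3
    rw [mul_mul_mul_comm, hx2, hy2, one_mul]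

/-- `c (x - y) = c x * (c y)⁻¹`. -/
theorem gl_map_sub (c : E → G) (hneg : ∀ x, c (-x) = (c x)⁻¹)
    (hadd : ∀ x y, c (x + y) = c x * c y ∨ c (x + y) = (c x * c y)⁻¹) :
    ∀ x y, c (x - y) = c x * (c y)⁻¹ := by
  intro x y
  rw [sub_eq_add_neg, gl_map_add c hneg hadd, hneg]

/-- `c (n • x) = c x ^ n`. -/
theorem gl_map_nsmul (c : E → G) (h0 : c 0 = 1) (hneg : ∀ x, c (-x) = (c x)⁻¹)
    (hadd : ∀ x y, c (x + y) = c x * c y ∨ c (x + y) = (c x * c y)⁻¹) :
    ∀ (n : ℕ) (x : E), c (n • x) = c x ^ n := by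
  intro n x
  induction n with
  | zero => rw [zero_smul, pow_zero, h0]
  | succ k ih => rw [succ_nsmul, gl_map_add c hneg hadd, ih, pow_succ]

/-- `c (n • x) = c x ^ n` for integer multiples. -/
theorem gl_map_zsmul (c : E → G) (h0 : c 0 = 1) (hneg : ∀ x, c (-x) = (c x)⁻¹)
    (hadd : ∀ x y, c (x + y) = c x * c y ∨ c (x + y) = (c x * c y)⁻¹) :
    ∀ (n : ℤ) (x : E), c (n • x) = c x ^ n := by
  intro n x
  cases n with
  | ofNat k => rw [Int.ofNat_eq_natCast, natCast_zsmul, zpow_natCast, gl_map_nsmul c h0 hneg hadd]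
  | negSucc k =>
    rw [negSucc_zsmul, zpow_negSucc, hneg, gl_map_nsmul c h0 hneg hadd]

/-- Packaged as a monoid homomorphism `Multiplicative E →* G`. -/
def gl_hom (c : E → G) (h0 : c 0 = 1) (hneg : ∀ x, c (-x) = (c x)⁻¹)
    (hadd : ∀ x y, c (x + y) = c x * c y ∨ c (x + y) = (c x * c y)⁻¹) :
    Multiplicative E →* G where
  toFun x := c x.toAdd
  map_one' := h0
  map_mul' x y := gl_map_add c hneg hadd x.toAdd y.toAdd

end Fermat.Agent.S05
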