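import Mathlib
import Fermat.Agent.S05.Identities

/-!
# S05 library: node hypotheses (valuation side)

`RootData.IsNode D A`: relative to the valuation subring `A`, `2` is a unit, the centre `c₀` is
integral, the two roots `r₁, r₂` collide (`v δ < 1`, `δ ≠ 0`) and the third root stays away
(`v e = 1`).  Valuations are Mathlib's multiplicative ones: `A.valuation x ≤ 1 ↔ x ∈ A`,
`A.valuation x < 1 ↔ x ∈ 𝔪_A`, so "large additive valuation" = "small `A.valuation`".
-/

set_option autoImplicit false

namespace Fermat.Agent.S05

open WeierstrassCurve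

variable {K : Type*} [Field K]

/-- Node hypotheses on root data, relative to a valuation subring. -/
structure RootData.IsNode {W : WeierstrassCurve K} (D : RootData W) (A : ValuationSubring K) :
    Prop where
  two : A.valuation (2 : K) = 1
  hc₀ : D.c₀ ∈ A
  hδ : A.valuation D.δ < 1
  hδ0 : D.δ ≠ 0
  he : A.valuation D.e = 1

namespace RootData.IsNode

variable {W : WeierstrassCurve K} {D : RootData W} {A : ValuationSubring K}

lemma two_ne_zero' (hD : D.IsNode A) : (2 : K) ≠ 0 := by
  intro h
  have := hD.two
  rw [h, map_zero] at this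
  exact zero_ne_one this

lemma val_δ_ne_zero (hD : D.IsNode A) : A.valuation D.δ ≠ 0 :=
  (Valuation.ne_zero_iff _).mpr hD.hδ0

lemma val_δ_pos (hD : D.IsNode A) : 0 < A.valuation D.δ :=
  zero_lt_iff.mpr hD.val_δ_ne_zero

lemma e_ne_zero (hD : D.IsNode A) : D.e ≠ 0 := by
  intro h
  have := hD.he
  rw [h, map_zero] at this
  exact zero_ne_one this

end RootData.IsNode

end Fermat.Agent.S05
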