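import Mathlib

/-!
# S05 library: tropical leaves A (sign dichotomy, `E₀ + E₀`, `E₀ + annulus`)

Pure valuation statements (no elliptic curves).  `ξ₃ (ξ₁ξ₂) (t₁+t₂)² = (ξ₁ξ₂ - b)²` is the addition
formula in the coordinates `ξ = x - e`, `t = Y / (2ξ)`, `t² = ξ + a + b/ξ`; `s` is a square root of
`a` modulo the maximal ideal.
-/

set_option autoImplicit false
set_option linter.unusedVariables false

namespace Fermat.Agent.S05

variable {F : Type*} [Field F] {Γ₀ : Type*} [LinearOrderedCommGroupWithZero Γ₀]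
  (v : Valuation F Γ₀) {a b s ξ₁ ξ₂ ξ₃ t₁ t₂ : F}

/-- `s` is a unit when `s² ≡ a` and `a` is a unit. -/
lemma tla_val_s (ha : v a = 1) (hs : v (s ^ 2 - a) < 1) : v s = 1 := by
  have h1 : v (s ^ 2) = 1 := by
    have : s ^ 2 = a + (s ^ 2 - a) := by ring
    rw [this, Valuation.map_add_eq_of_lt_left _ (by rw [ha]; exact hs), ha]
  rw [map_pow] at h1
  exact (pow_eq_one_iff_of_nonneg zero_le two_ne_zero).mp h1

/-- `v (2 s) = 1`. -/
lemma tla_val_two_s (h2 : v 2 = 1) (ha : v a = 1) (hs : v (s ^ 2 - a) < 1) : v (2 * s) = 1 := by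
  rw [map_mul, h2, tla_val_s v ha hs, one_mul]

/-- If `t ≡ s` then `t` is a unit. -/
lemma tla_val_of_sub_lt (ha : v a = 1) (hs : v (s ^ 2 - a) < 1) {t : F} (ht : v (t - s) < 1) :
    v t = 1 := by
  have hs1 := tla_val_s v ha hs
  have : t = s + (t - s) := by ring
  rw [this, Valuation.map_add_eq_of_lt_left _ (by rw [hs1]; exact ht), hs1]

/-- For `1 ≤ v ξ` and `t² = ξ + a + b/ξ`: `v t ^ 2 ≤ v ξ`. -/
lemma tla_sq_le (ha : v a = 1) (hb : v b < 1) {ξ t : F} (ht : t ^ 2 = ξ + a + b / ξ)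
    (h1 : 1 ≤ v ξ) : v t ^ 2 ≤ v ξ := by
  rw [← map_pow, ht]
  have hξ0 : v ξ ≠ 0 := ne_of_gt (lt_of_lt_of_le zero_lt_one h1)
  refine Valuation.map_add_le _ (Valuation.map_add_le _ le_rfl (by rw [ha]; exact h1)) ?_
  rw [map_div₀]
  calc v b / v ξ ≤ v b :=
        (div_le_iff₀ (zero_lt_iff.mpr hξ0)).mpr (le_mul_of_one_le_right' h1)
    _ ≤ 1 := hb.le
    _ ≤ v ξ := h1

/-- **Sign dichotomy in the annulus**: `t ≡ s` or `t ≡ -s` (exclusively). -/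
theorem tl_sign (h2 : v 2 = 1) (ha : v a = 1) (hs : v (s ^ 2 - a) < 1) (hb0 : b ≠ 0)
    (hb : v b < 1) {ξ t : F} (hξ0 : ξ ≠ 0) (ht : t ^ 2 = ξ + a + b / ξ) (hl : v b < v ξ)
    (hu : v ξ < 1) :
    (v (t - s) < 1 ∧ v (t + s) = 1) ∨ (v (t + s) < 1 ∧ v (t - s) = 1) := by
  have h2s := tla_val_two_s v h2 ha hs
  have hξ0' : v ξ ≠ 0 := (Valuation.ne_zero_iff _).mpr hξ0
  have hbξ : v (b / ξ) < 1 := by
    rw [map_div₀]
    exact (div_lt_one₀ (zero_lt_iff.mpr hξ0')).mpr hl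
  have hprod : v ((t - s) * (t + s)) < 1 := by
    have : (t - s) * (t + s) = ξ + (a - s ^ 2) + b / ξ := by
      have : (t - s) * (t + s) = t ^ 2 - s ^ 2 := by ring
      rw [this, ht]; ring
    rw [this]
    refine Valuation.map_add_lt _ (Valuation.map_add_lt _ hu ?_) hbξ
    rw [Valuation.map_sub_swap]; exact hs
  rw [map_mul] at hprod
  by_cases h : v (t - s) < 1
  · left
    refine ⟨h, ?_⟩
    have : t + s = 2 * s + (t - s) := by ring
    rw [this, Valuation.map_add_eq_of_lt_left _ (by rw [h2s]; exact h), h2s]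
  · right
    rw [not_lt] at h
    have h' : v (t + s) < 1 := by
      by_contra h''
      rw [not_lt] at h''
      have : 1 ≤ v (t - s) * v (t + s) := by simpa using mul_le_mul' h h''
      exact absurd hprod (not_lt.mpr this)
    refine ⟨h', ?_⟩
    have : t - s = -(2 * s) + (t + s) := by ring
    rw [this, Valuation.map_add_eq_of_lt_left _ (by rw [Valuation.map_neg, h2s]; exact h'),
      Valuation.map_neg, h2s]

/-- Common consequence of `hU` when `v b < v (ξ₁ ξ₂)`: `v ξ₃ * v (t₁+t₂)² = v ξ₁ * v ξ₂`. -/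
lemma tla_key (hU : ξ₃ * (ξ₁ * ξ₂) * (t₁ + t₂) ^ 2 = (ξ₁ * ξ₂ - b) ^ 2)
    (h : v b < v ξ₁ * v ξ₂) : v ξ₃ * v (t₁ + t₂) ^ 2 = v ξ₁ * v ξ₂ := by
  have hM0 : v ξ₁ * v ξ₂ ≠ 0 := ne_of_gt (lt_of_le_of_lt zero_le h)
  have hU' := congrArg v hU
  rw [map_mul, map_mul, map_pow, map_pow, Valuation.map_sub_eq_of_lt_left _ (by rw [map_mul]; exact h),
    map_mul] at hU'
  have : v ξ₃ * v (t₁ + t₂) ^ 2 * (v ξ₁ * v ξ₂) = v ξ₁ * v ξ₂ * (v ξ₁ * v ξ₂) := by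
    rw [mul_right_comm, hU', pow_two]
  exact mul_right_cancel₀ hM0 this

/-- **Leaf EE**: `E₀ + E₀ ⊆ E₀`. -/
theorem tl_EE (h2 : v 2 = 1) (ha : v a = 1) (hs : v (s ^ 2 - a) < 1) (hb0 : b ≠ 0)
    (hb : v b < 1) (ht1 : t₁ ^ 2 = ξ₁ + a + b / ξ₁) (ht2 : t₂ ^ 2 = ξ₂ + a + b / ξ₂)
    (hU : ξ₃ * (ξ₁ * ξ₂) * (t₁ + t₂) ^ 2 = (ξ₁ * ξ₂ - b) ^ 2)
    (h1 : 1 ≤ v ξ₁) (h2' : 1 ≤ v ξ₂) : 1 ≤ v ξ₃ := by
  have h12 : 1 ≤ v ξ₁ * v ξ₂ := by simpa using mul_le_mul' h1 h2'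
  have hkey := tla_key v hU (lt_of_lt_of_le hb h12)
  have hM0 : v ξ₁ * v ξ₂ ≠ 0 := ne_of_gt (lt_of_lt_of_le zero_lt_one h12)
  have hT0 : v (t₁ + t₂) ^ 2 ≠ 0 := by
    intro h0
    rw [h0, mul_zero] at hkey
    exact hM0 hkey.symm
  have hT : v (t₁ + t₂) ^ 2 ≤ v ξ₁ * v ξ₂ := by
    rcases le_max_iff.mp (Valuation.map_add v t₁ t₂) with h | h
    · calc v (t₁ + t₂) ^ 2 ≤ v t₁ ^ 2 := pow_le_pow_left' h 2
        _ ≤ v ξ₁ := tla_sq_le v ha hb ht1 h1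
        _ ≤ v ξ₁ * v ξ₂ := le_mul_of_one_le_right' h2'
    · calc v (t₁ + t₂) ^ 2 ≤ v t₂ ^ 2 := pow_le_pow_left' h 2
        _ ≤ v ξ₂ := tla_sq_le v ha hb ht2 h2'
        _ ≤ v ξ₁ * v ξ₂ := le_mul_of_one_le_left' h1
  by_contra hlt
  rw [not_le] at hlt
  have : v ξ₃ * v (t₁ + t₂) ^ 2 < 1 * v (t₁ + t₂) ^ 2 :=
    mul_lt_mul_of_pos_right hlt (zero_lt_iff.mpr hT0)
  rw [one_mul, hkey] at this
  exact absurd hT (not_le.mpr this)

/-- **Leaf EN**: `E₀ + annulus` stays on the level of the annulus point. -/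
theorem tl_EN (h2 : v 2 = 1) (ha : v a = 1) (hs : v (s ^ 2 - a) < 1) (hb0 : b ≠ 0)
    (hb : v b < 1) (ht1 : t₁ ^ 2 = ξ₁ + a + b / ξ₁) (ht2 : t₂ ^ 2 = ξ₂ + a + b / ξ₂)
    (hU : ξ₃ * (ξ₁ * ξ₂) * (t₁ + t₂) ^ 2 = (ξ₁ * ξ₂ - b) ^ 2)
    (h1 : 1 ≤ v ξ₁) (h2l : v b < v ξ₂) (h2u : v ξ₂ < 1) (hs2 : v (t₂ - s) < 1) :
    v ξ₃ = v ξ₂ := by
  have hξ1 : v ξ₁ ≠ 0 := ne_of_gt (lt_of_lt_of_le zero_lt_one h1)
  have hM : v b < v ξ₁ * v ξ₂ := lt_of_lt_of_le h2l (le_mul_of_one_le_left' h1)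
  have hkey := tla_key v hU hM
  have hs1 := tla_val_s v ha hs
  have ht2v : v t₂ = 1 := tla_val_of_sub_lt v ha hs hs2
  have hbξ : v (b / ξ₁) < 1 := by
    rw [map_div₀]
    exact lt_of_le_of_lt
      ((div_le_iff₀ (zero_lt_iff.mpr hξ1)).mpr (le_mul_of_one_le_right' h1)) hb
  have hT : v (t₁ + t₂) ^ 2 = v ξ₁ := by
    rcases h1.lt_or_eq with hgt | heq
    · -- `v ξ₁ > 1`
      have e : t₁ ^ 2 = ξ₁ + (a + b / ξ₁) := by rw [ht1]; ring
      have hle : v (a + b / ξ₁) ≤ 1 := Valuation.map_add_le _ ha.le hbξ.le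
      have hsq : v t₁ ^ 2 = v ξ₁ := by
        rw [← map_pow, e, Valuation.map_add_eq_of_lt_left _ (lt_of_le_of_lt hle hgt)]
      have ht1v : 1 < v t₁ := by
        by_contra hcon
        rw [not_lt] at hcon
        have : v t₁ ^ 2 ≤ 1 := pow_le_one' hcon 2
        rw [hsq] at this
        exact absurd hgt (not_lt.mpr this)
      rw [Valuation.map_add_eq_of_lt_left _ (by rw [ht2v]; exact ht1v), hsq]
    · -- `v ξ₁ = 1`
      have heq' : v ξ₁ = 1 := heq.symm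
      have e : (t₁ + s) * (t₁ - s) = ξ₁ + ((a - s ^ 2) + b / ξ₁) := by
        have : (t₁ + s) * (t₁ - s) = t₁ ^ 2 - s ^ 2 := by ring
        rw [this, ht1]; ring
      have hsm : v ((a - s ^ 2) + b / ξ₁) < 1 :=
        Valuation.map_add_lt _ (by rw [Valuation.map_sub_swap]; exact hs) hbξ
      have hprod : v (t₁ + s) * v (t₁ - s) = 1 := by
        rw [← map_mul, e, Valuation.map_add_eq_of_lt_left _ (by rw [heq']; exact hsm), heq']
      have ht1le : v t₁ ≤ 1 := by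
        have hsq : v t₁ ^ 2 ≤ 1 := by
          have := tla_sq_le v ha hb ht1 h1
          rwa [heq'] at this
        by_contra hcon
        rw [not_le] at hcon
        have : 1 < v t₁ ^ 2 := one_lt_pow' hcon two_ne_zero
        exact absurd hsq (not_le.mpr this)
      have hm : v (t₁ - s) ≤ 1 := Valuation.map_sub_le _ ht1le hs1.le
      have hp : v (t₁ + s) ≤ 1 := Valuation.map_add_le _ ht1le hs1.le
      have hp1 : v (t₁ + s) = 1 := by
        rcases hp.lt_or_eq with hlt | h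
        · exfalso
          have : v (t₁ + s) * v (t₁ - s) < 1 := by
            calc v (t₁ + s) * v (t₁ - s) ≤ v (t₁ + s) * 1 := mul_le_mul' le_rfl hm
              _ = v (t₁ + s) := mul_one _
              _ < 1 := hlt
          rw [hprod] at this
          exact lt_irrefl _ this
        · exact h
      have e' : t₁ + t₂ = (t₁ + s) + (t₂ - s) := by ring
      rw [e', Valuation.map_add_eq_of_lt_left _ (by rw [hp1]; exact hs2), hp1, one_pow, heq']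
  rw [hT, mul_comm (v ξ₁)] at hkey
  exact mul_right_cancel₀ hξ1 hkey

end Fermat.Agent.S05
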