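import Mathlib

/-!
# S05 library: tropical leaf, both points in the annulus with the same sign

Pure valuation statement (no elliptic curves).  `ξ₃ (ξ₁ξ₂) (t₁+t₂)² = (ξ₁ξ₂ - b)²` is the addition
formula in the coordinates `ξ = x - e`, `t = Y / (2ξ)`; here both `tᵢ` are congruent to the same
square root `s` of `a`, so that `t₁ + t₂` is a unit.
-/

set_option autoImplicit false
set_option linter.unusedVariables false

namespace Fermat.Agent.S05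

variable {F : Type*} [Field F] {Γ₀ : Type*} [LinearOrderedCommGroupWithZero Γ₀]
  (v : Valuation F Γ₀) {a b s ξ₁ ξ₂ ξ₃ t₁ t₂ : F}

/-- `s` is a unit when `s² ≡ a` and `a` is a unit. -/
lemma tl_val_s (ha : v a = 1) (hs : v (s ^ 2 - a) < 1) : v s = 1 := by
  have h1 : v (s ^ 2) = 1 := by
    have : s ^ 2 = a + (s ^ 2 - a) := by ring
    rw [this, Valuation.map_add_eq_of_lt_left _ (by rw [ha]; exact hs), ha]
  rw [map_pow] at h1
  exact (pow_eq_one_iff_of_nonneg zero_le two_ne_zero).mp h1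

/-- `t₁ + t₂` is a unit when both `tᵢ ≡ s`. -/
lemma tl_val_add_same (h2 : v 2 = 1) (ha : v a = 1) (hs : v (s ^ 2 - a) < 1)
    (hs1 : v (t₁ - s) < 1) (hs2 : v (t₂ - s) < 1) : v (t₁ + t₂) = 1 := by
  have hs1' := tl_val_s v ha hs
  have h2s : v (2 * s) = 1 := by rw [map_mul, h2, hs1', one_mul]
  have : t₁ + t₂ = 2 * s + ((t₁ - s) + (t₂ - s)) := by ring
  rw [this, Valuation.map_add_eq_of_lt_left _
    (by rw [h2s]; exact Valuation.map_add_lt _ hs1 hs2), h2s]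

/-- **Leaf NN (same sign).** -/
theorem tl_NN (h2 : v 2 = 1) (ha : v a = 1) (hs : v (s ^ 2 - a) < 1) (hb0 : b ≠ 0)
    (hb : v b < 1) (ht1 : t₁ ^ 2 = ξ₁ + a + b / ξ₁) (ht2 : t₂ ^ 2 = ξ₂ + a + b / ξ₂)
    (hU : ξ₃ * (ξ₁ * ξ₂) * (t₁ + t₂) ^ 2 = (ξ₁ * ξ₂ - b) ^ 2)
    (h1b : v b < v ξ₁) (h11 : v ξ₁ < 1) (h2b : v b < v ξ₂) (h21 : v ξ₂ < 1)
    (hs1 : v (t₁ - s) < 1) (hs2 : v (t₂ - s) < 1) :
    (v b < v (ξ₁ * ξ₂) → v ξ₃ = v ξ₁ * v ξ₂) ∧
      (v (ξ₁ * ξ₂) < v b → v ξ₃ * (v ξ₁ * v ξ₂) = v b ^ 2) ∧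
      (v (ξ₁ * ξ₂) = v b → v ξ₃ ≤ v b) := by
  have ht : v (t₁ + t₂) = 1 := tl_val_add_same v h2 ha hs hs1 hs2
  have hU' : v ξ₃ * (v ξ₁ * v ξ₂) = v (ξ₁ * ξ₂ - b) ^ 2 := by
    have := congrArg v hU
    rw [map_mul, map_mul, map_pow, ht, one_pow, mul_one, map_pow, map_mul] at this
    exact this
  have hb0' : v b ≠ 0 := (Valuation.ne_zero_iff _).mpr hb0
  have h1pos : v ξ₁ ≠ 0 := ne_of_gt (lt_of_le_of_lt zero_le h1b)
  have h2pos : v ξ₂ ≠ 0 := ne_of_gt (lt_of_le_of_lt zero_le h2b)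
  have h12pos : v ξ₁ * v ξ₂ ≠ 0 := mul_ne_zero h1pos h2pos
  refine ⟨fun h => ?_, fun h => ?_, fun h => ?_⟩
  · rw [Valuation.map_sub_eq_of_lt_left _ h, map_mul, pow_two] at hU'
    exact mul_right_cancel₀ h12pos hU'
  · rw [Valuation.map_sub_eq_of_lt_right _ h] at hU'
    exact hU'
  · have hle : v (ξ₁ * ξ₂ - b) ≤ v b := Valuation.map_sub_le _ h.le le_rfl
    rw [map_mul] at h
    rw [h] at hU'
    have h3 : v ξ₃ * v b ≤ v b * v b := by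
      rw [hU', pow_two]
      exact mul_le_mul' hle hle
    exact le_of_mul_le_mul_right h3 (zero_lt_iff.mpr hb0')

end Fermat.Agent.S05
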