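import Fermat.Agent.S05.XTT
import Fermat.Agent.S05.GroupLemma
import Fermat.Agent.S05.TropLeafA
import Fermat.Agent.S05.TropLeafB

/-!
# S05 library, piece C2: the signed component map

`c : W.Point → Γ₀ˣ ⧸ ⟨v(b)²⟩` for a Weierstrass curve with a node "at `ξ = 0`"
(`ψ₂² = 4 ξ (ξ² + a ξ + b)`, `v a = 1`, `v b < 1`, `s² ≡ a`).
-/

namespace Fermat.Agent.S05

open WeierstrassCurve WeierstrassCurve.Affine

variable {F : Type*} [Field F] {Γ₀ : Type*} [LinearOrderedCommGroupWithZero Γ₀]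

/-! ### The `t`-coordinate `t = Y / (2ξ)` -/

/-- `t = Y / (2 ξ)`. -/
noncomputable def xtT (W : Affine F) (e x y : F) : F := xtY W x y / (2 * (x - e))

section tcoord

variable {W : Affine F}

lemma xt_T_negY (e x y : F) : xtT W e x (W.negY x y) = -xtT W e x y := by
  simp only [xtT, xt_Y_negY, neg_div]

lemma xt_Y_eq (h2 : (2 : F) ≠ 0) {e x : F} (y : F) (hx : x ≠ e) :
    xtY W x y = 2 * (x - e) * xtT W e x y := by
  have hD : x - e ≠ 0 := sub_ne_zero.mpr hx
  simp only [xtT]; field_simp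

lemma xt_T_sq (h2 : (2 : F) ≠ 0) {e x y : F} (he : psi2Sq W e = 0) (h : W.Equation x y)
    (hx : x ≠ e) :
    xtT W e x y ^ 2 = (x - e) + xtA W e + xtB W e / (x - e) := by
  have hD : x - e ≠ 0 := sub_ne_zero.mpr hx
  have hY := xt_Y_sq h2 he h
  simp only [xtT]
  field_simp
  linear_combination hY

variable [DecidableEq F]

/-- The addition formula in `(ξ, t)`-form. -/
theorem xt_add_t (h2 : (2 : F) ≠ 0) {e : F} (he : psi2Sq W e = 0) {x₁ y₁ x₂ y₂ : F}
    (h₁ : W.Nonsingular x₁ y₁) (h₂ : W.Nonsingular x₂ y₂) (hx₁ : x₁ ≠ e) (hx₂ : x₂ ≠ e)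
    (hxy : ¬(x₁ = x₂ ∧ y₁ = W.negY x₂ y₂)) :
    ∃ (x₃ y₃ : F) (h₃ : W.Nonsingular x₃ y₃),
      Point.some x₁ y₁ h₁ + Point.some x₂ y₂ h₂ = Point.some x₃ y₃ h₃ ∧
      (x₃ - e) * ((x₁ - e) * (x₂ - e)) * (xtT W e x₁ y₁ + xtT W e x₂ y₂) ^ 2 =
        ((x₁ - e) * (x₂ - e) - xtB W e) ^ 2 := by
  obtain ⟨x₃, y₃, h₃, hadd, hf⟩ := xt_add h2 he h₁ h₂ hxy
  refine ⟨x₃, y₃, h₃, hadd, ?_⟩
  have hD₁ : x₁ - e ≠ 0 := sub_ne_zero.mpr hx₁
  have hD₂ : x₂ - e ≠ 0 := sub_ne_zero.mpr hx₂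
  rw [xt_Y_eq h2 y₁ hx₁, xt_Y_eq h2 y₂ hx₂] at hf
  have h4 : (4 : F) * ((x₁ - e) * (x₂ - e)) ≠ 0 :=
    mul_ne_zero (xt_four_ne_zero h2) (mul_ne_zero hD₁ hD₂)
  apply mul_left_cancel₀ h4
  linear_combination hf

/-- Translation by `T` in `(ξ, t)`-form: `ξ' ξ = b`, `t' = -t`. -/
theorem xt_add_T_t (h2 : (2 : F) ≠ 0) {e yT x y : F} (he : psi2Sq W e = 0)
    (hb : xtB W e ≠ 0)
    (hT : W.Nonsingular e yT) (h : W.Nonsingular x y) (hx : x ≠ e) :
    ∃ (x' y' : F) (h' : W.Nonsingular x' y'),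
      Point.some x y h + Point.some e yT hT = Point.some x' y' h' ∧
      (x' - e) * (x - e) = xtB W e ∧ x' ≠ e ∧
      xtT W e x' y' = -xtT W e x y := by
  obtain ⟨x', y', h', hadd, hξ, hY⟩ := xt_add_T h2 he hT h hx
  have hD : x - e ≠ 0 := sub_ne_zero.mpr hx
  have hD' : x' - e ≠ 0 := by
    intro h0; rw [h0, zero_mul] at hξ; exact hb hξ.symm
  refine ⟨x', y', h', hadd, hξ, sub_ne_zero.mp hD', ?_⟩
  simp only [xtT]
  field_simp
  linear_combination hY

end tcoord

/-! ### Units of the value group -/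

open Classical in
/-- The unit of `Γ₀` attached to `v z` (junk value `1` for `z = 0`). -/
noncomputable def trU (v : Valuation F Γ₀) (z : F) : Γ₀ˣ :=
  if h : z = 0 then 1 else Units.mk0 (v z) ((v.ne_zero_iff).mpr h)

lemma trU_val (v : Valuation F Γ₀) {z : F} (hz : z ≠ 0) : ((trU v z : Γ₀ˣ) : Γ₀) = v z := by
  simp [trU, hz]

lemma trU_eq_of_val_eq (v : Valuation F Γ₀) {z w : F} (hz : z ≠ 0) (hw : w ≠ 0)
    (h : v z = v w) : trU v z = trU v w := by
  apply Units.ext
  rw [trU_val v hz, trU_val v hw, h]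

lemma trU_mul (v : Valuation F Γ₀) {z w : F} (hz : z ≠ 0) (hw : w ≠ 0) :
    trU v (z * w) = trU v z * trU v w := by
  apply Units.ext
  rw [Units.val_mul, trU_val v hz, trU_val v hw, trU_val v (mul_ne_zero hz hw), map_mul]

/-- The component group `Γ₀ˣ ⧸ ⟨v(b)²⟩`. -/
abbrev trG (v : Valuation F Γ₀) (b : F) : Type _ := Γ₀ˣ ⧸ Subgroup.zpowers (trU v b ^ 2)

/-- The class of the unit attached to `z`. -/
noncomputable def trK (v : Valuation F Γ₀) (b z : F) : trG v b :=
  QuotientGroup.mk (trU v z)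

lemma trK_eq_of_val_eq (v : Valuation F Γ₀) (b : F) {z w : F} (hz : z ≠ 0) (hw : w ≠ 0)
    (h : v z = v w) : trK v b z = trK v b w := by
  simp only [trK, trU_eq_of_val_eq v hz hw h]

lemma trK_mul (v : Valuation F Γ₀) (b : F) {z w : F} (hz : z ≠ 0) (hw : w ≠ 0) :
    trK v b (z * w) = trK v b z * trK v b w := by
  simp only [trK, trU_mul v hz hw, QuotientGroup.mk_mul]

/-- `τ² = 1` for the class `τ` of `v b`. -/
lemma trK_b_mul_self (v : Valuation F Γ₀) (b : F) : trK v b b * trK v b b = 1 := by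
  simp only [trK]
  rw [← QuotientGroup.mk_mul, ← pow_two]
  exact (QuotientGroup.eq_one_iff _).mpr (Subgroup.mem_zpowers _)

lemma trK_b_inv (v : Valuation F Γ₀) (b : F) : (trK v b b)⁻¹ = trK v b b :=
  inv_eq_of_mul_eq_one_left (trK_b_mul_self v b)

/-- If `v z * v w = v b ^ 2` then `[z] = [w]⁻¹`. -/
lemma trK_eq_inv_of_mul (v : Valuation F Γ₀) {b z w : F} (hb : b ≠ 0) (hz : z ≠ 0) (hw : w ≠ 0)
    (h : v z * v w = v b ^ 2) : trK v b z = (trK v b w)⁻¹ := by
  rw [eq_inv_iff_mul_eq_one]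
  simp only [trK, ← QuotientGroup.mk_mul]
  rw [QuotientGroup.eq_one_iff]
  have : trU v z * trU v w = trU v b ^ 2 := by
    apply Units.ext
    rw [Units.val_mul, Units.val_pow_eq_pow_val, trU_val v hz, trU_val v hw, trU_val v hb, h]
  rw [this]
  exact Subgroup.mem_zpowers _


/-! ### Standing hypotheses and the component map -/

/-- The standing hypotheses: a node at `ξ = 0`, split by `s ≡ √a`. -/
structure TrHyp (v : Valuation F Γ₀) (W : Affine F) (e s : F) : Prop where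
  two : v 2 = 1
  root : psi2Sq W e = 0
  a_one : v (xtA W e) = 1
  b_ne : xtB W e ≠ 0
  b_lt : v (xtB W e) < 1
  s_sq : v (s ^ 2 - xtA W e) < 1

section comp

variable {v : Valuation F Γ₀} {W : Affine F} {e s : F}

lemma TrHyp.two_ne (H : TrHyp v W e s) : (2 : F) ≠ 0 := by
  intro h
  have := H.two
  rw [h, map_zero] at this
  exact zero_ne_one this

lemma TrHyp.b_pos (H : TrHyp v W e s) : 0 < v (xtB W e) :=
  zero_lt_iff.mpr ((v.ne_zero_iff).mpr H.b_ne)

open Classical in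
/-- The signed component map. -/
noncomputable def trC (v : Valuation F Γ₀) (W : Affine F) (e s : F) :
    W.Point → trG v (xtB W e)
  | .zero => 1
  | .some x y _ =>
    if 1 ≤ v (x - e) then 1
    else if v (x - e) ≤ v (xtB W e) then trK v (xtB W e) (xtB W e)
    else if v (xtT W e x y - s) < 1 then trK v (xtB W e) (x - e)
    else (trK v (xtB W e) (x - e))⁻¹

lemma trC_zero : trC v W e s 0 = 1 := rfl

lemma trC_E {x y : F} (h : W.Nonsingular x y) (hE : 1 ≤ v (x - e)) :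
    trC v W e s (Point.some x y h) = 1 := by
  simp only [trC, hE, if_true]

lemma trC_T (H : TrHyp v W e s) {x y : F} (h : W.Nonsingular x y)
    (hT : v (x - e) ≤ v (xtB W e)) :
    trC v W e s (Point.some x y h) = trK v (xtB W e) (xtB W e) := by
  have hE : ¬ 1 ≤ v (x - e) := not_le.mpr (lt_of_le_of_lt hT H.b_lt)
  simp only [trC, hE, hT, if_true, if_false]

lemma trC_Np {x y : F} (h : W.Nonsingular x y)
    (h1 : v (xtB W e) < v (x - e)) (h2 : v (x - e) < 1) (hs : v (xtT W e x y - s) < 1) :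
    trC v W e s (Point.some x y h) = trK v (xtB W e) (x - e) := by
  simp only [trC, not_le.mpr h2, not_le.mpr h1, hs, if_true, if_false]

lemma trC_Nm {x y : F} (h : W.Nonsingular x y)
    (h1 : v (xtB W e) < v (x - e)) (h2 : v (x - e) < 1) (hs : ¬ v (xtT W e x y - s) < 1) :
    trC v W e s (Point.some x y h) = (trK v (xtB W e) (x - e))⁻¹ := by
  simp only [trC, not_le.mpr h2, not_le.mpr h1, hs, if_false]

lemma trC_N_or {x y : F} (h : W.Nonsingular x y)
    (h1 : v (xtB W e) < v (x - e)) (h2 : v (x - e) < 1) :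
    trC v W e s (Point.some x y h) = trK v (xtB W e) (x - e) ∨
      trC v W e s (Point.some x y h) = (trK v (xtB W e) (x - e))⁻¹ := by
  by_cases hs : v (xtT W e x y - s) < 1
  · exact Or.inl (trC_Np h h1 h2 hs)
  · exact Or.inr (trC_Nm h h1 h2 hs)

/-- In the annulus, `x ≠ e`. -/
lemma tr_ne_of_lt {b x : F} (h1 : v b < v (x - e)) : x ≠ e := by
  rintro rfl
  rw [sub_self, map_zero] at h1
  exact not_lt_zero h1

/-- The sign dichotomy at a point of the annulus. -/
lemma tr_sign (H : TrHyp v W e s) {x y : F} (h : W.Nonsingular x y)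
    (h1 : v (xtB W e) < v (x - e)) (h2 : v (x - e) < 1) :
    (v (xtT W e x y - s) < 1 ∧ v (xtT W e x y + s) = 1) ∨
      (v (xtT W e x y + s) < 1 ∧ v (xtT W e x y - s) = 1) := by
  have hx := tr_ne_of_lt h1
  exact tl_sign v H.two H.a_one H.s_sq H.b_ne H.b_lt (sub_ne_zero.mpr hx)
    (xt_T_sq H.two_ne H.root h.1 hx) h1 h2

variable [DecidableEq F]

/-- `c(-P) = c(P)⁻¹`. -/
theorem trC_neg (H : TrHyp v W e s) (P : W.Point) :
    trC v W e s (-P) = (trC v W e s P)⁻¹ := by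
  rcases P with _ | ⟨x, y, h⟩
  · show trC v W e s (-0) = (trC v W e s 0)⁻¹
    rw [neg_zero, trC_zero, inv_one]
  · rw [Point.neg_some]
    by_cases hE : 1 ≤ v (x - e)
    · rw [trC_E _ hE, trC_E _ hE, inv_one]
    by_cases hT : v (x - e) ≤ v (xtB W e)
    · rw [trC_T H _ hT, trC_T H _ hT, trK_b_inv]
    · rw [not_le] at hE hT
      have hneg : ∀ z : F, v (-xtT W e x y - z) = v (xtT W e x y + z) := by
        intro z
        rw [← Valuation.map_neg]; congr 1; ring
      rcases tr_sign H h hT hE with ⟨h1, h2⟩ | ⟨h1, h2⟩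
      · rw [trC_Np h hT hE h1, trC_Nm _ hT hE]
        rw [xt_T_negY, hneg, h2]; exact lt_irrefl _
      · rw [trC_Nm h hT hE (by rw [h2]; exact lt_irrefl _), trC_Np _ hT hE, inv_inv]
        rw [xt_T_negY, hneg]; exact h1

/-- The 2-torsion point `T = (e, ·)` (the node side). -/
noncomputable def TrHyp.T (H : TrHyp v W e s) : W.Point :=
  Point.some e (xtTy W e) (xt_T_nonsingular H.two_ne H.root H.b_ne)

lemma TrHyp.T_add_T (H : TrHyp v W e s) : H.T + H.T = 0 := by
  have := tt_two_nsmul_eq_zero H.root (xt_T_nonsingular H.two_ne H.root H.b_ne)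
  rw [two_nsmul] at this
  exact this

omit [DecidableEq F] in
lemma TrHyp.eq_T (H : TrHyp v W e s) {y : F} (h : W.Nonsingular e y) :
    Point.some e y h = H.T := by
  have hy : y = xtTy W e :=
    tt_y_eq H.two_ne H.root h.1 (xt_T_nonsingular H.two_ne H.root H.b_ne).1
  subst hy
  rfl

omit [DecidableEq F] in
lemma trC_T0 (H : TrHyp v W e s) : trC v W e s H.T = trK v (xtB W e) (xtB W e) := by
  apply trC_T H
  rw [sub_self, map_zero]
  exact zero_le

/-- `c(R + T) = c(R) τ`, exactly. -/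
theorem trC_add_T (H : TrHyp v W e s) (R : W.Point) :
    trC v W e s (R + H.T) = trC v W e s R * trK v (xtB W e) (xtB W e) := by
  rcases R with _ | ⟨x, y, h⟩
  · show trC v W e s (0 + H.T) = trC v W e s 0 * _
    rw [zero_add, trC_zero, one_mul, trC_T0]
  · by_cases hx : x = e
    · subst hx
      rw [H.eq_T h, H.T_add_T, trC_zero, trC_T0 H, trK_b_mul_self]
    · obtain ⟨x', y', h', hadd, hξ, hx', ht⟩ :=
        xt_add_T_t H.two_ne H.root H.b_ne (xt_T_nonsingular H.two_ne H.root H.b_ne) h hx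
      have hD : x - e ≠ 0 := sub_ne_zero.mpr hx
      have hD' : x' - e ≠ 0 := sub_ne_zero.mpr hx'
      have hval : v (x' - e) * v (x - e) = v (xtB W e) := by rw [← map_mul, hξ]
      have hpos : 0 < v (x - e) := zero_lt_iff.mpr ((v.ne_zero_iff).mpr hD)
      have hpos' : 0 < v (x' - e) := zero_lt_iff.mpr ((v.ne_zero_iff).mpr hD')
      have hsum : Point.some x y h + H.T = Point.some x' y' h' := hadd
      rw [hsum]
      by_cases hE : 1 ≤ v (x - e)
      · have hT' : v (x' - e) ≤ v (xtB W e) := by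
          calc v (x' - e) = v (x' - e) * 1 := (mul_one _).symm
            _ ≤ v (x' - e) * v (x - e) := mul_le_mul_right hE _
            _ = v (xtB W e) := hval
        rw [trC_E h hE, trC_T H h' hT', one_mul]
      by_cases hT : v (x - e) ≤ v (xtB W e)
      · have hE' : 1 ≤ v (x' - e) := by
          by_contra hlt
          rw [not_le] at hlt
          have : v (x' - e) * v (x - e) < 1 * v (x - e) := mul_lt_mul_of_pos_right hlt hpos
          rw [one_mul, hval] at this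
          exact absurd hT (not_le.mpr this)
        rw [trC_T H h hT, trC_E h' hE', trK_b_mul_self]
      · rw [not_le] at hE hT
        have h1' : v (xtB W e) < v (x' - e) := by
          calc v (xtB W e) = v (x' - e) * v (x - e) := hval.symm
            _ < v (x' - e) * 1 := mul_lt_mul_of_pos_left hE hpos'
            _ = v (x' - e) := mul_one _
        have h2' : v (x' - e) < 1 := by
          by_contra hge
          rw [not_lt] at hge
          have : v (x - e) ≤ v (xtB W e) := by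
            calc v (x - e) = 1 * v (x - e) := (one_mul _).symm
              _ ≤ v (x' - e) * v (x - e) := mul_le_mul_left hge _
              _ = v (xtB W e) := hval
          exact absurd this (not_le.mpr hT)
        have hk : trK v (xtB W e) (x' - e) =
            trK v (xtB W e) (xtB W e) * (trK v (xtB W e) (x - e))⁻¹ := by
          rw [eq_mul_inv_iff_mul_eq, ← trK_mul v _ hD' hD, hξ]
        have hneg : ∀ z : F, v (-xtT W e x y - z) = v (xtT W e x y + z) := by
          intro z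
          rw [← Valuation.map_neg]; congr 1; ring
        rcases tr_sign H h hT hE with ⟨s1, s2⟩ | ⟨s1, s2⟩
        · rw [trC_Np h hT hE s1, trC_Nm h' h1' h2' (by rw [ht, hneg, s2]; exact lt_irrefl _),
            hk, mul_inv, inv_inv, trK_b_inv, mul_comm]
        · rw [trC_Nm h hT hE (by rw [s2]; exact lt_irrefl _),
            trC_Np h' h1' h2' (by rw [ht, hneg]; exact s1), hk, mul_comm]

/-! ### Reduction to "good" points -/

omit [DecidableEq F] in
lemma tr_aux_le {p q β : Γ₀} (h : p * q = β) (hq : 1 ≤ q) : p ≤ β := by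
  calc p = p * 1 := (mul_one _).symm
    _ ≤ p * q := mul_le_mul_right hq _
    _ = β := h

omit [DecidableEq F] in
lemma tr_aux_ge {p q β : Γ₀} (h : p * q = β) (hq0 : 0 < q) (hq : q ≤ β) : 1 ≤ p := by
  by_contra hlt
  rw [not_le] at hlt
  have : p * q < 1 * q := mul_lt_mul_of_pos_right hlt hq0
  rw [one_mul, h] at this
  exact absurd hq (not_le.mpr this)

omit [DecidableEq F] in
lemma tr_aux_gt {p q β : Γ₀} (h : p * q = β) (hp0 : 0 < p) (hq : q < 1) : β < p := by
  calc β = p * q := h.symm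
    _ < p * 1 := mul_lt_mul_of_pos_left hq hp0
    _ = p := mul_one _

omit [DecidableEq F] in
lemma tr_aux_lt {p q β : Γ₀} (h : p * q = β) (hq : β < q) : p < 1 := by
  by_contra hge
  rw [not_lt] at hge
  have : q ≤ β := by
    calc q = 1 * q := (one_mul _).symm
      _ ≤ p * q := mul_le_mul_left hge _
      _ = β := h
  exact absurd this (not_le.mpr hq)

omit [DecidableEq F] in
lemma tr_aux_sq_gt {p q β : Γ₀} (h : p * q = β ^ 2) (hβ : 0 < β) (hq : q < β) : β < p := by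
  by_contra hle
  rw [not_lt] at hle
  have h1 : p * q ≤ β * q := mul_le_mul_left hle _
  have h2 : β * q < β * β := mul_lt_mul_of_pos_left hq hβ
  rw [h, pow_two] at h1
  exact absurd h1 (not_le.mpr h2)

omit [DecidableEq F] in
lemma tr_aux_sq_lt {p q β : Γ₀} (h : p * q = β ^ 2) (hq : β ^ 2 < q) : p < 1 :=
  tr_aux_lt h hq

/-- "Good" points: `O`, points of `E₀`, and points of the annulus with sign `+`. -/
def TrGood (v : Valuation F Γ₀) (W : Affine F) (e s : F) (P : W.Point) : Prop :=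
  P = 0 ∨ ∃ (x y : F) (h : W.Nonsingular x y), P = Point.some x y h ∧
    (1 ≤ v (x - e) ∨
      (v (xtB W e) < v (x - e) ∧ v (x - e) < 1 ∧ v (xtT W e x y - s) < 1))

/-- Every point is good or a good point plus `T`. -/
lemma tr_exists_good (H : TrHyp v W e s) (P : W.Point) :
    ∃ P₀ : W.Point, TrGood v W e s P₀ ∧ (P = P₀ ∨ P = P₀ + H.T) := by
  rcases P with _ | ⟨x, y, h⟩
  · exact ⟨0, Or.inl rfl, Or.inl rfl⟩
  · by_cases hE : 1 ≤ v (x - e)
    · exact ⟨_, Or.inr ⟨x, y, h, rfl, Or.inl hE⟩, Or.inl rfl⟩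
    by_cases hs : v (xtB W e) < v (x - e) ∧ v (xtT W e x y - s) < 1
    · exact ⟨_, Or.inr ⟨x, y, h, rfl, Or.inr ⟨hs.1, not_le.mp hE, hs.2⟩⟩, Or.inl rfl⟩
    · refine ⟨Point.some x y h + H.T, ?_, Or.inr ?_⟩
      · by_cases hx : x = e
        · subst hx
          left
          rw [H.eq_T h, H.T_add_T]
        · obtain ⟨x', y', h', hadd, hξ, hx', ht⟩ :=
            xt_add_T_t H.two_ne H.root H.b_ne (xt_T_nonsingular H.two_ne H.root H.b_ne) h hx
          have hD : x - e ≠ 0 := sub_ne_zero.mpr hx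
          have hD' : x' - e ≠ 0 := sub_ne_zero.mpr hx'
          have hval : v (x' - e) * v (x - e) = v (xtB W e) := by rw [← map_mul, hξ]
          have hpos : 0 < v (x - e) := zero_lt_iff.mpr ((v.ne_zero_iff).mpr hD)
          have hpos' : 0 < v (x' - e) := zero_lt_iff.mpr ((v.ne_zero_iff).mpr hD')
          right
          refine ⟨x', y', h', hadd, ?_⟩
          by_cases hT : v (x - e) ≤ v (xtB W e)
          · exact Or.inl (tr_aux_ge hval hpos hT)
          · right
            rw [not_le] at hT hE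
            have hns : ¬ v (xtT W e x y - s) < 1 := fun h' => hs ⟨hT, h'⟩
            have hneg : ∀ z : F, v (-xtT W e x y - z) = v (xtT W e x y + z) := by
              intro z
              rw [← Valuation.map_neg]; congr 1; ring
            rcases tr_sign H h hT hE with ⟨s1, _⟩ | ⟨s1, _⟩
            · exact absurd s1 hns
            · exact ⟨tr_aux_gt hval hpos' hE, tr_aux_lt hval hT, by rw [ht, hneg]; exact s1⟩
      · rw [add_assoc, H.T_add_T, add_zero]

/-! ### The sum of two good points -/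

omit [DecidableEq F] in
lemma tr_good_ne (H : TrHyp v W e s) {x y : F}
    (hP : 1 ≤ v (x - e) ∨
      (v (xtB W e) < v (x - e) ∧ v (x - e) < 1 ∧ v (xtT W e x y - s) < 1)) : x ≠ e := by
  rintro rfl
  rw [sub_self, map_zero] at hP
  rcases hP with h | ⟨h, -, -⟩
  · exact absurd h (not_le.mpr zero_lt_one)
  · exact not_lt_zero h

theorem trC_add_good (H : TrHyp v W e s) {P Q : W.Point} (hP : TrGood v W e s P)
    (hQ : TrGood v W e s Q) :
    trC v W e s (P + Q) = trC v W e s P * trC v W e s Q ∨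
      trC v W e s (P + Q) = (trC v W e s P * trC v W e s Q)⁻¹ := by
  rcases hP with rfl | ⟨x₁, y₁, h₁, rfl, hP⟩
  · left; rw [zero_add, trC_zero, one_mul]
  rcases hQ with rfl | ⟨x₂, y₂, h₂, rfl, hQ⟩
  · left; rw [add_zero, trC_zero, mul_one]
  by_cases hxy : x₁ = x₂ ∧ y₁ = W.negY x₂ y₂
  · left
    have hneg : Point.some x₂ y₂ h₂ = -Point.some x₁ y₁ h₁ := by
      obtain ⟨rfl, rfl⟩ := hxy
      rw [Point.neg_some]
      congr 1
      rw [negY_negY]
    rw [hneg, add_neg_cancel, trC_zero, trC_neg H, mul_inv_cancel]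
  · have hx₁ : x₁ ≠ e := tr_good_ne H hP
    have hx₂ : x₂ ≠ e := tr_good_ne H hQ
    have hD₁ : x₁ - e ≠ 0 := sub_ne_zero.mpr hx₁
    have hD₂ : x₂ - e ≠ 0 := sub_ne_zero.mpr hx₂
    obtain ⟨x₃, y₃, h₃, hadd, hU⟩ := xt_add_t H.two_ne H.root h₁ h₂ hx₁ hx₂ hxy
    rw [hadd]
    have ht1 := xt_T_sq H.two_ne H.root h₁.1 hx₁
    have ht2 := xt_T_sq H.two_ne H.root h₂.1 hx₂
    have hbpos := H.b_pos
    rcases hP with hE₁ | ⟨a1, b1, s1⟩ <;> rcases hQ with hE₂ | ⟨a2, b2, s2⟩
    · -- E + E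
      have h3 := tl_EE v H.two H.a_one H.s_sq H.b_ne H.b_lt ht1 ht2 hU hE₁ hE₂
      left
      rw [trC_E h₃ h3, trC_E h₁ hE₁, trC_E h₂ hE₂, one_mul]
    · -- E + N
      have h3 := tl_EN v H.two H.a_one H.s_sq H.b_ne H.b_lt ht1 ht2 hU hE₁ a2 b2 s2
      have hx₃ : x₃ ≠ e := tr_ne_of_lt (h3 ▸ a2)
      rw [trC_E h₁ hE₁, trC_Np h₂ a2 b2 s2, one_mul,
        ← trK_eq_of_val_eq v _ (sub_ne_zero.mpr hx₃) hD₂ h3]
      exact trC_N_or h₃ (h3 ▸ a2) (h3 ▸ b2)
    · -- N + E
      have hU' : (x₃ - e) * ((x₂ - e) * (x₁ - e)) * (xtT W e x₂ y₂ + xtT W e x₁ y₁) ^ 2 =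
          ((x₂ - e) * (x₁ - e) - xtB W e) ^ 2 := by
        rw [mul_comm (x₂ - e), add_comm (xtT W e x₂ y₂)]; exact hU
      have h3 := tl_EN v H.two H.a_one H.s_sq H.b_ne H.b_lt ht2 ht1 hU' hE₂ a1 b1 s1
      have hx₃ : x₃ ≠ e := tr_ne_of_lt (h3 ▸ a1)
      rw [trC_E h₂ hE₂, trC_Np h₁ a1 b1 s1, mul_one,
        ← trK_eq_of_val_eq v _ (sub_ne_zero.mpr hx₃) hD₁ h3]
      exact trC_N_or h₃ (h3 ▸ a1) (h3 ▸ b1)
    · -- N + N
      obtain ⟨c1, c2, c3⟩ := tl_NN v H.two H.a_one H.s_sq H.b_ne H.b_lt ht1 ht2 hU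
        a1 b1 a2 b2 s1 s2
      have hD₁₂ : (x₁ - e) * (x₂ - e) ≠ 0 := mul_ne_zero hD₁ hD₂
      rw [trC_Np h₁ a1 b1 s1, trC_Np h₂ a2 b2 s2, ← trK_mul v _ hD₁ hD₂]
      rcases lt_trichotomy (v (xtB W e)) (v ((x₁ - e) * (x₂ - e))) with hlt | heq | hgt
      · have h3 : v (x₃ - e) = v ((x₁ - e) * (x₂ - e)) := by rw [map_mul]; exact c1 hlt
        have hlt1 : v ((x₁ - e) * (x₂ - e)) < 1 := by
          rw [map_mul]
          calc v (x₁ - e) * v (x₂ - e) ≤ v (x₁ - e) * 1 := mul_le_mul_right (le_of_lt b2) _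
            _ = v (x₁ - e) := mul_one _
            _ < 1 := b1
        have hx₃ : x₃ ≠ e := tr_ne_of_lt (h3 ▸ hlt)
        rw [← trK_eq_of_val_eq v _ (sub_ne_zero.mpr hx₃) hD₁₂ h3]
        exact trC_N_or h₃ (h3 ▸ hlt) (h3 ▸ hlt1)
      · left
        rw [trC_T H h₃ (c3 heq.symm)]
        exact trK_eq_of_val_eq v _ H.b_ne hD₁₂ heq
      · have h3 : v (x₃ - e) * v ((x₁ - e) * (x₂ - e)) = v (xtB W e) ^ 2 := by
          rw [map_mul]; exact c2 hgt
        have hgt1 : v (xtB W e) ^ 2 < v ((x₁ - e) * (x₂ - e)) := by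
          rw [map_mul, pow_two]
          exact mul_lt_mul'' a1 a2 zero_le zero_le
        have g1 : v (xtB W e) < v (x₃ - e) := tr_aux_sq_gt h3 hbpos hgt
        have g2 : v (x₃ - e) < 1 := tr_aux_sq_lt h3 hgt1
        have hx₃ : x₃ ≠ e := tr_ne_of_lt g1
        have hk : trK v (xtB W e) (x₃ - e) = (trK v (xtB W e) ((x₁ - e) * (x₂ - e)))⁻¹ :=
          trK_eq_inv_of_mul v H.b_ne (sub_ne_zero.mpr hx₃) hD₁₂ h3
        rcases trC_N_or (s := s) h₃ g1 g2 with h | h
        · right; rw [h, hk]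
        · left; rw [h, hk, inv_inv]

omit [DecidableEq F] in
lemma tr_grp_aux {G : Type*} [CommGroup G] {X Y Z τ : G} (hτ : τ * τ = 1)
    (k : Z = X * Y ∨ Z = (X * Y)⁻¹) :
    (Z * τ = X * (Y * τ) ∨ Z * τ = (X * (Y * τ))⁻¹) ∧
    (Z * τ = X * τ * Y ∨ Z * τ = (X * τ * Y)⁻¹) ∧
    (Z = X * τ * (Y * τ) ∨ Z = (X * τ * (Y * τ))⁻¹) := by
  have hτi : τ⁻¹ = τ := inv_eq_of_mul_eq_one_left hτ
  have e1 : X * (Y * τ) = X * Y * τ := (mul_assoc _ _ _).symm
  have e2 : X * τ * Y = X * Y * τ := mul_right_comm _ _ _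
  have e3 : X * τ * (Y * τ) = X * Y := by rw [mul_mul_mul_comm, hτ, mul_one]
  rw [e1, e2, e3]
  rcases k with k | k
  · exact ⟨Or.inl (by rw [k]), Or.inl (by rw [k]), Or.inl k⟩
  · exact ⟨Or.inr (by rw [k, mul_inv (X * Y) τ, hτi]), Or.inr (by rw [k, mul_inv (X * Y) τ, hτi]),
      Or.inr k⟩

/-- The sign-ambiguous additivity of the component map. -/
theorem trC_add_or (H : TrHyp v W e s) (P Q : W.Point) :
    trC v W e s (P + Q) = trC v W e s P * trC v W e s Q ∨
      trC v W e s (P + Q) = (trC v W e s P * trC v W e s Q)⁻¹ := by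
  obtain ⟨P₀, gP, hP⟩ := tr_exists_good H P
  obtain ⟨Q₀, gQ, hQ⟩ := tr_exists_good H Q
  have key := trC_add_good H gP gQ
  obtain ⟨k1, k2, k3⟩ := tr_grp_aux (trK_b_mul_self v (xtB W e)) key
  rcases hP with rfl | rfl <;> rcases hQ with rfl | rfl
  · exact key
  · rw [← add_assoc, trC_add_T H, trC_add_T H]
    exact k1
  · rw [add_right_comm, trC_add_T H, trC_add_T H]
    exact k2
  · have : P₀ + H.T + (Q₀ + H.T) = P₀ + Q₀ := by
      rw [add_add_add_comm, H.T_add_T, add_zero]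
    rw [this, trC_add_T H, trC_add_T H]
    exact k3

/-- **The component map is a homomorphism.** -/
theorem trC_add (H : TrHyp v W e s) (P Q : W.Point) :
    trC v W e s (P + Q) = trC v W e s P * trC v W e s Q :=
  gl_map_add (trC v W e s) (trC_neg H) (trC_add_or H) P Q

theorem trC_sub (H : TrHyp v W e s) (P Q : W.Point) :
    trC v W e s (P - Q) = trC v W e s P * (trC v W e s Q)⁻¹ :=
  gl_map_sub (trC v W e s) (trC_neg H) (trC_add_or H) P Q

theorem trC_nsmul (H : TrHyp v W e s) (n : ℕ) (P : W.Point) :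
    trC v W e s (n • P) = trC v W e s P ^ n :=
  gl_map_nsmul (trC v W e s) trC_zero (trC_neg H) (trC_add_or H) n P

end comp

end Fermat.Agent.S05
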