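import Fermat.Agent.S05.Kummer

/-!
# S05 library, piece C1: the exact `(ξ, t)`-calculus centred at a 2-torsion root

`W` is a general Weierstrass curve over a field `F` with `2 ≠ 0`, `e` is a root of
`ψ₂² = 4x³ + b₂x² + 2b₄x + b₆` (the `x`-coordinate of a 2-torsion point).  With
`ξ = x - e`, `Y = 2y + a₁x + a₃`, `a = 3e + b₂/4`, `b = 3e² + b₂e/2 + b₄/2` one has
`Y² = 4 ξ (ξ² + a ξ + b)` and, for the Mathlib group law,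

`ξ(P₁ + P₂) · (Y₁ ξ₂ + Y₂ ξ₁)² = 4 ξ₁ ξ₂ (ξ₁ ξ₂ - b)²`   (chord and tangent),
`ξ(P + T) · ξ(P) = b` for the 2-torsion point `T = (e, ·)`.
-/

namespace Fermat.Agent.S05

open WeierstrassCurve WeierstrassCurve.Affine

variable {F : Type*} [Field F] {W : Affine F}

/-- `Y = 2y + a₁x + a₃`. -/
def xtY (W : Affine F) (x y : F) : F := 2 * y + W.a₁ * x + W.a₃

/-- The coefficient `a` of the centred model `Y² = 4 ξ (ξ² + a ξ + b)`. -/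
def xtA (W : Affine F) (e : F) : F := 3 * e + W.b₂ / 4

/-- The coefficient `b` of the centred model `Y² = 4 ξ (ξ² + a ξ + b)`. -/
def xtB (W : Affine F) (e : F) : F := 3 * e ^ 2 + W.b₂ * e / 2 + W.b₄ / 2

lemma xt_four_ne_zero (h2 : (2 : F) ≠ 0) : (4 : F) ≠ 0 := by
  have : (4 : F) = 2 * 2 := by norm_num
  rw [this]; exact mul_ne_zero h2 h2

/-- The centred factorisation of `ψ₂²`. -/
lemma xt_psi2Sq (h2 : (2 : F) ≠ 0) {e : F} (he : psi2Sq W e = 0) (x : F) :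
    psi2Sq W x = 4 * (x - e) * ((x - e) ^ 2 + xtA W e * (x - e) + xtB W e) := by
  have h4 := xt_four_ne_zero h2
  simp only [psi2Sq] at he ⊢
  simp only [xtA, xtB]
  field_simp
  linear_combination 2 * he

lemma xt_Y_sq (h2 : (2 : F) ≠ 0) {e : F} (he : psi2Sq W e = 0) {x y : F} (h : W.Equation x y) :
    xtY W x y ^ 2 = 4 * (x - e) * ((x - e) ^ 2 + xtA W e * (x - e) + xtB W e) := by
  rw [← xt_psi2Sq h2 he, ← psi2_sq_eq h]; rfl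

/-- The centred form of `sumNum`. -/
lemma xt_sumNum (h2 : (2 : F) ≠ 0) {e : F} (he : psi2Sq W e = 0) (x₁ x₂ : F) :
    sumNum W x₁ x₂ - 2 * e * (x₁ - x₂) ^ 2 =
      2 * ((x₁ - e) * (x₂ - e) * ((x₁ - e) + (x₂ - e)) + 2 * xtA W e * ((x₁ - e) * (x₂ - e)) +
        xtB W e * ((x₁ - e) + (x₂ - e))) := by
  have h4 := xt_four_ne_zero h2
  simp only [psi2Sq] at he
  simp only [sumNum, xtA, xtB]
  field_simp
  linear_combination 4 * he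

/-- The centred form of the duplication numerator. -/
lemma xt_dupNum (h2 : (2 : F) ≠ 0) {e : F} (he : psi2Sq W e = 0) (x : F) :
    dupNum W x - e * psi2Sq W x = ((x - e) ^ 2 - xtB W e) ^ 2 := by
  have h4 := xt_four_ne_zero h2
  simp only [psi2Sq] at he
  have hb8 := W.b_relation
  simp only [dupNum, psi2Sq, xtB]
  have hb6 : W.b₆ = -(4 * e ^ 3 + W.b₂ * e ^ 2 + 2 * W.b₄ * e) := by linear_combination he
  have hb8' : W.b₈ = (W.b₂ * W.b₆ - W.b₄ ^ 2) / 4 := by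
    field_simp; linear_combination hb8
  rw [hb8', hb6]
  field_simp
  ring

/-- `Y(-P) = -Y(P)`. -/
lemma xt_Y_negY (x y : F) : xtY W x (W.negY x y) = -xtY W x y := by
  simp only [xtY, negY]; ring

/-- `Y = 0` at a point with `ξ = 0`. -/
lemma xt_Y_eq_zero (h2 : (2 : F) ≠ 0) {e : F} (he : psi2Sq W e = 0) {y : F}
    (h : W.Equation e y) : xtY W e y = 0 := by
  have h' := xt_Y_sq h2 he h
  have : xtY W e y ^ 2 = 0 := by rw [h']; ring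
  exact pow_eq_zero_iff two_ne_zero |>.mp this

variable [DecidableEq F]

/-- The key exact formula, chord case. -/
theorem xt_add_of_X_ne (h2 : (2 : F) ≠ 0) {e : F} (he : psi2Sq W e = 0) {x₁ y₁ x₂ y₂ : F}
    (h₁ : W.Nonsingular x₁ y₁) (h₂ : W.Nonsingular x₂ y₂) (hx : x₁ ≠ x₂) :
    ∃ (x₃ y₃ : F) (h₃ : W.Nonsingular x₃ y₃),
      Point.some x₁ y₁ h₁ + Point.some x₂ y₂ h₂ = Point.some x₃ y₃ h₃ ∧
      (x₃ - e) * (xtY W x₁ y₁ * (x₂ - e) + xtY W x₂ y₂ * (x₁ - e)) ^ 2 =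
        4 * ((x₁ - e) * (x₂ - e)) * ((x₁ - e) * (x₂ - e) - xtB W e) ^ 2 := by
  obtain ⟨xp, yp, hp, xm, ym, hm, hadd, -, hs, hd⟩ := add_sub_of_X_ne h₁ h₂ hx
  refine ⟨xp, yp, hp, hadd, ?_⟩
  have hD : x₁ - x₂ ≠ 0 := sub_ne_zero.mpr hx
  have hY₁ := xt_Y_sq h2 he h₁.1
  have hY₂ := xt_Y_sq h2 he h₂.1
  have hS := xt_sumNum (W := W) h2 he x₁ x₂
  -- `2 (xp - e) (x₁ - x₂)² = sumNum - 2e(x₁-x₂)² - Y₁Y₂`
  have hxp : 2 * (xp - e) * (x₁ - x₂) ^ 2 =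
      sumNum W x₁ x₂ - 2 * e * (x₁ - x₂) ^ 2 - xtY W x₁ y₁ * xtY W x₂ y₂ := by
    simp only [xtY]
    linear_combination hs + hd
  -- (I1): `4 ξp ξ₁ ξ₂ (ξ₁-ξ₂)² = (Y₂ξ₁ - Y₁ξ₂)²`
  have hI1 : 4 * (xp - e) * ((x₁ - e) * (x₂ - e)) * (x₁ - x₂) ^ 2 =
      (xtY W x₂ y₂ * (x₁ - e) - xtY W x₁ y₁ * (x₂ - e)) ^ 2 := by
    have : 4 * (xp - e) * ((x₁ - e) * (x₂ - e)) * (x₁ - x₂) ^ 2 =
        2 * ((x₁ - e) * (x₂ - e)) * (2 * (xp - e) * (x₁ - x₂) ^ 2) := by ring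
    rw [this, hxp, hS]
    linear_combination (-(x₂ - e) ^ 2) * hY₁ - ((x₁ - e) ^ 2) * hY₂
  -- (I2): `(Y₂ξ₁ - Y₁ξ₂)(Y₂ξ₁ + Y₁ξ₂) = -4ξ₁ξ₂(ξ₁-ξ₂)(ξ₁ξ₂ - b)`
  have hI2 : (xtY W x₂ y₂ * (x₁ - e) - xtY W x₁ y₁ * (x₂ - e)) *
      (xtY W x₁ y₁ * (x₂ - e) + xtY W x₂ y₂ * (x₁ - e)) =
      -(4 * ((x₁ - e) * (x₂ - e)) * (x₁ - x₂) * ((x₁ - e) * (x₂ - e) - xtB W e)) := by
    linear_combination (-(x₂ - e) ^ 2) * hY₁ + ((x₁ - e) ^ 2) * hY₂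
  have h4 := xt_four_ne_zero h2
  by_cases hξ : (x₁ - e) * (x₂ - e) = 0
  · -- degenerate: one of the points is the 2-torsion point; both sides vanish
    rcases mul_eq_zero.mp hξ with h | h
    · have hY₁0 : xtY W x₁ y₁ = 0 := by
        have : xtY W x₁ y₁ ^ 2 = 0 := by rw [hY₁, h]; ring
        exact pow_eq_zero_iff (two_ne_zero) |>.mp this
      rw [h, hY₁0]; ring
    · have hY₂0 : xtY W x₂ y₂ = 0 := by
        have : xtY W x₂ y₂ ^ 2 = 0 := by rw [hY₂, h]; ring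
        exact pow_eq_zero_iff (two_ne_zero) |>.mp this
      rw [h, hY₂0]; ring
  · have hcancel : 4 * ((x₁ - e) * (x₂ - e)) * (x₁ - x₂) ^ 2 ≠ 0 :=
      mul_ne_zero (mul_ne_zero h4 hξ) (pow_ne_zero 2 hD)
    apply mul_left_cancel₀ hcancel
    have e1 : 4 * ((x₁ - e) * (x₂ - e)) * (x₁ - x₂) ^ 2 *
        ((xp - e) * (xtY W x₁ y₁ * (x₂ - e) + xtY W x₂ y₂ * (x₁ - e)) ^ 2) =
        ((xtY W x₂ y₂ * (x₁ - e) - xtY W x₁ y₁ * (x₂ - e)) *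
          (xtY W x₁ y₁ * (x₂ - e) + xtY W x₂ y₂ * (x₁ - e))) ^ 2 := by
      rw [mul_pow, ← hI1]; ring
    rw [e1, hI2]; ring

/-- The key exact formula, tangent case. -/
theorem xt_two_nsmul (h2 : (2 : F) ≠ 0) {e : F} (he : psi2Sq W e = 0) {x y : F}
    (h : W.Nonsingular x y) (hy : y ≠ W.negY x y) :
    ∃ (x₃ y₃ : F) (h₃ : W.Nonsingular x₃ y₃),
      Point.some x y h + Point.some x y h = Point.some x₃ y₃ h₃ ∧
      (x₃ - e) * xtY W x y ^ 2 = ((x - e) ^ 2 - xtB W e) ^ 2 := by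
  rcases two_nsmul_some h with ⟨h0, -⟩ | ⟨hne, x', y', h', e2, hx'⟩
  · exfalso
    apply hy
    rw [← psi2_sq_eq h.1] at h0
    have : 2 * y + W.a₁ * x + W.a₃ = 0 := pow_eq_zero_iff (two_ne_zero) |>.mp h0
    rw [negY]; linear_combination this
  · refine ⟨x', y', h', by rw [← two_nsmul]; exact e2, ?_⟩
    have hY : xtY W x y ^ 2 = psi2Sq W x := psi2_sq_eq h.1
    rw [hY, ← xt_dupNum h2 he x]
    linear_combination hx'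

/-- **The exact `ξ`-addition formula** (chord and tangent): if `P₁ + P₂ ≠ 0` then
`ξ(P₁+P₂) (Y₁ξ₂ + Y₂ξ₁)² = 4 ξ₁ξ₂ (ξ₁ξ₂ - b)²`. -/
theorem xt_add (h2 : (2 : F) ≠ 0) {e : F} (he : psi2Sq W e = 0) {x₁ y₁ x₂ y₂ : F}
    (h₁ : W.Nonsingular x₁ y₁) (h₂ : W.Nonsingular x₂ y₂)
    (hxy : ¬(x₁ = x₂ ∧ y₁ = W.negY x₂ y₂)) :
    ∃ (x₃ y₃ : F) (h₃ : W.Nonsingular x₃ y₃),
      Point.some x₁ y₁ h₁ + Point.some x₂ y₂ h₂ = Point.some x₃ y₃ h₃ ∧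
      (x₃ - e) * (xtY W x₁ y₁ * (x₂ - e) + xtY W x₂ y₂ * (x₁ - e)) ^ 2 =
        4 * ((x₁ - e) * (x₂ - e)) * ((x₁ - e) * (x₂ - e) - xtB W e) ^ 2 := by
  by_cases hx : x₁ = x₂
  · have hy : y₁ ≠ W.negY x₂ y₂ := fun hy => hxy ⟨hx, hy⟩
    have hyy : y₁ = y₂ := Y_eq_of_Y_ne h₁.1 h₂.1 hx hy
    subst hx; subst hyy
    obtain ⟨x₃, y₃, h₃, e3, hf⟩ := xt_two_nsmul h2 he h₁ hy
    refine ⟨x₃, y₃, h₃, e3, ?_⟩
    linear_combination (4 * (x₁ - e) ^ 2) * hf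
  · exact xt_add_of_X_ne h2 he h₁ h₂ hx

/-- Companion formula for the difference `P₁ - P₂`. -/
theorem xt_sub (h2 : (2 : F) ≠ 0) {e : F} (he : psi2Sq W e = 0) {x₁ y₁ x₂ y₂ : F}
    (h₁ : W.Nonsingular x₁ y₁) (h₂ : W.Nonsingular x₂ y₂)
    (hxy : ¬(x₁ = x₂ ∧ y₁ = y₂)) :
    ∃ (x₃ y₃ : F) (h₃ : W.Nonsingular x₃ y₃),
      Point.some x₁ y₁ h₁ - Point.some x₂ y₂ h₂ = Point.some x₃ y₃ h₃ ∧
      (x₃ - e) * (xtY W x₁ y₁ * (x₂ - e) - xtY W x₂ y₂ * (x₁ - e)) ^ 2 =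
        4 * ((x₁ - e) * (x₂ - e)) * ((x₁ - e) * (x₂ - e) - xtB W e) ^ 2 := by
  have h₂' : W.Nonsingular x₂ (W.negY x₂ y₂) := (nonsingular_neg ..).mpr h₂
  have hxy' : ¬(x₁ = x₂ ∧ y₁ = W.negY x₂ (W.negY x₂ y₂)) := by
    rw [negY_negY]; exact hxy
  obtain ⟨x₃, y₃, h₃, e3, hf⟩ := xt_add h2 he h₁ h₂' hxy'
  refine ⟨x₃, y₃, h₃, by rw [sub_eq_add_neg, Point.neg_some]; exact e3, ?_⟩
  have hYneg : xtY W x₂ (W.negY x₂ y₂) = -xtY W x₂ y₂ := by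
    simp only [xtY, negY]; ring
  rw [hYneg] at hf
  linear_combination hf

end Fermat.Agent.S05
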