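import Fermat.Agent.S05.XT
import Fermat.Agent.S05.TransTwo

/-!
# S05 library, piece C1b: the 2-torsion point `T = (e, ·)` and the translation `P ↦ P + T`
in the centred coordinates `ξ = x - e`, `Y = 2y + a₁x + a₃`:
`ξ(P+T) ξ(P) = b`,  `Y(P+T) ξ(P) = - Y(P) ξ(P+T)`.
-/

namespace Fermat.Agent.S05

open WeierstrassCurve WeierstrassCurve.Affine

variable {F : Type*} [Field F] {W : Affine F}

/-- `2 b = 6e² + b₂ e + b₄`. -/
lemma xt_two_mul_B (h2 : (2 : F) ≠ 0) (e : F) :
    2 * xtB W e = 6 * e ^ 2 + W.b₂ * e + W.b₄ := by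
  simp only [xtB]; field_simp; ring

/-- The `y`-coordinate of the 2-torsion point above `e`. -/
noncomputable def xtTy (W : Affine F) (e : F) : F := -(W.a₁ * e + W.a₃) / 2

lemma xt_T_equation (h2 : (2 : F) ≠ 0) {e : F} (he : psi2Sq W e = 0) :
    W.Equation e (xtTy W e) := by
  rw [Affine.equation_iff]
  simp only [psi2Sq, WeierstrassCurve.b₂, WeierstrassCurve.b₄, WeierstrassCurve.b₆] at he
  simp only [xtTy]
  field_simp
  linear_combination -he

lemma xt_T_nonsingular (h2 : (2 : F) ≠ 0) {e : F} (he : psi2Sq W e = 0) (hb : xtB W e ≠ 0) :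
    W.Nonsingular e (xtTy W e) := by
  rw [Affine.nonsingular_iff]
  refine ⟨xt_T_equation h2 he, Or.inl ?_⟩
  intro h
  apply hb
  simp only [xtB, WeierstrassCurve.b₂, WeierstrassCurve.b₄]
  simp only [xtTy] at h
  field_simp at h ⊢
  linear_combination -h

/-- The linear identity behind the `Y`-part of the translation formula. -/
lemma xt_addY_identity {e yT x y : F} (hT : 2 * yT + W.a₁ * e + W.a₃ = 0) (hx : x ≠ e) :
    xtY W (W.addX x e ((y - yT) / (x - e))) (W.addY x e y ((y - yT) / (x - e))) * (x - e) =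
      -(xtY W x y * (W.addX x e ((y - yT) / (x - e)) - e)) := by
  have hD : x - e ≠ 0 := sub_ne_zero.mpr hx
  simp only [xtY, addY, negAddY, negY]
  generalize W.addX x e ((y - yT) / (x - e)) = X
  field_simp
  linear_combination (X - x) * hT

variable [DecidableEq F]

/-- **Translation by the 2-torsion point** in centred coordinates:
`ξ' ξ = b` and `Y' ξ = - Y ξ'`. -/
theorem xt_add_T (h2 : (2 : F) ≠ 0) {e yT x y : F} (he : psi2Sq W e = 0)
    (hT : W.Nonsingular e yT) (h : W.Nonsingular x y) (hx : x ≠ e) :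
    ∃ (x' y' : F) (h' : W.Nonsingular x' y'),
      Point.some x y h + Point.some e yT hT = Point.some x' y' h' ∧
      (x' - e) * (x - e) = xtB W e ∧
      xtY W x' y' * (x - e) = -(xtY W x y * (x' - e)) := by
  refine ⟨_, _, nonsingular_add h hT fun hxy => hx hxy.left, Point.add_of_X_ne hx, ?_, ?_⟩
  · rw [slope_of_X_ne hx]
    have h1 := tt_addX_identity he hT.1 h.1 hx
    have h2b := xt_two_mul_B (W := W) h2 e
    have : 2 * ((W.addX x e ((y - yT) / (x - e)) - e) * (x - e) - xtB W e) = 0 := by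
      linear_combination h1 - h2b
    exact sub_eq_zero.mp ((mul_eq_zero.mp this).resolve_left h2)
  · rw [slope_of_X_ne hx]
    exact xt_addY_identity (tt_two_y_eq_zero he hT.1) hx

end Fermat.Agent.S05
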